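import Fermat.Agent.Engine.TRep.ChangeRing
import Fermat.Agent.EigenSystems.TwistInjective

/-!
# Removing characters at auxiliary primes by twisting

For primes `q ∈ Q` exactly dividing `M` and characters `ψ q` of odd order, the group
`H¹(Γ₀(M), K(∏ ψ²))` over a field of characteristic zero embeds into `H¹(Γ₀(M ∏ q), K)`,
multiplying `T_ℓ` by `∏ ψ q (ℓ)`.
-/

set_option autoImplicit false

noncomputable section

open CongruenceSubgroup Matrix.SpecialLinearGroup
open scoped MatrixGroups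

namespace Fermat.Agent.Engine.TRep

open HeckeJ0 HeckeModule EigenSystems

section Char

variable {R : Type} [CommMonoid R] (ψ : ∀ q : ℕ, (ZMod q)ˣ →* R)

/-- The character of `(ℤ/M)ˣ` through `q`, trivial unless `q ∣ M`. -/
def charOn (q M : ℕ) : (ZMod M)ˣ →* R :=
  if h : q ∣ M then (ψ q).comp (ZMod.unitsMap h) else 1

/-- The product of the squares of the characters at `Q`. -/
def charSq (Q : Finset ℕ) (M : ℕ) : (ZMod M)ˣ →* R := ∏ q ∈ Q, charOn ψ q M ^ 2

/-- The value at a natural number of the character at `q`. -/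
def charAt (q a : ℕ) : R :=
  if h : a.Coprime q then ψ q (ZMod.unitOfCoprime a h) else 1

/-- The value at `ℓ` of the product of the characters at `Q`. -/
def charProd (Q : Finset ℕ) (ℓ : ℕ) : R := ∏ q ∈ Q, charAt ψ q ℓ

theorem charOn_unitsMap {q M M' : ℕ} (hq : q ∣ M) (hM : M ∣ M') (u : (ZMod M')ˣ) :
    charOn ψ q M (ZMod.unitsMap hM u) = charOn ψ q M' u := by
  rw [charOn, charOn, dif_pos hq, dif_pos (hq.trans hM), ← ZMod.unitsMap_comp hq hM]
  rfl

theorem charSq_apply (Q : Finset ℕ) (M : ℕ) (u : (ZMod M)ˣ) :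
    charSq ψ Q M u = ∏ q ∈ Q, charOn ψ q M u ^ 2 := by
  simp [charSq]

theorem charSq_unitsMap {Q : Finset ℕ} {M M' : ℕ} (hQ : ∀ q ∈ Q, q ∣ M) (hM : M ∣ M')
    (u : (ZMod M')ˣ) : charSq ψ Q M (ZMod.unitsMap hM u) = charSq ψ Q M' u := by
  rw [charSq_apply, charSq_apply]
  exact Finset.prod_congr rfl fun q hq => by rw [charOn_unitsMap ψ (hQ q hq) hM]

theorem charAt_eq_one_of_natCast_eq_one {q a : ℕ} (h : (a : ZMod q) = 1) : charAt ψ q a = 1 := by
  rw [charAt]
  split
  · rw [show ZMod.unitOfCoprime a _ = 1 from Units.ext (by rw [ZMod.coe_unitOfCoprime, h]; rfl),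
      map_one]
  · rfl

theorem charProd_eq_one {Q : Finset ℕ} {a : ℕ} (h : ∀ q ∈ Q, (a : ZMod q) = 1) :
    charProd ψ Q a = 1 :=
  Finset.prod_eq_one fun q hq => charAt_eq_one_of_natCast_eq_one ψ (h q hq)

theorem charAt_map {R' : Type} [CommMonoid R'] (f : R →* R') (q a : ℕ) :
    charAt (fun q => f.comp (ψ q)) q a = f (charAt ψ q a) := by
  unfold charAt
  split
  · rfl
  · rw [map_one]

theorem charProd_map {R' : Type} [CommMonoid R'] (f : R →* R') (Q : Finset ℕ) (a : ℕ) :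
    charProd (fun q => f.comp (ψ q)) Q a = f (charProd ψ Q a) := by
  rw [charProd, charProd, map_prod]
  exact Finset.prod_congr rfl fun q _ => charAt_map ψ f q a

theorem charSq_map {R' : Type} [CommMonoid R'] (f : R →* R') (Q : Finset ℕ) (M : ℕ) :
    charSq (fun q => f.comp (ψ q)) Q M = f.comp (charSq ψ Q M) := by
  refine MonoidHom.ext fun u => ?_
  rw [MonoidHom.comp_apply, charSq_apply, charSq_apply, map_prod]
  refine Finset.prod_congr rfl fun q _ => ?_
  rw [map_pow]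
  congr 1
  unfold charOn
  split
  · rfl
  · exact (map_one f).symm

end Char

variable {K : Type} [Field K] [CharZero K]

theorem degenMat_one : degenMat 1 = 1 := by
  refine Units.ext ?_
  rw [val_degenMat one_ne_zero, Units.val_one]
  ext i j
  fin_cases i <;> fin_cases j <;> simp

/-- Raising the level without a character is injective in characteristic zero. -/
theorem degen_one_injective {M M' : ℕ} [NeZero M'] (h : 1 * M ∣ M') (χ : (ZMod M)ˣ →* K) :
    Function.Injective (degen (scalarRep χ K) one_ne_zero h) := by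
  classical
  have hM : M ∣ M' := by simpa using h
  refine (injective_iff_map_eq_zero _).mpr fun u hu => ?_
  obtain ⟨c, rfl⟩ := toCoh_surjective _ u
  rw [degen_toCoh, toCoh_eq_zero_iff] at hu
  obtain ⟨a, ha⟩ := hu
  have hle : Gamma0 M' ≤ Gamma0 M := fun γ hγ =>
    (mem_Gamma0_iff_dvd _).mpr ((Int.natCast_dvd_natCast.mpr hM).trans ((mem_Gamma0_iff_dvd _).mp hγ))
  have key : ∀ γ : Gamma0 M', c.1 ⟨γ, hle γ.2⟩ =
      χ (dUnit M ⟨γ, hle γ.2⟩) * a - a := by
    intro γ
    have hg : degenMat 1 * toGL M' γ = toGL M ⟨γ, hle γ.2⟩ * degenMat 1 := by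
      rw [degenMat_one, one_mul, mul_one]; rfl
    have h1 : (degenData (scalarRep χ K) one_ne_zero h).raw c.1 γ = _ := ha γ
    rw [degenData_raw_apply _ one_ne_zero h c.1 γ hg] at h1
    rw [h1, pullRep_apply, scalarRep_apply, smul_eq_mul]
    congr 3
    refine Units.ext ?_
    rw [ZMod.unitsMap_def, Units.coe_map, MonoidHom.coe_coe, coe_dUnit, coe_dUnit, map_intCast]
  let c' : Cocycle (scalarRep χ K) :=
    ⟨fun g => c.1 g - (χ (dUnit M g) * a - a), fun g g' => by
      show c.1 (g * g') - _ = _ + χ (dUnit M g) * (c.1 g' - _)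
      rw [c.2.1, map_mul, map_mul, gammaRep_apply, scalarRep_apply, smul_eq_mul]
      ring,
    fun k hk => by
      rw [Set.mem_singleton_iff] at hk
      subst hk
      have h2 := key (negOne M')
      rw [show (⟨(negOne M' : SL(2, ℤ)), hle (negOne M').2⟩ : Gamma0 M) = negOne M from rfl] at h2
      exact sub_eq_zero.mpr h2⟩
  have : ((Gamma0 M').subgroupOf (Gamma0 M)).FiniteIndex := inferInstance
  have hz := toCoh_eq_zero_of_subgroup c' ((Gamma0 M').subgroupOf (Gamma0 M)) fun g hg =>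
    sub_eq_zero.mpr (key ⟨g, hg⟩)
  rw [toCoh_eq_zero_iff] at hz
  obtain ⟨b, hb⟩ := hz
  rw [toCoh_eq_zero_iff]
  refine ⟨a + b, fun g => ?_⟩
  have h3 : c.1 g - (χ (dUnit M g) * a - a) = χ (dUnit M g) • b - b := hb g
  rw [smul_eq_mul] at h3
  rw [scalarRep_apply, smul_eq_mul]
  linear_combination h3

variable (ψ : ∀ q : ℕ, (ZMod q)ˣ →* K)

/-- One step. -/
theorem exists_twistStep {N q : ℕ} [NeZero N] [hq : Fact q.Prime] (hqN : ¬ q ∣ N) {Q : Finset ℕ}
    (hqQ : q ∉ Q) (hQ : ∀ q' ∈ Q, q' ∣ N) (hodd : ∀ u, ∃ k : ℕ, Odd k ∧ ψ q u ^ k = 1) :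
    ∃ Φ : Coh1 (scalarRep (charSq ψ (insert q Q) (N * q)) K) →ₗ[K]
        Coh1 (scalarRep (charSq ψ Q (N * q * q)) K),
      Function.Injective Φ ∧ ∀ (ℓ : ℕ) [Fact ℓ.Prime], ¬ ℓ ∣ N * q * q → ∀ u,
        Φ (heckeOp _ ℓ u) = charAt ψ q ℓ • heckeOp _ ℓ (Φ u) := by
  have : NeZero q := ⟨hq.out.ne_zero⟩
  have hdvd : N * q ∣ N * q * q := dvd_mul_right _ q
  have hQ1 : ∀ q' ∈ Q, q' ∣ N * q := fun q' h => (hQ q' h).trans (dvd_mul_right N q)
  have hins : ∀ q' ∈ insert q Q, q' ∣ N * q := fun q' h => by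
    rcases Finset.mem_insert.mp h with rfl | h
    · exact dvd_mul_left _ _
    · exact hQ1 q' h
  by_cases hψ : ψ q ^ 2 = 1
  · have hψ1 : ψ q = 1 := MonoidHom.ext fun u => by
      obtain ⟨k, ⟨t, rfl⟩, hk⟩ := hodd u
      have h2 : ψ q u ^ 2 = 1 := DFunLike.congr_fun hψ u
      rw [pow_succ, pow_mul, h2, one_pow, one_mul] at hk
      exact hk
    have h1 : 1 * (N * q) ∣ N * q * q := by rwa [one_mul]
    have hrep : IsIntertwining
        (pullRep (scalarRep (charSq ψ (insert q Q) (N * q)) K) (dvd_of_mul_left_dvd h1))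
        (scalarRep (charSq ψ Q (N * q * q)) K) LinearMap.id := fun u a => by
      rw [pullRep_apply]
      show charSq ψ (insert q Q) (N * q) (ZMod.unitsMap _ u) • a = charSq ψ Q (N * q * q) u • a
      rw [charSq_unitsMap ψ hins, charSq_apply, charSq_apply, Finset.prod_insert hqQ,
        show charOn ψ q (N * q * q) u = 1 from ?_, one_pow, one_mul]
      rw [charOn, dif_pos (dvd_mul_left q _), hψ1]
      rfl
    refine ⟨(cohMapO LinearMap.id hrep).comp (degen _ one_ne_zero h1), ?_, ?_⟩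
    · refine (Function.LeftInverse.injective (g := cohMapO (ρA := scalarRep _ K) LinearMap.id
        fun u a => (hrep u a).symm) fun v => ?_).comp (degen_one_injective h1 _)
      obtain ⟨c, rfl⟩ := toCoh_surjective _ v
      rfl
    · intro ℓ _ hℓ u
      have : NeZero ℓ := ⟨(Fact.out : ℓ.Prime).ne_zero⟩
      rw [show charAt ψ q ℓ = 1 by rw [charAt]; split <;> simp [hψ1], one_smul,
        LinearMap.comp_apply, LinearMap.comp_apply,
        degen_heckeOp _ one_ne_zero h1 (Nat.Prime.not_dvd_one Fact.out) (fun h => absurd h hℓ),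
        cohMapO_heckeOp]
  · have hχ : TwistChar (charSq ψ (insert q Q) (N * q)) (charSq ψ Q (N * q * q)) (ψ q)
        (dvd_mul_left q N) (dvd_refl (N * q * q)) := fun u => by
      rw [charSq_unitsMap ψ hins, charSq_apply, charSq_apply, Finset.prod_insert hqQ, mul_comm]
      congr 2
      rw [charOn, dif_pos (dvd_mul_left q _)]
      rfl
    refine ⟨twist K hχ, twist_injective hχ hqN hψ fun u hu => ?_, ?_⟩
    · rw [← charSq_unitsMap ψ hQ ((dvd_mul_right N q).trans (dvd_mul_right (N * q) q)), hu, map_one]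
    · intro ℓ _ hℓ u
      have hne : ℓ ≠ q := fun h => hℓ (by rw [h]; exact dvd_mul_left q _)
      rw [twist_heckeOp hχ hne (fun h => absurd h hℓ), charAt,
        dif_pos ((Nat.coprime_primes Fact.out hq.out).mpr hne)]
      rfl

/-- All the characters removed. -/
theorem exists_twistChain (Q : Finset ℕ) : ∀ (M M' : ℕ) [NeZero M], M' = M * ∏ q ∈ Q, q →
    (∀ q ∈ Q, q.Prime ∧ q ∣ M ∧ ¬ q * q ∣ M) →
    (∀ q ∈ Q, ∀ u, ∃ k : ℕ, Odd k ∧ ψ q u ^ k = 1) →
    ∃ Φ : Coh1 (scalarRep (charSq ψ Q M) K) →ₗ[K] Coh1 (trivRep M' K K),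
      Function.Injective Φ ∧ ∀ (ℓ : ℕ) [Fact ℓ.Prime], ¬ ℓ ∣ M' → ∀ u,
        Φ (heckeOp _ ℓ u) = charProd ψ Q ℓ • heckeOp _ ℓ (Φ u) := by
  induction Q using Finset.induction_on with
  | empty =>
    intro M M' _ hM' _ _
    obtain rfl : M' = M := by rw [hM', Finset.prod_empty, mul_one]
    have e : scalarRep (charSq ψ ∅ M') K = trivRep M' K K :=
      MonoidHom.ext fun u => LinearMap.ext fun a => by
        rw [scalarRep_apply, charSq_apply, Finset.prod_empty, one_smul]; rfl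
    rw [e]
    exact ⟨LinearMap.id, fun _ _ h => h, fun ℓ _ _ u => by
      rw [charProd, Finset.prod_empty, one_smul]; rfl⟩
  | insert q Q hqQ ih =>
    intro M M' _ hM' hQ hodd
    obtain ⟨hqp, ⟨N, rfl⟩, hq2⟩ := hQ q (Finset.mem_insert_self q Q)
    revert hq2 hM'
    rw [mul_comm q N]
    intro hM' hq2
    have := Fact.mk hqp
    have : NeZero q := ⟨hqp.ne_zero⟩
    have : NeZero N := ⟨fun h => NeZero.ne (q * N) (by rw [h, mul_zero])⟩
    have hqN : ¬ q ∣ N := fun h => hq2 (mul_dvd_mul_right h q)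
    have hdvd : ∀ q' ∈ Q, q'.Prime ∧ q' ∣ N ∧ ¬ q' * q' ∣ N * q * q := fun q' hq' => by
      obtain ⟨hp', hd', hd2⟩ := hQ q' (Finset.mem_insert_of_mem hq')
      have hne : ¬ q' ∣ q := fun h => hqQ ((Nat.prime_dvd_prime_iff_eq hp' hqp).mp h ▸ hq')
      have hcop : Nat.Coprime q' q := (Nat.Prime.coprime_iff_not_dvd hp').mpr hne
      rw [mul_comm q N] at hd' hd2
      refine ⟨hp', hcop.dvd_of_dvd_mul_right hd', fun h => hd2 (dvd_mul_of_dvd_left ?_ q)⟩
      exact (hcop.mul_left hcop).dvd_of_dvd_mul_right ((hcop.mul_left hcop).dvd_of_dvd_mul_right h)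
    obtain ⟨Φ₁, hi₁, hΦ₁⟩ := exists_twistStep ψ hqN hqQ (fun q' h => (hdvd q' h).2.1)
      (hodd q (Finset.mem_insert_self q Q))
    obtain ⟨Φ₂, hi₂, hΦ₂⟩ := ih (N * q * q) M'
      (by rw [hM', Finset.prod_insert hqQ]; ring)
      (fun q' h => ⟨(hdvd q' h).1, ((hdvd q' h).2.1.mul_right q).mul_right q, (hdvd q' h).2.2⟩)
      (fun q' h => hodd q' (Finset.mem_insert_of_mem h))
    refine ⟨Φ₂.comp Φ₁, hi₂.comp hi₁, fun ℓ _ hℓ u => ?_⟩
    have hℓ' : ¬ ℓ ∣ N * q * q := fun h => hℓ (h.trans ⟨∏ x ∈ Q, x, by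
      rw [hM', Finset.prod_insert hqQ]; ring⟩)
    rw [LinearMap.comp_apply, LinearMap.comp_apply, hΦ₁ ℓ hℓ', map_smul, hΦ₂ ℓ hℓ, smul_smul,
      charProd, charProd, Finset.prod_insert hqQ]

end Fermat.Agent.Engine.TRep
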