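import Fermat.Agent.EigenRep.EigenSpace
import Mathlib.RingTheory.Filtration
import Mathlib.RingTheory.Noetherian.Basic

/-!
# The trace of Galois inside the Hecke algebra of the torsion

`g + ε(g) g⁻¹` lies in the closed algebra generated by the Hecke matrices at the primes outside a
finite set: at Frobenius it is the Hecke matrix, and every element is congruent to a Frobenius.
-/

set_option autoImplicit false

noncomputable section

namespace Fermat.Agent.Engine.TRep

open EigenRep

local notation "GQ" => AlgebraicClosure ℚ ≃ₐ[ℚ] AlgebraicClosure ℚ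

variable {N p : ℕ} [NeZero N] [Fact p.Prime] (I : RepInputs N p)

/-- `g + ε(g) g⁻¹` on the lattice. -/
def tMat (g : GQ) : Matrix (Fin I.model.d) (Fin I.model.d) ℤ_[p] :=
  galMat I.model g + (epsilonPadic p g : ℤ_[p]) • galMat I.model g⁻¹

/-- The algebra of the Hecke matrices outside `S`. -/
def matAway (S : Finset ℕ) : Subalgebra ℤ_[p] (Matrix (Fin I.model.d) (Fin I.model.d) ℤ_[p]) :=
  Algebra.adjoin ℤ_[p] (heckeMat I.model '' {l : Nat.Primes | (l : ℕ) ∉ S})

theorem heckeMat_mem (S : Finset ℕ) (l : Nat.Primes) (hl : (l : ℕ) ∉ S) :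
    heckeMat I.model l ∈ matAway I S :=
  Algebra.subset_adjoin ⟨l, hl, rfl⟩

/-- The quadratic relation of every element. -/
theorem galMat_quadratic (g : GQ) :
    galMat I.model g * galMat I.model g - tMat I g * galMat I.model g +
      (epsilonPadic p g : ℤ_[p]) • 1 = 0 := by
  rw [tMat, add_mul, smul_mul_assoc, ← map_mul, ← map_mul, inv_mul_cancel, map_one]
  abel

theorem tMat_frobenius {ℓ : ℕ} (hℓ : ℓ.Prime) (hd : ¬ ℓ ∣ N * p)
    {A : ValuationSubring (AlgebraicClosure ℚ)} (hA : A.LiesOverPrime ℓ) {σ : GQ}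
    (hσ : A.IsFrobeniusAt σ ℓ) : tMat I σ = heckeMat I.model ⟨ℓ, hℓ⟩ := by
  have hε : (epsilonPadic p σ : ℤ_[p]) = ℓ :=
    epsilon_frobenius hℓ (fun h => hd (h ▸ dvd_mul_left p N)) hA hσ
  have key := congrArg (· * galMat I.model σ⁻¹) (galMat_frobenius I.model I.es hℓ hd hA hσ)
  simp only [add_mul, sub_mul, zero_mul, mul_assoc, ← map_mul, mul_inv_cancel, map_one,
    mul_one] at key
  rw [tMat, hε]
  rw [← nsmul_one, smul_mul_assoc, one_mul] at key
  rw [Nat.cast_smul_eq_nsmul]
  linear_combination (norm := abel) key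

/-- Congruent Galois matrices and cyclotomic values give congruent traces. -/
theorem matMod_tMat_eq {n : ℕ} {g σ : GQ}
    (h₁ : matMod p I.model.d n (galMat I.model g) = matMod p I.model.d n (galMat I.model σ))
    (h₂ : PadicInt.toZModPow n (epsilonPadic p g : ℤ_[p]) =
      PadicInt.toZModPow n (epsilonPadic p σ : ℤ_[p])) :
    matMod p I.model.d n (tMat I g) = matMod p I.model.d n (tMat I σ) := by
  have hinv : matMod p I.model.d n (galMat I.model g⁻¹) =
      matMod p I.model.d n (galMat I.model σ⁻¹) := by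
    calc matMod p I.model.d n (galMat I.model g⁻¹)
        = matMod p I.model.d n (galMat I.model g⁻¹) *
            (matMod p I.model.d n (galMat I.model σ) *
              matMod p I.model.d n (galMat I.model σ⁻¹)) := by
          rw [← map_mul, ← map_mul, ← map_mul, ← map_mul, mul_inv_cancel, mul_one]
      _ = _ := by
          rw [← h₁, ← mul_assoc, ← map_mul (matMod p I.model.d n), ← map_mul (galMat I.model),
            inv_mul_cancel, map_one, map_one, one_mul]
  ext i j
  have e₁ := congr($h₁ i j)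
  have e₂ := congr($hinv i j)
  simp only [matMod_apply] at e₁ e₂
  simp only [tMat, matMod_apply, Matrix.add_apply, Matrix.smul_apply, smul_eq_mul, map_add,
    map_mul, e₁, e₂, h₂]

/-- A matrix congruent to elements of a submodule modulo every power of `p` lies in it. -/
theorem mem_of_forall_congr {d : ℕ}
    (P : Submodule ℤ_[p] (Matrix (Fin d) (Fin d) ℤ_[p])) {x : Matrix (Fin d) (Fin d) ℤ_[p]}
    (h : ∀ n : ℕ, ∃ y ∈ P, matMod p d n x = matMod p d n y) : x ∈ P := by
  rw [← Submodule.Quotient.mk_eq_zero P]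
  have hbot := Ideal.iInf_pow_smul_eq_bot_of_isLocalRing (R := ℤ_[p])
    (M := Matrix (Fin d) (Fin d) ℤ_[p] ⧸ P) (IsLocalRing.maximalIdeal ℤ_[p])
    (IsLocalRing.maximalIdeal.isMaximal ℤ_[p]).ne_top
  rw [← Submodule.mem_bot ℤ_[p], ← hbot, Submodule.mem_iInf]
  intro n
  obtain ⟨y, hy, hxy⟩ := h n
  have hdvd : ∀ i j, ∃ c, x i j - y i j = (p : ℤ_[p]) ^ n * c := fun i j => by
    have h' := congr($hxy i j)
    rw [matMod_apply, matMod_apply, ← sub_eq_zero, ← map_sub, ← RingHom.mem_ker,
      PadicInt.ker_toZModPow, Ideal.mem_span_singleton] at h'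
    exact h'
  choose c hc using hdvd
  have e : x = y + (p : ℤ_[p]) ^ n • Matrix.of c := by
    ext i j
    simp [← hc]
  rw [e, Submodule.Quotient.mk_add, Submodule.Quotient.mk_smul,
    (Submodule.Quotient.mk_eq_zero P).mpr hy, zero_add]
  exact Submodule.smul_mem_smul (Ideal.pow_mem_pow (by
    rw [PadicInt.maximalIdeal_eq_span_p]; exact Ideal.mem_span_singleton_self _) n)
    Submodule.mem_top

theorem tMat_mem (S : Finset ℕ) (g : GQ) : tMat I g ∈ matAway I S := by
  refine mem_of_forall_congr (Subalgebra.toSubmodule (matAway I S)) fun n => ?_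
  obtain ⟨ℓ, hℓ, hS, hd, A, hA, σ, hσ, h₁, h₂⟩ := exists_frobenius_congr I n g S
  refine ⟨_, heckeMat_mem I S ⟨ℓ, hℓ⟩ hS, ?_⟩
  rw [matMod_tMat_eq I h₁ h₂, tMat_frobenius I hℓ hd hA hσ]

theorem galMat_commute_mem (S : Finset ℕ) (g : GQ)
    {A : Matrix (Fin I.model.d) (Fin I.model.d) ℤ_[p]} (hA : A ∈ matAway I S) :
    Commute (galMat I.model g) A := by
  induction hA using Algebra.adjoin_induction with
  | mem x hx =>
      obtain ⟨l, -, rfl⟩ := hx
      exact galMat_commute I.model I.equivariant g l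
  | algebraMap r => exact Algebra.commute_algebraMap_right r _
  | add x y _ _ h₁ h₂ => exact h₁.add_right h₂
  | mul x y _ _ h₁ h₂ => exact h₁.mul_right h₂

theorem tMat_of_involution {c : GQ} (hc : c * c = 1) (hεc : (epsilonPadic p c : ℤ_[p]) = -1) :
    tMat I c = 0 := by
  have : c⁻¹ = c := inv_eq_of_mul_eq_one_right hc
  rw [tMat, this, hεc, neg_smul, one_smul, add_neg_cancel]

end Fermat.Agent.Engine.TRep
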