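import Fermat.Agent.EigenRep.Cyclotomic
import Fermat.Agent.Chebotarev.Main
import Fermat.Agent.DefRing.MatrixRep
import Fermat.Agent.Deform.TWInertia

/-!
# Absolutely irreducible residual representations are not Eisenstein

`exists_prime_trace_ne`: for every `m` there is a prime `ℓ ≡ 1 (mod m)` outside a finite set with
residual Frobenius trace different from `ℓ + 1`.
-/

set_option autoImplicit false

noncomputable section

namespace Fermat.Agent.Engine.TRep

open EigenRep DefRing Matrix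

local notation "Qbar" => AlgebraicClosure ℚ

/-- A traceless singular `2 × 2` matrix: `N X N = tr (N X) N`. -/
theorem mul_mul_eq_trace_smul {k : Type*} [CommRing k] (N X : Matrix (Fin 2) (Fin 2) k)
    (hd : N.det = 0) : N * X * N = (N * X).trace • N := by
  rw [Matrix.det_fin_two] at hd
  ext i j
  fin_cases i <;> fin_cases j <;>
    simp [Matrix.mul_apply, Fin.sum_univ_two, Matrix.trace_fin_two]
  · linear_combination (-X 1 1) * hd
  · linear_combination X 0 1 * hd
  · linear_combination X 1 0 * hd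
  · linear_combination (-X 0 0) * hd

/-- The kernel of a map to an abelian group contains an element of trace different from `2`. -/
theorem exists_mem_ker_trace_ne_two {k : Type*} [Field k] {G : Type*} [Group G]
    (ρ : G →* Matrix (Fin 2) (Fin 2) k) (hspan : Submodule.span k (Set.range ρ) = ⊤)
    {C : Type*} [CommGroup C] (c : G →* C) :
    ∃ h, c h = 1 ∧ (ρ h).det = 1 ∧ (ρ h).trace ≠ 2 := by
  by_contra hcon
  push Not at hcon
  have hunit : ∀ g, (ρ g).det ≠ 0 := fun g h0 => by
    have : (ρ g).det * (ρ g⁻¹).det = 1 := by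
      rw [← Matrix.det_mul, ← map_mul, mul_inv_cancel, map_one, Matrix.det_one]
    rw [h0, zero_mul] at this
    exact zero_ne_one this
  have hN : ∀ h, c h = 1 → (ρ h).det = 1 → (ρ h - 1).trace = 0 ∧ (ρ h - 1).det = 0 := by
    intro h h1 h2
    have h3 := hcon h h1 h2
    refine ⟨by rw [Matrix.trace_sub, h3, Matrix.trace_one]; simp, ?_⟩
    rw [Matrix.trace_fin_two] at h3
    rw [Matrix.det_fin_two] at h2 ⊢
    simp only [Matrix.sub_apply, Matrix.one_apply_eq, ne_eq, zero_ne_one, one_ne_zero,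
      not_false_eq_true, Matrix.one_apply_ne, sub_zero]
    linear_combination h2 - h3
  have hone : ∀ h, c h = 1 → (ρ h).det = 1 → ρ h = 1 := by
    intro h h1 h2
    rw [← sub_eq_zero]
    set N := ρ h - 1 with hNdef
    obtain ⟨hNt, hNd⟩ := hN h h1 h2
    have hg : ∀ g, (N * ρ g).trace = 0 := by
      intro g
      set h' := g * h * g⁻¹
      have hc' : c h' = 1 := by simp [h', h1]
      have hd' : (ρ h').det = 1 := by
        rw [map_mul, map_mul, Matrix.det_mul, Matrix.det_mul, h2, mul_one, ← Matrix.det_mul,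
          ← map_mul, mul_inv_cancel, map_one, Matrix.det_one]
      have hN' : ρ h' = 1 + ρ g * N * ρ g⁻¹ := by
        rw [hNdef, mul_sub, sub_mul, mul_one, ← map_mul, ← map_mul, ← map_mul, mul_inv_cancel,
          map_one, add_sub_cancel]
      have h5 := hcon (h * h') (by rw [map_mul, h1, hc', mul_one])
        (by rw [map_mul, Matrix.det_mul, h2, hd', mul_one])
      rw [map_mul, hN', show ρ h = 1 + N by rw [hNdef, add_sub_cancel]] at h5
      simp only [add_mul, mul_add, one_mul, mul_one, Matrix.trace_add, Matrix.trace_one] at h5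
      have h6 : (ρ g * N * ρ g⁻¹).trace = 0 := by
        rw [Matrix.trace_mul_cycle, ← map_mul, inv_mul_cancel, map_one, one_mul, hNt]
      rw [h6, hNt, ← mul_assoc, ← mul_assoc, mul_mul_eq_trace_smul N (ρ g) hNd, Matrix.smul_mul,
        Matrix.trace_smul, smul_eq_mul] at h5
      have h7 : (N * ρ g).trace * (N * ρ g⁻¹).trace = 0 := by
        simpa using h5
      have h8 : (ρ g).det * (N * ρ g⁻¹).trace = -(N * ρ g).trace := by
        have e : ρ g⁻¹ = ((ρ g).det)⁻¹ • (ρ g).adjugate := by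
          have h9 : ρ g⁻¹ * (ρ g) = 1 := by rw [← map_mul, inv_mul_cancel, map_one]
          calc ρ g⁻¹ = ρ g⁻¹ * (((ρ g).det)⁻¹ • (ρ g * (ρ g).adjugate)) := by
                rw [Matrix.mul_adjugate, smul_smul, inv_mul_cancel₀ (hunit g), one_smul, mul_one]
            _ = _ := by rw [Matrix.mul_smul, ← mul_assoc, h9, one_mul]
        rw [e, Matrix.mul_smul, Matrix.trace_smul, smul_eq_mul, ← mul_assoc,
          mul_inv_cancel₀ (hunit g), one_mul]
        rw [Matrix.trace_fin_two] at hNt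
        simp [Matrix.trace_fin_two, Matrix.mul_apply, Fin.sum_univ_two, Matrix.adjugate_fin_two]
        linear_combination (ρ g 0 0 + ρ g 1 1) * hNt
      rcases mul_eq_zero.1 h7 with h0 | h0
      · exact h0
      · rw [h0, mul_zero, eq_comm, neg_eq_zero] at h8
        exact h8
    have hall : ∀ X, (N * X).trace = 0 := fun X => by
      have hX : X ∈ Submodule.span k (Set.range ρ) := hspan ▸ Submodule.mem_top
      induction hX using Submodule.span_induction with
      | mem x hx => obtain ⟨g, rfl⟩ := hx; exact hg g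
      | zero => simp
      | add x y _ _ hx hy => rw [mul_add, Matrix.trace_add, hx, hy, add_zero]
      | smul a x _ hx => rw [Matrix.mul_smul, Matrix.trace_smul, hx, smul_zero]
    ext i j
    simpa [Matrix.trace_mul_single] using hall (Matrix.single j i 1)
  have hcomm : ∀ g g', ρ g * ρ g' = ρ g' * ρ g := by
    intro g g'
    have h1 := hone (g * g' * g⁻¹ * g'⁻¹) (by simp [mul_comm (c g) (c g')]) (by
      simp only [map_mul, Matrix.det_mul]
      have e1 : ∀ a, (ρ a).det * (ρ a⁻¹).det = 1 := fun a => by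
        rw [← Matrix.det_mul, ← map_mul, mul_inv_cancel, map_one, Matrix.det_one]
      linear_combination (ρ g').det * (ρ g'⁻¹).det * e1 g + e1 g')
    calc ρ g * ρ g' = ρ (g * g' * g⁻¹ * g'⁻¹) * (ρ g' * ρ g) := by
          rw [← map_mul, ← map_mul, ← map_mul]
          congr 1
          group
      _ = _ := by rw [h1, one_mul]
  have h1 : ∀ X Y : Matrix (Fin 2) (Fin 2) k, X * Y = Y * X := by
    intro X Y
    have hX : X ∈ Submodule.span k (Set.range ρ) := hspan ▸ Submodule.mem_top
    induction hX using Submodule.span_induction with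
    | zero => simp
    | add x y _ _ hx hy => rw [add_mul, mul_add, hx, hy]
    | smul a x _ hx => rw [Matrix.smul_mul, Matrix.mul_smul, hx]
    | mem x hx =>
      obtain ⟨g, rfl⟩ := hx
      have hY : Y ∈ Submodule.span k (Set.range ρ) := hspan ▸ Submodule.mem_top
      induction hY using Submodule.span_induction with
      | mem y hy => obtain ⟨g', rfl⟩ := hy; exact hcomm g g'
      | zero => simp
      | add x y _ _ hx hy => rw [add_mul, mul_add, hx, hy]
      | smul a x _ hx => rw [Matrix.smul_mul, Matrix.mul_smul, hx]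
  have h2 := congrFun (congrFun (h1 !![0, 1; 0, 0] !![0, 0; 1, 0]) 0) 0
  simp at h2

/-- **Not Eisenstein at every level.** -/
theorem exists_prime_trace_ne {k : Type} [CommRing k] [IsLocalRing k] (hk : IsField k)
    (ρ : MRep k) (hcont : ∃ L : IntermediateField ℚ Qbar, FiniteDimensional ℚ L ∧
      ∀ σ : AlgebraicClosure ℚ ≃ₐ[ℚ] AlgebraicClosure ℚ, (∀ x ∈ L, σ x = x) → ρ σ = 1)
    (hspan : Submodule.span k (Set.range ρ) = ⊤) (S : Finset ℕ)
    (hdet : ∀ ℓ : ℕ, ℓ.Prime → ℓ ∉ S → ∀ A : ValuationSubring Qbar, A.LiesOverPrime ℓ →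
      ∀ σ : AlgebraicClosure ℚ ≃ₐ[ℚ] AlgebraicClosure ℚ, A.IsFrobeniusAt σ ℓ → (ρ σ).det = (ℓ : k))
    (m : ℕ) (hm : 0 < m) :
    ∃ ℓ : ℕ, ℓ.Prime ∧ ℓ ∉ S ∧ (ℓ : ZMod m) = 1 ∧ ∃ A : ValuationSubring Qbar, A.LiesOverPrime ℓ ∧
      ∃ σ : AlgebraicClosure ℚ ≃ₐ[ℚ] AlgebraicClosure ℚ,
        A.IsFrobeniusAt σ ℓ ∧ (ρ σ).trace ≠ (ℓ : k) + 1 := by
  classical
  let : Field k := hk.toField
  have : NeZero m := ⟨hm.ne'⟩
  obtain ⟨c, hc⟩ := Deform.exists_isCycloMod m
  obtain ⟨h, hch, hdh, htr⟩ := exists_mem_ker_trace_ne_two ρ hspan c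
  have : NeZero (m : Qbar) := ⟨Nat.cast_ne_zero.mpr hm.ne'⟩
  obtain ⟨ζ, hζ⟩ := HasEnoughRootsOfUnity.exists_primitiveRoot Qbar m
  obtain ⟨L, hL, hfix⟩ := hcont
  have := hL
  have : FiniteDimensional ℚ ↥(IntermediateField.adjoin ℚ ({ζ} : Set Qbar)) :=
    IntermediateField.adjoin.finiteDimensional (hζ.isIntegral hm).tower_top
  have : FiniteDimensional ℚ ↥(L ⊔ IntermediateField.adjoin ℚ ({ζ} : Set Qbar)) :=
    IntermediateField.finiteDimensional_sup _ _
  obtain ⟨ℓ, hℓ, hℓS, A, hA, σ, hσ, hσL⟩ := Chebotarev.exists_isFrobeniusAt_eqOn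
    (L ⊔ IntermediateField.adjoin ℚ ({ζ} : Set Qbar)) h (S ∪ m.primeFactors)
  rw [Finset.mem_union, not_or] at hℓS
  have hρ : ρ σ = ρ h := by
    have := hfix (h⁻¹ * σ) fun x hx => by
      rw [AlgEquiv.mul_apply, hσL x (le_sup_left (α := IntermediateField ℚ Qbar) hx)]
      exact h.symm_apply_apply x
    rw [← mul_inv_cancel_left h σ, map_mul, this, mul_one]
  have hσζ : σ ζ = ζ := by
    rw [hσL ζ (le_sup_right (α := IntermediateField ℚ Qbar)
      (IntermediateField.mem_adjoin_simple_self ℚ ζ))]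
    exact ((hc.eq_one_iff hζ h).mp hch)
  refine ⟨ℓ, hℓ, hℓS.1, ?_, A, hA, σ, hσ, ?_⟩
  · let z : A := ⟨ζ, Frobenius.mem_of_isIntegral A (hζ.isIntegral hm)⟩
    have hz : z ^ m = 1 := Subtype.ext hζ.pow_eq_one
    have hd := hσ.mem_decompositionSubgroup
    have h1 := hσ.smul_residue_eq (IsLocalRing.residue A z)
    rw [← IsLocalRing.ResidueField.residue_smul,
      show (⟨σ, hd⟩ : A.decompositionSubgroup ℚ) • z = z from Subtype.ext hσζ, ← map_pow] at h1
    have hchar := Frobenius.residueField_charP hℓ hA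
    have hz0 : IsLocalRing.residue A z ≠ 0 := fun h0 => by
      have := congrArg (IsLocalRing.residue A) hz
      rw [map_pow, h0, zero_pow hm.ne', map_one] at this
      exact zero_ne_one this
    have h2 : IsLocalRing.residue A (z ^ (ℓ - 1)) = 1 := by
      refine mul_left_cancel₀ hz0 ?_
      rw [mul_one, ← map_mul, ← pow_succ', Nat.sub_add_cancel hℓ.one_le]
      exact h1.symm
    have h3 : z ^ (ℓ - 1) = 1 := eq_one_of_residue_eq_one (m := m) (fun h0 => hℓS.2 (by
      rw [CharP.cast_eq_zero_iff (IsLocalRing.ResidueField A) ℓ] at h0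
      exact Nat.mem_primeFactors.mpr ⟨hℓ, h0, hm.ne'⟩))
      (by rw [← pow_mul, mul_comm, pow_mul, hz, one_pow]) h2
    have h4 : m ∣ ℓ - 1 := hζ.dvd_of_pow_eq_one _ (congrArg Subtype.val h3)
    exact ((ZMod.natCast_eq_natCast_iff' 1 ℓ m).mpr ((Nat.modEq_iff_dvd' hℓ.one_le).mpr h4)).symm.trans
      Nat.cast_one
  · rw [← hdet ℓ hℓ hℓS.1 A hA σ hσ, hρ, hdh]
    norm_num
    exact htr

end Fermat.Agent.Engine.TRep
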