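import Fermat.Agent.Engine.TRep.TwistAlgebra

/-!
# The deformation ring acts on a family of levels with auxiliary characters

`TwistData`: levels `M j` with `M j ∏ q ∣ Mtop`, auxiliary characters of odd order congruent to one,
a residual system with traces of `rbar`, non-Eisenstein at `Mtop`.  `exists_twClassify`: the level
ring maps to the algebra of the family with `tr ρ(Frob_ℓ) ↦ ψ(ℓ)⁻¹ T_ℓ` at every prime not dividing
`Mtop p`, inertia acting trivially there and unipotently at primes exactly dividing `Mtop`; any polynomial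
giving the trace of `σ` on the lattice of level `Mtop` gives `φ (tr ρ σ)` after twisting.
-/

set_option autoImplicit false
set_option linter.unusedSectionVars false

noncomputable section

namespace Fermat.Agent.Engine.TRep

open EigenRep HeckeModule EigenSystems IsLocalRing DefRing Deform Matrix

local notation "Qbar" => AlgebraicClosure ℚ

/-- Killing after two Eisenstein elements is killing after localisation. -/
theorem smul_eq_zero_of_eisen_sq {O : Type} [CommRing O] {N : ℕ} {A : Type} [AddCommGroup A]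
    [Module O A] {ρ : Representation O (ZMod N)ˣ A} {P : Submonoid (HeckePoly O)} {r : ℕ}
    [Fact r.Prime] (hr : eisen O r ∈ P) {a : HeckePoly O}
    (ha : ∀ u : Coh1 ρ, (eisen O r * (eisen O r * a)) • u = 0) (x : CohLoc P ρ) : a • x = 0 := by
  induction x using LocalizedModule.induction_on with
  | _ u s =>
    rw [LocalizedModule.smul'_mk, ← LocalizedModule.zero_mk s, LocalizedModule.mk_eq]
    refine ⟨⟨_, P.mul_mem hr hr⟩, ?_⟩
    rw [smul_zero, smul_zero, Submonoid.smul_def, Submonoid.smul_def, smul_comm,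
      ← mul_smul (eisen O r * eisen O r), mul_assoc, ha, smul_zero]

/-- The inclusion of the polynomials away from a larger set. -/
def awayMono (O : Type) [CommRing O] {S S' : Set ℕ} (h : S' ⊆ S) :
    AwayPoly O S →ₐ[O] AwayPoly O S' :=
  MvPolynomial.rename fun l => ⟨l.1, fun hl => l.2 (h hl)⟩

theorem awayIncl_awayMono {O : Type} [CommRing O] {S S' : Set ℕ} (h : S' ⊆ S) (P : AwayPoly O S) :
    awayIncl O S' (awayMono O h P) = awayIncl O S P :=
  (MvPolynomial.rename_rename _ _ P).trans rfl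

theorem latHom_awayMono {N p : ℕ} [NeZero N] [Fact p.Prime] (I : RepInputs N p) {O : Type}
    [CommRing O] (ι : ℤ_[p] →+* O) {S S' : Finset ℕ} (h : (↑S' : Set ℕ) ⊆ ↑S)
    (P : AwayPoly O (↑S : Set ℕ)) :
    (latHom I ι S' (awayMono O h P) : Module.End O (Lat I O)) = latHom I ι S P := by
  have key : ((LatAlg I ι S').val.comp (latHom I ι S')).comp (awayMono O h) =
      (LatAlg I ι S).val.comp (latHom I ι S) := MvPolynomial.algHom_ext fun l => by
    rw [AlgHom.comp_apply, awayMono, MvPolynomial.rename_X, AlgHom.comp_apply, AlgHom.comp_apply,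
      Subalgebra.coe_val, Subalgebra.coe_val, latHom_X, latHom_X, latOp, latOp]
  exact DFunLike.congr_fun key P

theorem twistPoly_awayMono {O : Type} [CommRing O] {S S' : Finset ℕ} (h : (↑S' : Set ℕ) ⊆ ↑S)
    (c : ℕ → O) (P : AwayPoly O (↑S : Set ℕ)) :
    twistPoly (fun l => c ((l : Nat.Primes) : ℕ)) (awayMono O h P) =
      awayMono O h (twistPoly (fun l => c ((l : Nat.Primes) : ℕ)) P) := by
  induction P using MvPolynomial.induction_on with
  | C a =>
    rw [← MvPolynomial.algebraMap_eq, AlgHom.commutes, AlgHom.commutes, AlgHom.commutes,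
      AlgHom.commutes]
  | add P Q hP hQ => rw [map_add, map_add, map_add, map_add, hP, hQ]
  | mul_X P l hP =>
    rw [map_mul, map_mul, map_mul, map_mul, hP, twistPoly_X, map_mul,
      show awayMono O h (MvPolynomial.X l) = MvPolynomial.X ⟨l.1, fun hl => l.2 (h hl)⟩ from
        MvPolynomial.rename_X _ _, twistPoly_X]
    congr 2
    exact (MvPolynomial.rename_C _ _).symm

variable {p : ℕ} [Fact p.Prime] {O : Type} [CommRing O] [IsLocalRing O] {Λ : Type} [CommRing Λ]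
  [IsLocalRing Λ] [IsNoetherianRing Λ] [IsAdicComplete (maximalIdeal Λ) Λ] [Algebra O Λ]
  [IsLocalHom (algebraMap O Λ)] [IsReduced Λ] [Module.IsTorsionFree ℤ Λ]

/-- The hypotheses on a family of levels with auxiliary characters. -/
structure TwistData (p : ℕ) (S : Finset ℕ) (lam : ℕ → O) (ψ : ∀ q : ℕ, (ZMod q)ˣ →* Λ)
    (Q : Finset ℕ) {J : Type} (M : J → ℕ) (Mtop : ℕ) : Prop where
  three_le : 3 ≤ p
  three : ∀ j, ThreeOK p (M j)
  p_mem : (p : O) ∈ maximalIdeal O
  dvd_top : ∀ j, M j * ∏ q ∈ Q, q ∣ Mtop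
  aux : ∀ j, ∀ q ∈ Q, q.Prime ∧ q ∣ M j ∧ ¬ q * q ∣ M j
  odd : ∀ q ∈ Q, ∀ u, ∃ k : ℕ, Odd k ∧ ψ q u ^ k = 1
  one : ∀ q ∈ Q, ∀ u, ψ q u - 1 ∈ maximalIdeal Λ
  mem_S : ∀ ℓ : ℕ, ℓ.Prime → ℓ ∣ Mtop * p → ℓ ∈ S
  nonEisenstein : ∃ r : ℕ, r.Prime ∧ (r : ZMod Mtop) = 1 ∧ r ≠ p ∧ r ∉ S ∧
    residue O (lam r) ≠ (r : ResidueField O) + 1

variable {S : Finset ℕ} {lam : ℕ → O} {ψ : ∀ q : ℕ, (ZMod q)ˣ →* Λ} {Q : Finset ℕ} {J : Type}
  [Fintype J] {M : J → ℕ} [∀ j, NeZero (M j)] {Mtop : ℕ} [NeZero Mtop]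
  (hsΛ : Function.Surjective (residue Λ ∘ algebraMap O Λ))
  (H : TwistData p S lam ψ Q M Mtop)

include H

theorem TwistData.invChar_sub_one_mem (l : AwayIndex (↑S : Set ℕ)) :
    invChar ψ Q S l - 1 ∈ maximalIdeal Λ := by
  rw [← Ideal.Quotient.eq_zero_iff_mem, map_sub, map_one, invChar, charProd, map_prod, sub_eq_zero]
  refine Finset.prod_eq_one fun q hq => ?_
  rw [← map_one (Ideal.Quotient.mk (maximalIdeal Λ)), Ideal.Quotient.mk_eq_mk_iff_sub_mem]
  unfold charAt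
  split
  · exact H.one q hq _
  · rw [sub_self]
    exact zero_mem _

theorem TwistData.comap_lamIdeal :
    (lamIdeal hsΛ S lam).comap (twistPoly (invChar ψ Q S)) = lamIdeal hsΛ S lam :=
  comap_twistPoly _ _ fun l => by
    show lamHom O Λ hsΛ S lam _ = 0
    rw [lamHom_C]
    exact (toResidue_eq_zero_iff _ hsΛ).mpr (H.invChar_sub_one_mem l)

theorem TwistData.exists_eisen :
    ∃ (r : ℕ) (hr : r.Prime), (r : ZMod Mtop) = 1 ∧ r ≠ p ∧
      (haveI : Fact r.Prime := ⟨hr⟩; eisen Λ r) ∈ awayMonoid (lamIdeal hsΛ S lam) := by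
  obtain ⟨r, hr, h1, hrp, hrS, hne⟩ := H.nonEisenstein
  have : Fact r.Prime := ⟨hr⟩
  refine ⟨r, hr, h1, hrp, eisen_mem_awayMonoid (show r ∉ (↑S : Set ℕ) from hrS) fun h => hne ?_⟩
  have h' : lamHom O Λ hsΛ S lam _ = 0 := h
  rw [awayX, map_sub, lamHom_X, lamHom_C, map_add, map_natCast, map_one, sub_eq_zero] at h'
  exact h'

theorem TwistData.twistPoly_notMem {a : AwayPoly Λ (↑S : Set ℕ)} (ha : a ∉ lamIdeal hsΛ S lam) :
    twistPoly (invChar ψ Q S) a ∉ lamIdeal hsΛ S lam := fun h => ha (by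
  rw [← H.comap_lamIdeal hsΛ]
  exact Ideal.mem_comap.mpr h)

variable (hes : EichlerShimuraRelations Mtop p) (ι₀ : ℤ_[p] →+* O)

/-- Killing the lattice of the top level kills every member of the family. -/
theorem TwistData.twClass_eq_zero {P : AwayPoly Λ (↑S : Set ℕ)}
    (hP : latHom (stdInputs hes) ((algebraMap O Λ).comp ι₀) S P = 0) :
    twClass hsΛ S lam ψ Q M (twistPoly (invChar ψ Q S) P) = 0 := by
  obtain ⟨r, hr, hr1, hrp, hre⟩ := H.exists_eisen hsΛ
  have : Fact r.Prime := ⟨hr⟩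
  refine Subtype.ext (funext fun j => LinearMap.ext fun u => ?_)
  rw [twClass_apply]
  exact smul_eq_zero_of_eisen_sq hre (smul_eq_zero_of_twist ψ Q hes _ S
    (by have := H.three_le; omega) ((H.three j).of_dvd ((dvd_mul_right _ _).trans (H.dvd_top j))) (H.dvd_top j) (H.aux j) H.odd
    (fun ℓ hℓ h => H.mem_S ℓ hℓ (h.mul_right p)) hr1 hrp hP) u

/-- The localised lattice algebra of the top level maps to the algebra of the family. -/
theorem TwistData.exists_tLocHom :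
    ∃ F : TLoc (stdInputs hes) ((algebraMap O Λ).comp ι₀) S (lamIdeal hsΛ S lam) →ₐ[Λ]
        TwAlg hsΛ S lam ψ Q M,
      ∀ P, F (tHom (stdInputs hes) _ S (lamIdeal hsΛ S lam) P) =
        twClass hsΛ S lam ψ Q M (twistPoly (invChar ψ Q S) P) := by
  have : IsLocalization (Submonoid.map ((latHom (stdInputs hes) ((algebraMap O Λ).comp ι₀) S :
      AwayPoly Λ (↑S : Set ℕ) →ₐ[Λ] LatAlg (stdInputs hes) ((algebraMap O Λ).comp ι₀) S) :
        AwayPoly Λ (↑S : Set ℕ) →+* LatAlg (stdInputs hes) ((algebraMap O Λ).comp ι₀) S)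
      (lamIdeal hsΛ S lam).primeCompl)
      (TLoc (stdInputs hes) ((algebraMap O Λ).comp ι₀) S (lamIdeal hsΛ S lam)) :=
    Localization.isLocalization
      (M := latMonoid (stdInputs hes) ((algebraMap O Λ).comp ι₀) S (lamIdeal hsΛ S lam))
  exact exists_lift_localization (latHom (stdInputs hes) ((algebraMap O Λ).comp ι₀) S)
    (latHom_surjective (stdInputs hes) ((algebraMap O Λ).comp ι₀) S)
    (lamIdeal hsΛ S lam).primeCompl
    ((twClass hsΛ S lam ψ Q M).comp (twistPoly (invChar ψ Q S)))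
    (fun P hP => H.twClass_eq_zero hsΛ hes ι₀ hP)
    fun a ha => isUnit_twClass hsΛ S lam ψ Q M (H.twistPoly_notMem hsΛ ha)

variable [Nontrivial (TwAlg hsΛ S lam ψ Q M)]

theorem TwistData.ker_latHom_le :
    RingHom.ker (latHom (stdInputs hes) ((algebraMap O Λ).comp ι₀) S) ≤ lamIdeal hsΛ S lam := by
  intro P hP
  by_contra hPm
  exact (isUnit_twClass hsΛ S lam ψ Q M (H.twistPoly_notMem hsΛ hPm)).ne_zero
    (H.twClass_eq_zero hsΛ hes ι₀ (RingHom.mem_ker.mp hP))

/-- The trace of Frobenius at a prime of `S` prime to the top level. -/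
theorem TwistData.latTrace_eq {v : ℕ} (hv : v.Prime) (hd : ¬ v ∣ Mtop * p)
    {A : ValuationSubring Qbar} (hA : A.LiesOverPrime v) {σ : GQ} (hσ : A.IsFrobeniusAt σ v)
    {P : AwayPoly Λ (↑S : Set ℕ)}
    (hP : latHom (stdInputs hes) ((algebraMap O Λ).comp ι₀) S P =
      latTrace (stdInputs hes) _ S σ) (j : J) (u : LevelCoh hsΛ S lam ψ Q M j) :
    (twClass hsΛ S lam ψ Q M (twistPoly (invChar ψ Q S) P) : TwEnd hsΛ S lam ψ Q M) j u =
      (algebraMap Λ (HeckePoly Λ) (charProd (fun q => (ψ q).comp invMonoidHom) Q v) *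
        MvPolynomial.X ⟨v, hv⟩) • u := by
  obtain ⟨r, hr, hr1, hrp, hre⟩ := H.exists_eisen hsΛ
  have : Fact r.Prime := ⟨hr⟩
  have hsub : (↑(S.erase v) : Set ℕ) ⊆ ↑S := by simp
  let c : ℕ → Λ := fun a => charProd (fun q => (ψ q).comp invMonoidHom) Q a
  have hvS : v ∉ (↑(S.erase v) : Set ℕ) := by simp
  set P' : AwayPoly Λ (↑(S.erase v) : Set ℕ) :=
    awayMono Λ hsub P - MvPolynomial.X ⟨⟨v, hv⟩, hvS⟩ with hP'def
  have hP' : latHom (stdInputs hes) ((algebraMap O Λ).comp ι₀) (S.erase v) P' = 0 := by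
    have h0 : latTrace (stdInputs hes) ((algebraMap O Λ).comp ι₀) (S.erase v) σ =
        latHom (stdInputs hes) _ (S.erase v) (MvPolynomial.X ⟨⟨v, hv⟩, hvS⟩) :=
      latTrace_frobenius (stdInputs hes) _ (S.erase v) hv (by simp) hd hA hσ
    rw [hP'def, map_sub, ← h0, sub_eq_zero]
    exact Subtype.ext ((latHom_awayMono _ _ hsub P).trans (congrArg Subtype.val hP))
  rw [twClass_apply]
  refine sub_eq_zero.mp (Eq.trans (sub_smul _ _ u).symm ?_)
  refine smul_eq_zero_of_eisen_sq hre ?_ u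
  intro w
  have h1 := smul_eq_zero_of_twist ψ Q hes _ (S.erase v) (by have := H.three_le; omega)
    ((H.three j).of_dvd ((dvd_mul_right _ _).trans (H.dvd_top j))) (H.dvd_top j) (H.aux j) H.odd
    (fun ℓ hℓ h => Finset.mem_erase.mpr ⟨fun e => hd (e ▸ h.mul_right p),
      H.mem_S ℓ hℓ (h.mul_right p)⟩) hr1 hrp hP' w
  have e : awayIncl Λ (↑(S.erase v) : Set ℕ) (twistPoly (invChar ψ Q (S.erase v)) P') =
      awayIncl Λ (↑S : Set ℕ) (twistPoly (invChar ψ Q S) P) -
        algebraMap Λ (HeckePoly Λ) (c v) * MvPolynomial.X ⟨v, hv⟩ := by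
    rw [hP'def, map_sub, map_sub,
      show twistPoly (invChar ψ Q (S.erase v)) (awayMono Λ hsub P) =
        awayMono Λ hsub (twistPoly (invChar ψ Q S) P) from twistPoly_awayMono hsub c P,
      awayIncl_awayMono, twistPoly_X, map_mul, awayIncl_X, ← MvPolynomial.algebraMap_eq,
      AlgHom.commutes]
    rfl
  rw [e] at h1
  exact h1

/-- **The level ring acts on the family.** -/
theorem TwistData.exists_twClassify (L : LevelData O) (P : L.RepRing)
    (hspan : Submodule.span (ResidueField O) (Set.range L.D.rbar) = ⊤)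
    (hfin : IsCont L.D.rbar)
    (htr : ∀ ℓ : ℕ, ℓ.Prime → ℓ ∉ S → ∀ A : ValuationSubring Qbar, A.LiesOverPrime ℓ →
      ∀ σ : GQ, A.IsFrobeniusAt σ ℓ → (L.D.rbar σ).trace = residue O (lam ℓ))
    (hdet : ∀ σ, L.detChar σ = ι₀ (epsilonPadic p σ : ℤ_[p]))
    (hSigma : ∀ q : ℕ, q.Prime → q ∣ Mtop * p → q ∈ L.Sigma)
    (hSmin : ∀ q ∈ L.Smin, q.Prime ∧ q ≠ p ∧ ¬ q * q ∣ Mtop)
    (hplace : ∀ R, IsTorsionRep (stdInputs hes) ((algebraMap O Λ).comp ι₀) S
        (lamIdeal hsΛ S lam) R → ∀ (F : TLoc (stdInputs hes) ((algebraMap O Λ).comp ι₀) S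
          (lamIdeal hsΛ S lam) →ₐ[Λ] TwAlg hsΛ S lam ψ Q M) (g : (Matrix (Fin 2) (Fin 2) (TwAlg hsΛ S lam ψ Q M))ˣ),
        L.atPlace.Mem' (coordsOf fun σ : L.place.decompositionSubgroup ℚ =>
          g.1 * mapRep F.toRingHom R σ * g⁻¹.1)) :
    ∃ φ : P.R →ₐ[O] TwAlg hsΛ S lam ψ Q M,
      IsLocalHom (φ : P.R →+* TwAlg hsΛ S lam ψ Q M) ∧
      (∀ (ℓ : ℕ) (hℓ : ℓ.Prime) (hℓS : ℓ ∉ (↑S : Set ℕ)), ∀ A : ValuationSubring Qbar,
        A.LiesOverPrime ℓ → ∀ σ : GQ, A.IsFrobeniusAt σ ℓ → φ (P.rep σ).trace =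
          twClass hsΛ S lam ψ Q M (MvPolynomial.C (invChar ψ Q S ⟨⟨ℓ, hℓ⟩, hℓS⟩) *
            MvPolynomial.X ⟨⟨ℓ, hℓ⟩, hℓS⟩)) ∧
      (∀ (v : ℕ) (hv : v.Prime), ¬ v ∣ Mtop * p → ∀ A : ValuationSubring Qbar,
        A.LiesOverPrime v → (∀ σ ∈ A.inertiaSubgroupIn ℚ, (P.rep σ).map φ = 1) ∧
          ∀ σ : GQ, A.IsFrobeniusAt σ v → ∀ (j : J) (u : LevelCoh hsΛ S lam ψ Q M j),
            (φ (P.rep σ).trace : TwEnd hsΛ S lam ψ Q M) j u =
              (algebraMap Λ (HeckePoly Λ) (charProd (fun q => (ψ q).comp invMonoidHom) Q v) *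
                MvPolynomial.X ⟨v, hv⟩) • u) ∧
      (∀ q : ℕ, q.Prime → q ≠ p → q ∣ Mtop → ¬ q * q ∣ Mtop → ∀ A : ValuationSubring Qbar,
        A.LiesOverPrime q → ∀ σ ∈ A.inertiaSubgroupIn ℚ, φ (P.rep σ).trace = 2) ∧
      (∀ σ X, latHom (stdInputs hes) ((algebraMap O Λ).comp ι₀) S X =
          latTrace (stdInputs hes) ((algebraMap O Λ).comp ι₀) S σ →
        φ (P.rep σ).trace = twClass hsΛ S lam ψ Q M (twistPoly (invChar ψ Q S) X)) := by
  classical
  set I := stdInputs hes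
  set ι := (algebraMap O Λ).comp ι₀
  set m := lamIdeal hsΛ S lam
  set hl := isLocalHom_algebraMap_twAlg hsΛ S lam ψ Q M
  set hs := surjective_residue_twAlg hsΛ S lam ψ Q M
  have hker := H.ker_latHom_le hsΛ hes ι₀
  have hp2 : p ≠ 2 := by have := H.three_le; omega
  have hpk : (p : ResidueField O) = 0 := by
    rw [← map_natCast (residue O)]
    exact (residue_eq_zero_iff _).mpr H.p_mem
  have hirr : ∀ v : Fin 2 → ResidueField O, v ≠ 0 →
      ∃ g, ∀ a : ResidueField O, L.D.rbar g *ᵥ v ≠ a • v := by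
    intro v hv
    by_contra hcon
    push Not at hcon
    let W : Submodule (ResidueField O) (Matrix (Fin 2) (Fin 2) (ResidueField O)) :=
      { carrier := {X | ∃ a : ResidueField O, X *ᵥ v = a • v}
        zero_mem' := ⟨0, by simp⟩
        add_mem' := fun {X Y} ⟨a, ha⟩ ⟨b, hb⟩ => ⟨a + b, by rw [Matrix.add_mulVec, ha, hb, add_smul]⟩
        smul_mem' := fun c X ⟨a, ha⟩ => ⟨c * a, by rw [Matrix.smul_mulVec, ha, smul_smul]⟩ }
    have hW : Submodule.span (ResidueField O) (Set.range L.D.rbar) ≤ W :=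
      Submodule.span_le.mpr fun _ ⟨g, hg⟩ => hg ▸ hcon g
    rw [hspan] at hW
    obtain ⟨i, hi⟩ := Function.ne_iff.mp hv
    have hi' : v i ≠ 0 := hi
    obtain ⟨a, ha⟩ := hW (Submodule.mem_top (x := Matrix.single (1 - i) i (1 : ResidueField O)))
    have e1 := congrFun ha i
    have e2 := congrFun ha (1 - i)
    have hne : i ≠ 1 - i := by fin_cases i <;> decide
    simp only [Matrix.single_mulVec, one_mul, Pi.smul_apply, smul_eq_mul, Function.update_self,
      Function.update_of_ne hne, Pi.zero_apply] at e1 e2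
    rcases mul_eq_zero.1 e1.symm with h | h
    · exact hi' (by rw [e2, h, zero_mul])
    · exact hi' h
  obtain ⟨R, hR⟩ := exists_rep I ι S m (lamHom O Λ hsΛ S lam) hp2
    (fun q hq h => H.mem_S q hq h) hker rfl hpk L.D.rbar hfin.finite_level
    (fun ℓ hℓ hℓS A hA σ hσ => (htr ℓ hℓ hℓS A hA σ hσ).trans (lamHom_X hsΛ S lam ⟨⟨ℓ, hℓ⟩, hℓS⟩).symm) hirr
  obtain ⟨F, hF⟩ := H.exists_tLocHom hsΛ hes ι₀
  set R' : MRep (TwAlg hsΛ S lam ψ Q M) :=
    mapRep (F : TLoc I ι S m →+* TwAlg hsΛ S lam ψ Q M) R with hR'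
  have hFtr : ∀ σ, (R' σ).trace = F (tTrace I ι S m σ) := fun σ => by
    rw [hR', trace_mapRep, hR.trace]
    rfl
  have hFrob : ∀ (ℓ : ℕ) (hℓ : ℓ.Prime) (hℓS : ℓ ∉ (↑S : Set ℕ)), ∀ A : ValuationSubring Qbar,
      A.LiesOverPrime ℓ → ∀ σ : GQ, A.IsFrobeniusAt σ ℓ → (R' σ).trace =
        twClass hsΛ S lam ψ Q M (twistPoly (invChar ψ Q S) (MvPolynomial.X ⟨⟨ℓ, hℓ⟩, hℓS⟩)) :=
    fun ℓ hℓ hℓS A hA σ hσ => by
      rw [hFtr, tTrace_frobenius I ι S m hℓ hℓS (fun h => hℓS (H.mem_S ℓ hℓ h)) hA hσ, hF]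
  have hpnu : (p : TwAlg hsΛ S lam ψ Q M) ∈ maximalIdeal _ := by
    rw [← map_natCast (algebraMap O (TwAlg hsΛ S lam ψ Q M))]
    exact fun hu => H.p_mem (hl.map_nonunit _ hu)
  have hcont : IsCont R' := by
    intro n
    obtain ⟨K, hK, h⟩ := hR.cont n
    refine ⟨K, hK, fun σ hσ i j => ?_⟩
    have h1 := Ideal.mem_map_of_mem (F : TLoc I ι S m →+* TwAlg hsΛ S lam ψ Q M) (h σ hσ i j)
    rw [Ideal.map_pow, Ideal.map_span, Set.image_singleton] at h1
    have h2 := Ideal.pow_right_mono ((Ideal.span_singleton_le_iff_mem _).mpr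
      (show (F : TLoc I ι S m →+* TwAlg hsΛ S lam ψ Q M) (p : TLoc I ι S m) ∈ maximalIdeal _ by
        rw [map_natCast]; exact hpnu)) n h1
    convert h2 using 1
    by_cases hij : i = j <;> simp [hR', hij, map_sub]
  have hres : ∀ σ, toResidue hl hs (R' σ).trace = (L.D.rbar σ).trace := by
    intro σ
    have : IsLocalHom (toResidue hl hs : TwAlg hsΛ S lam ψ Q M →+* ResidueField O) :=
      ⟨fun x hx => by
        by_contra hx'
        exact hx.ne_zero ((toResidue_eq_zero_iff hl hs).mpr hx')⟩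
    have := trace_eq_of_frobenius (hcont.map (toResidue hl hs : _ →+* ResidueField O) inferInstance)
      hfin S (fun ℓ hℓ hℓS A hA τ hτ => ?_) σ
    · rwa [trace_mapRep] at this
    · rw [trace_mapRep, htr ℓ hℓ hℓS A hA τ hτ, hFrob ℓ hℓ hℓS A hA τ hτ]
      show toResidue hl hs _ = _
      rw [toResidue_twClass, twistPoly_X, map_mul, lamHom_X, lamHom_C]
      have h1 := (toResidue_eq_zero_iff (inferInstance : IsLocalHom (algebraMap O Λ)) hsΛ).mpr
        (H.invChar_sub_one_mem ⟨⟨ℓ, hℓ⟩, hℓS⟩)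
      rw [map_sub, map_one, sub_eq_zero] at h1
      rw [h1, one_mul]
  have heq : L.Equations R' :=
    { det := fun σ => by
        show ((F : TLoc I ι S m →+* TwAlg hsΛ S lam ψ Q M).mapMatrix (R σ)).det = _
        rw [← RingHom.map_det, hR.det, hdet]
        exact F.commutes _
      unram := fun q hq hqS A hA σ hσ => by
        rw [hR', mapRep_apply,
          hR.unramified I ι S m hq (fun h => hqS (hSigma q hq h)) hA hσ]
        exact Matrix.map_one _ (map_zero _) (map_one _)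
      unipotent := fun q hqS A hA σ hσ => by
        obtain ⟨hq, hqp, hq2⟩ := hSmin q hqS
        have h0 : (R σ - 1) * (R σ - 1) = 0 := by
          by_cases hqN : q ∣ Mtop
          · exact hR.unipotent' I ι S m hq hqp hqN hq2 hA hσ
          · rw [hR.unramified I ι S m hq (fun h => ((Nat.Prime.dvd_mul hq).mp h).elim hqN
              fun hp => hqp ((Nat.prime_dvd_prime_iff_eq hq Fact.out).mp hp)) hA hσ, sub_self,
              mul_zero]
        have h1 := congrArg (F : TLoc I ι S m →+* TwAlg hsΛ S lam ψ Q M).mapMatrix h0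
        rwa [map_mul, map_sub, map_one, map_zero] at h1 }
  obtain ⟨φ, hφ, g, hg⟩ := P.exists_classifying hl hs R' hspan hres hcont heq
    fun g => hplace R hR F g
  have htrace : ∀ σ, φ (P.rep σ).trace = (R' σ).trace := fun σ =>
    trace_classifying (φ : P.R →+* TwAlg hsΛ S lam ψ Q M) (hg σ)
  refine ⟨φ, hφ, fun ℓ hℓ hℓS A hA σ hσ => ?_, fun v hv hd A hA => ⟨fun σ hσ => ?_,
    fun σ hσ j u => ?_⟩, fun q hq hqp hqN hq2 A hA σ hσ => ?_, fun σ X hX => ?_⟩
  · rw [htrace, hFrob ℓ hℓ hℓS A hA σ hσ, twistPoly_X]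
  · have h1 : R' σ = 1 := by
      rw [hR', mapRep_apply, hR.unramified I ι S m hv hd hA hσ]
      exact Matrix.map_one _ (map_zero _) (map_one _)
    have h2 := hg σ
    rw [h1, mul_one] at h2
    exact g.isUnit.mul_right_cancel (h2.symm.trans (one_mul _).symm)
  · obtain ⟨X, hX⟩ := latHom_surjective I ι S (latTrace I ι S σ)
    rw [htrace, hFtr, show tTrace I ι S m σ = tHom I ι S m X from
      (congrArg (algebraMap _ _) hX).symm, hF]
    exact H.latTrace_eq hsΛ hes ι₀ hv hd hA hσ hX j u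
  · have h1 : (R σ).trace = 2 := by
      refine trace_eq_two_of_unipotent _ ?_ (hR.unipotent' I ι S m hq hqp hqN hq2 hA hσ)
      rw [hR.det, epsilon_inertia hq hqp hA hσ, Units.val_one, map_one, map_one]
    rw [htrace, hR', trace_mapRep, h1, map_ofNat]
  · rw [htrace, hFtr, show tTrace I ι S m σ = tHom I ι S m X from
      (congrArg (algebraMap _ _) hX).symm, hF]

end Fermat.Agent.Engine.TRep
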