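import Fermat.Agent.Engine.TRep.ChangeRing
import Fermat.Agent.Engine.TSide
import Fermat.Agent.EigenSystems.Points
import Fermat.Agent.HeckeModule.Finite

/-!
# Points of the Hecke ring of classes with character are eigen systems

`occurs_of_cohChar`: a map from the Hecke polynomials to a field which vanishes on the annihilator
of the localised `H¹(Γ₀(N), Λ(χ))` is the eigen system of a class over that field.
-/

set_option autoImplicit false

noncomputable section

namespace Fermat.Agent.Engine.TRep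

open HeckeModule

variable {Λ : Type} [CommRing Λ] {N : ℕ} {χ : (ZMod N)ˣ →* Λ} {m : Submonoid (HeckePoly Λ)}
  {K : Type} [CommRing K] [Algebra Λ K]

/-- Linear relations over a target ring between images of classes are respected by semilinear
functionals. -/
theorem sum_mul_eq_zero_of_charMap [IsNoetherianRing Λ] (h : ExactHyp m χ)
    (g : CohChar m χ Λ →+ K) (hg : ∀ (c : Λ) v, g (c • v) = algebraMap Λ K c * g v) {n : ℕ}
    (k : Fin n → K) (v : Fin n → CohChar m χ Λ)
    (hv : ∑ j, charMap m χ (LinearMap.toSpanSingleton Λ K (k j)) (v j) = 0) :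
    ∑ j, k j * g (v j) = 0 := by
  classical
  let f : (Fin n → Λ) →ₗ[Λ] K :=
    ∑ j, (LinearMap.toSpanSingleton Λ K (k j)) ∘ₗ (LinearMap.proj j)
  let inj : Fin n → Λ →ₗ[Λ] (Fin n → Λ) := fun i => LinearMap.single Λ (fun _ => Λ) i
  let pr : Fin n → (Fin n → Λ) →ₗ[Λ] Λ := fun j => LinearMap.proj j
  let ξ : CohChar m χ (Fin n → Λ) := ∑ i, charMap m χ (inj i) (v i)
  have hfi : ∀ i, f ∘ₗ inj i = LinearMap.toSpanSingleton Λ K (k i) := fun i => LinearMap.ext_ring (by
    simp [f, inj, Pi.single_apply])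
  have hξ : charMap m χ f ξ = 0 := by
    simp only [ξ, map_sum, charMap_comp]
    refine (Finset.sum_congr rfl fun i _ => ?_).trans hv
    rw [charMap_congr m χ (hfi i)]
  have hpr : ∀ i, charMap m χ (pr i) ξ = v i := fun i => by
    simp only [ξ, map_sum, charMap_comp]
    rw [Finset.sum_eq_single i]
    · rw [charMap_congr m χ (show pr i ∘ₗ inj i = LinearMap.id from
        LinearMap.ext_ring (by simp [pr, inj])), charMap_id]
    · intro b _ hb
      rw [charMap_congr m χ (show pr i ∘ₗ inj b = 0 from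
        LinearMap.ext_ring (by simp [pr, inj, Ne.symm hb])), charMap_zero]
    · simp
  let f' : (Fin n → Λ) →ₗ[Λ] LinearMap.range f := f.rangeRestrict
  have hξ' : charMap m χ f' ξ = 0 :=
    charMap_injective h (LinearMap.range f).subtype Subtype.val_injective (by
      rw [charMap_comp, map_zero]; exact hξ)
  let κ : LinearMap.ker f →ₗ[Λ] (Fin n → Λ) := (LinearMap.ker f).subtype
  have hex : Function.Exact κ f' := fun w => by
    refine ⟨fun hw => ⟨⟨w, congrArg Subtype.val hw⟩, rfl⟩, ?_⟩
    rintro ⟨w, rfl⟩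
    exact Subtype.ext w.2
  obtain ⟨η, hη⟩ := (charMap_exact h κ f' Subtype.val_injective f.surjective_rangeRestrict hex
    ξ).mp hξ'
  obtain ⟨s, π, hπ⟩ := (Submodule.fg_iff_exists_fin_linearMap Λ (Fin n → Λ)).mp
    (IsNoetherian.noetherian (LinearMap.ker f))
  let π' : (Fin s → Λ) →ₗ[Λ] LinearMap.ker f :=
    π.codRestrict _ fun w => hπ ▸ LinearMap.mem_range_self π w
  have hπ' : Function.Surjective π' := fun w => by
    obtain ⟨u, hu⟩ : (w : Fin n → Λ) ∈ LinearMap.range π := hπ.symm ▸ w.2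
    exact ⟨u, Subtype.ext hu⟩
  obtain ⟨ζ, hζ⟩ := charMap_surjective h π' hπ' η
  have hξζ : ξ = charMap m χ π ζ := by
    rw [← hη, ← hζ, charMap_comp]
    rfl
  let prs : Fin s → (Fin s → Λ) →ₗ[Λ] Λ := fun t => LinearMap.proj t
  let e : Fin s → Fin n → Λ := fun t => π (Pi.single t 1)
  have hvj : ∀ j, v j = ∑ t, e t j • charMap m χ (prs t) ζ := fun j => by
    rw [← hpr j, hξζ, charMap_comp]
    have h2 : pr j ∘ₗ π = ∑ t, e t j • prs t := by
      refine LinearMap.pi_ext' fun t => LinearMap.ext_ring ?_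
      simp [pr, prs, e, Pi.single_apply]
    rw [charMap_congr m χ h2, charMap_sum]
    exact Finset.sum_congr rfl fun t _ => charMap_smul m χ _ _ _
  simp only [hvj, map_sum, hg, Finset.mul_sum]
  rw [Finset.sum_comm]
  refine Finset.sum_eq_zero fun t _ => ?_
  have he : e t ∈ LinearMap.ker f := hπ ▸ LinearMap.mem_range_self π _
  have h0 : ∑ j, algebraMap Λ K (e t j) * k j = 0 := by
    rw [LinearMap.mem_ker] at he
    simpa [f, LinearMap.sum_apply, Algebra.smul_def] using he
  calc ∑ j, k j * (algebraMap Λ K (e t j) * g (charMap m χ (prs t) ζ))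
      = (∑ j, algebraMap Λ K (e t j) * k j) * g (charMap m χ (prs t) ζ) := by
        rw [Finset.sum_mul]
        exact Finset.sum_congr rfl fun j _ => by ring
    _ = 0 := by rw [h0, zero_mul]

omit [Algebra Λ K] in
/-- Scaled images of classes, in the two rings of scalars. -/
theorem sameCoh_cohMap_toSpan (θ : Λ →+* K) (k : K) (c : Cocycle (scalarRep χ Λ)) :
    letI : Algebra Λ K := θ.toAlgebra
    sameCoh (ρ := scalarRep (θ.toMonoidHom.comp χ) K) (ρ' := scalarRep χ K) (fun _ _ => rfl)
        (cohMap (LinearMap.toSpanSingleton Λ K k) (isIntertwining_scalar χ _)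
          (toCoh (scalarRep χ Λ) c)) =
      k • toCoh (scalarRep (θ.toMonoidHom.comp χ) K) (pushCocycle χ θ c) := by
  let : Algebra Λ K := θ.toAlgebra
  rw [cohMap_toCoh, ← map_smul]
  refine (sameH1_cls _ _).trans (congrArg _ (Subtype.ext (funext fun γ => ?_)))
  show θ (c.1 γ) * k = k * θ (c.1 γ)
  exact mul_comm _ _

variable [NeZero N] {S : Finset ℕ}

/-- **A point of the Hecke ring is an eigen system.** -/
theorem occurs_of_cohChar [IsNoetherianRing Λ] (mP : Ideal (AwayPoly Λ (↑S : Set ℕ))) [mP.IsPrime]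
    (h : ExactHyp (awayMonoid mP) χ) [Module.Finite Λ (CohChar (awayMonoid mP) χ Λ)]
    {L : Type} [Field L] (φ : AwayPoly Λ (↑S : Set ℕ) →+* L)
    (hker : ∀ P, (∀ v : CohChar (awayMonoid mP) χ Λ, awayIncl Λ (↑S : Set ℕ) P • v = 0) → φ P = 0)
    {lam : ℕ → L}
    (hlam : ∀ l : AwayIndex (↑S : Set ℕ), lam ((l : Nat.Primes) : ℕ) = φ (MvPolynomial.X l)) :
    Engine.Occurs L N ((φ.comp MvPolynomial.C).toMonoidHom.comp χ) S lam := by
  classical
  set θ : Λ →+* L := φ.comp MvPolynomial.C with hθ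
  let : Algebra Λ L := θ.toAlgebra
  set V := CohChar (awayMonoid mP) χ Λ
  let : Module (AwayPoly Λ (↑S : Set ℕ)) V :=
    Module.compHom V (awayIncl Λ (↑S : Set ℕ)).toRingHom
  have : IsScalarTower Λ (AwayPoly Λ (↑S : Set ℕ)) V := ⟨fun c P v => by
    show awayIncl Λ (↑S : Set ℕ) (c • P) • v = c • (awayIncl Λ (↑S : Set ℕ) P • v)
    rw [map_smul, smul_assoc]⟩
  have : Module.Finite (AwayPoly Λ (↑S : Set ℕ)) V := Module.Finite.of_restrictScalars_finite Λ _ _
  obtain ⟨g, hg0, hg⟩ := EigenRep.exists_semilinear_functional (M := V) φ fun P hP =>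
    RingHom.mem_ker.2 (hker P fun v => Module.mem_annihilator.1 hP v)
  have hgs : ∀ (c : Λ) v, g (c • v) = algebraMap Λ L c * g v := fun c v => by
    show _ = φ (MvPolynomial.C c) * g v
    rw [← hg]
    refine congrArg g ?_
    show c • v = awayIncl Λ (↑S : Set ℕ) (MvPolynomial.C c) • v
    rw [← MvPolynomial.algebraMap_eq, AlgHom.commutes, algebraMap_smul]
  -- a class with non-zero functional
  obtain ⟨u₀, hu₀⟩ : ∃ u, g (toLoc (awayMonoid mP) (scalarRep χ Λ) u) ≠ 0 := by
    by_contra hc
    push Not at hc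
    refine hg0 (AddMonoidHom.ext fun v => ?_)
    induction v using LocalizedModule.induction_on with
    | _ u s =>
      obtain ⟨s₀, -, hs₀⟩ := s.2
      have hcan : ∀ (t : awayMonoid mP), (s : HeckePoly Λ) •
          LocalizedModule.mk u (s * t) = LocalizedModule.mk u t := fun t => by
        rw [LocalizedModule.smul'_mk, ← Submonoid.smul_def, LocalizedModule.mk_cancel_common_left]
      have h1 : φ s₀ * g (LocalizedModule.mk u s) = 0 := by
        rw [← hg]
        refine Eq.trans (congrArg g ?_) (hc u)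
        show awayIncl Λ (↑S : Set ℕ) s₀ • LocalizedModule.mk u s = _
        rw [show awayIncl Λ (↑S : Set ℕ) s₀ = (s : HeckePoly Λ) from hs₀]
        have h2 := hcan 1
        rw [mul_one] at h2
        exact h2
      rcases mul_eq_zero.1 h1 with h0 | h0
      · have h2 : awayIncl Λ (↑S : Set ℕ) s₀ • LocalizedModule.mk u (s * s) =
            LocalizedModule.mk u s := by
          rw [show awayIncl Λ (↑S : Set ℕ) s₀ = (s : HeckePoly Λ) from hs₀, hcan]
        rw [← h2]
        exact (hg s₀ _).trans (by rw [h0, zero_mul]; rfl)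
      · exact h0
  -- the action over the field
  set χL := θ.toMonoidHom.comp χ
  let φL : AwayPoly L (↑S : Set ℕ) →ₐ[L] L := MvPolynomial.aeval fun l => φ (MvPolynomial.X l)
  let ev := (heckeHom (scalarRep χL L)).comp (awayIncl L (↑S : Set ℕ))
  have hkey : ∀ P, ev P = 0 → φL P = 0 := by
    intro P hP
    let e := P.support.equivFin.symm
    let k : Fin P.support.card → L := fun j => P.coeff (e j : (AwayIndex (↑S : Set ℕ)) →₀ ℕ)
    let Q : Fin P.support.card → AwayPoly Λ (↑S : Set ℕ) := fun j =>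
      MvPolynomial.monomial (e j : (AwayIndex (↑S : Set ℕ)) →₀ ℕ) 1
    have hdec : P = ∑ j, MvPolynomial.C (k j) * MvPolynomial.map θ (Q j) := by
      simp only [k, Q, MvPolynomial.map_monomial, map_one, MvPolynomial.C_mul_monomial, mul_one]
      refine Eq.trans ?_ (Equiv.sum_comp e (fun x : P.support =>
        MvPolynomial.monomial (x : (AwayIndex (↑S : Set ℕ)) →₀ ℕ) (P.coeff x.1))).symm
      refine Eq.trans (MvPolynomial.as_sum P) ?_
      exact (Finset.sum_coe_sort P.support (fun x => MvPolynomial.monomial x (P.coeff x))).symm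
    have hφmap : φL.toRingHom.comp (MvPolynomial.map θ) = φ :=
      MvPolynomial.ringHom_ext (fun c => by simp [φL, hθ]) fun l => by simp [φL]
    obtain ⟨c₀, rfl⟩ := toCoh_surjective _ u₀
    have hex : ∀ j, ∃ cj, awayIncl Λ (↑S : Set ℕ) (Q j) • toCoh (scalarRep χ Λ) c₀ =
        toCoh _ cj := fun j => by
      obtain ⟨cj, hcj⟩ := toCoh_surjective _ (awayIncl Λ (↑S : Set ℕ) (Q j) • toCoh _ c₀)
      exact ⟨cj, hcj.symm⟩
    choose cj hcj using hex
    have hrel : ∑ j, cohMap (LinearMap.toSpanSingleton Λ L (k j))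
        (isIntertwining_scalar χ _) (toCoh (scalarRep χ Λ) (cj j)) = 0 := by
      apply (sameCoh (ρ := scalarRep χL L) (ρ' := scalarRep χ L) fun _ _ => rfl).injective
      rw [map_sum, map_zero]
      refine Eq.trans (Finset.sum_congr rfl fun j _ => sameCoh_cohMap_toSpan θ (k j) (cj j)) ?_
      have h3 : ∀ j, k j • toCoh (scalarRep χL L) (pushCocycle χ θ (cj j)) =
          awayIncl L (↑S : Set ℕ) (MvPolynomial.C (k j) * MvPolynomial.map θ (Q j)) •
            toCoh (scalarRep χL L) (pushCocycle χ θ c₀) := fun j => by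
        rw [push_smul χ θ _ c₀ (cj j) (hcj j), awayIncl_map, map_mul, mul_smul,
          ← MvPolynomial.algebraMap_eq, AlgHom.commutes, algebraMap_smul]
      rw [Finset.sum_congr rfl fun j _ => h3 j, ← Finset.sum_smul, ← map_sum, ← hdec,
        heckePoly_smul_def, show heckeHom (scalarRep χL L) (awayIncl L (↑S : Set ℕ) P) = 0 from hP,
        LinearMap.zero_apply]
    have hloc : ∑ j, charMap (awayMonoid mP) χ (LinearMap.toSpanSingleton Λ L (k j))
        (toLoc (awayMonoid mP) _ (toCoh (scalarRep χ Λ) (cj j))) = 0 := by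
      simp only [toLoc, LocalizedModule.mkLinearMap_apply, charMap, locMap_mk]
      simp only [← LocalizedModule.mkLinearMap_apply, ← map_sum]
      rw [hrel, map_zero]
    have h4 := sum_mul_eq_zero_of_charMap h g hgs k _ hloc
    simp only [← hcj, LinearMap.map_smul] at h4
    have h5 : ∀ j, g (awayIncl Λ (↑S : Set ℕ) (Q j) • toLoc (awayMonoid mP) (scalarRep χ Λ)
        (toCoh _ c₀)) = φ (Q j) * g (toLoc (awayMonoid mP) _ (toCoh _ c₀)) := fun j => hg _ _
    simp only [h5, ← mul_assoc, ← Finset.sum_mul] at h4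
    refine Eq.trans ?_ ((mul_eq_zero.1 h4).resolve_right hu₀)
    conv_lhs => rw [hdec]
    rw [map_sum]
    exact Finset.sum_congr rfl fun j _ => by
      rw [map_mul, ← MvPolynomial.algebraMap_eq, AlgHom.commutes, ← RingHom.congr_fun hφmap (Q j)]
      rfl
  -- an eigenvector
  have : Module.Finite L (Coh1 (scalarRep χL L)) := finite_coh1 _
  let b := Module.finBasis L (Coh1 (scalarRep χL L))
  let ev' := (LinearEquiv.conjAlgEquiv L b.equivFun).toAlgHom.comp ev
  let : CommRing ev'.range :=
    { (inferInstance : Ring ev'.range) with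
      mul_comm := by
        rintro ⟨_, a, rfl⟩ ⟨_, a', rfl⟩
        exact Subtype.ext (show ev' a * ev' a' = ev' a' * ev' a by rw [← map_mul, mul_comm, map_mul]) }
  let f : ev'.range →ₐ[L] L :=
    AlgHom.liftOfSurjective ev'.rangeRestrict ev'.rangeRestrict_surjective φL fun P hP =>
      RingHom.mem_ker.2 (hkey P ((LinearEquiv.conjAlgEquiv L b.equivFun).injective
        ((congrArg Subtype.val (RingHom.mem_ker.1 hP)).trans (map_zero _).symm)))
  obtain ⟨v, hv0, hv⟩ := EigenSystems.exists_eigenvector_of_character ev'.range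
    (fun a ha b hb => congrArg Subtype.val (mul_comm (⟨a, ha⟩ : ev'.range) ⟨b, hb⟩)) f.toRingHom
  refine ⟨b.equivFun.symm v, fun h0 => hv0 ((LinearEquiv.map_eq_zero_iff _).1 h0),
    fun ℓ hℓ hℓS _ => ?_⟩
  let l : AwayIndex (↑S : Set ℕ) := ⟨⟨ℓ, hℓ.out⟩, hℓS⟩
  have h6 := hv (ev'.rangeRestrict (MvPolynomial.X l))
  rw [show f.toRingHom (ev'.rangeRestrict (MvPolynomial.X l)) = φ (MvPolynomial.X l) from
    (AlgHom.liftOfSurjective_apply _ _ _ _ _).trans (MvPolynomial.aeval_X _ _), ← hlam l] at h6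
  have h7 : (LinearMap.toMatrix' (ev' (MvPolynomial.X l))).mulVec v = lam ℓ • v := by
    refine Eq.trans ?_ h6
    congr 1
    ext i j
    rw [Matrix.map_apply, AlgHom.toRingHom_eq_coe, RingHom.coe_coe, AlgHom.commutes,
      Algebra.algebraMap_self, RingHom.id_apply]
    rfl
  rw [LinearMap.toMatrix'_mulVec] at h7
  apply b.equivFun.injective
  rw [map_smul, LinearEquiv.apply_symm_apply, ← h7]
  show _ = b.equivFun (ev (MvPolynomial.X l) (b.equivFun.symm v))
  refine congrArg _ ?_
  show _ = heckeHom _ (awayIncl L (↑S : Set ℕ) (MvPolynomial.X l)) _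
  rw [awayIncl_X, heckeHom_X]
  rfl

end Fermat.Agent.Engine.TRep
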