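import Mathlib.NumberTheory.Padics.RingHoms
import Fermat.Agent.HeckeModule.Elliptic

/-!
# Levels where classes lift at `p = 3`

At `p ≥ 5` every class lifts along surjections of `ℤ_p`-modules.  At `p = 3` this needs the absence
of elliptic points of order three, e.g. a prime `q ≡ 2 (mod 3)` dividing the level.
-/

set_option autoImplicit false

namespace Fermat.Agent.HeckeModule

/-- Either `p ≠ 3` or some prime `q ≡ 2 (mod 3)` divides `N`. -/
def ThreeOK (p N : ℕ) : Prop :=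
  p ≠ 3 ∨ ∃ q : ℕ, q.Prime ∧ q ∣ N ∧ q % 3 = 2

theorem ThreeOK.of_ne {p N : ℕ} (h : p ≠ 3) : ThreeOK p N := Or.inl h

theorem ThreeOK.of_dvd {p M N : ℕ} (h : ThreeOK p M) (hd : M ∣ N) : ThreeOK p N :=
  h.imp_right fun ⟨q, hq, hqM, hq3⟩ => ⟨q, hq, hqM.trans hd, hq3⟩

theorem ThreeOK.of_primeFactors {p M N : ℕ} (h : ThreeOK p M)
    (hd : ∀ q : ℕ, q.Prime → q ∣ M → q ∣ N) : ThreeOK p N :=
  h.imp_right fun ⟨q, hq, hqM, hq3⟩ => ⟨q, hq, hd q hq hqM, hq3⟩

/-- Multiplying by primes of the level changes nothing. -/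
theorem ThreeOK.of_mul_prod {p M : ℕ} {Q : Finset ℕ} (h : ThreeOK p (M * ∏ q ∈ Q, q))
    (hQ : ∀ q ∈ Q, q.Prime ∧ q ∣ M) : ThreeOK p M :=
  h.of_primeFactors fun ℓ hℓ hd => (hℓ.dvd_mul.mp hd).elim id fun h' => by
    obtain ⟨q, hq, hlq⟩ := (Prime.dvd_finsetProd_iff hℓ.prime _).mp h'
    exact (Nat.prime_dvd_prime_iff_eq hℓ (hQ q hq).1).mp hlq ▸ (hQ q hq).2

/-- Dividing by `p` changes nothing. -/
theorem ThreeOK.of_self_mul {p N : ℕ} (hp : p.Prime) (h : ThreeOK p (p * N)) : ThreeOK p N := by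
  by_cases h3 : p = 3
  · obtain ⟨q, hq, hd, hq3⟩ := h.resolve_left (not_not_intro h3)
    refine Or.inr ⟨q, hq, (hq.dvd_mul.mp hd).resolve_left fun hqp => ?_, hq3⟩
    have := (Nat.prime_dvd_prime_iff_eq hq hp).mp hqp
    omega
  · exact Or.inl h3

theorem padicInt_isUnit_natCast {p : ℕ} [Fact p.Prime] {q : ℕ} (hq : q.Prime) (hqp : q ≠ p) :
    IsUnit (q : ℤ_[p]) := by
  rw [PadicInt.isUnit_iff, PadicInt.norm_natCast_eq_one_iff]
  exact (Nat.coprime_primes (Fact.out : p.Prime) hq).mpr (Ne.symm hqp)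

/-- The lifting criterion over `ℤ_p`. -/
theorem ThreeOK.liftable {p N : ℕ} [Fact p.Prime] (h : ThreeOK p N) (hp2 : p ≠ 2) :
    Liftable ℤ_[p] N :=
  liftable_of _ N
    (Or.inl (by exact_mod_cast padicInt_isUnit_natCast Nat.prime_two (Ne.symm hp2)))
    (h.imp_left fun h3 => by exact_mod_cast padicInt_isUnit_natCast Nat.prime_three (Ne.symm h3))

end Fermat.Agent.HeckeModule
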