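import Fermat.Agent.EigenSystems.Parabolic
import Fermat.Agent.HeckeJ0.Lattice
import Fermat.Agent.HeckeModule.Ihara
import Fermat.Agent.EigenRep.CoeffRing
import Fermat.Agent.Engine.TRep.ThreeOK

/-!
# Non-Eisenstein parts of `H¹(Γ₀(N), A)` live on the lattice

For `r ≡ 1 (mod N)`, `r ≠ p`, the element `T_r - r - 1` maps every class with values in an
`O`-module into the homomorphisms killing parabolic and elliptic elements, all of which factor
through the lattice.
-/

set_option autoImplicit false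

noncomputable section

open CongruenceSubgroup ModularCurve.Period
open scoped MatrixGroups

namespace Fermat.Agent.Engine.TRep

open HeckeJ0 HeckeModule EigenSystems

variable {N : ℕ}

/-- A homomorphism to a torsion-free group killing parabolic elements kills elliptic ones. -/
theorem apply_eq_zero_of_trace_sq_le {A : Type*} [AddCommGroup A] [Module.IsTorsionFree ℤ A]
    {φ : Additive (Gamma0 N) →+ A} (hφ : IsParabolicHom (Gamma0 N) φ) {γ : Gamma0 N}
    (hγ : ((γ : SL(2, ℤ)) : Matrix (Fin 2) (Fin 2) ℤ).trace ^ 2 ≤ 4) :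
    φ (Additive.ofMul γ) = 0 := by
  set g : SL(2, ℤ) := (γ : SL(2, ℤ))
  set t := (g : Matrix (Fin 2) (Fin 2) ℤ).trace with ht
  have hd : g 0 0 * g 1 1 - g 0 1 * g 1 0 = 1 := by
    have := g.det_coe; rwa [Matrix.det_fin_two] at this
  have hsq : ((g * g : SL(2, ℤ)) : Matrix (Fin 2) (Fin 2) ℤ).trace = t ^ 2 - 2 := by
    rw [ht, Matrix.trace_fin_two, Matrix.trace_fin_two, Matrix.SpecialLinearGroup.coe_mul,
      Matrix.mul_apply, Matrix.mul_apply, Fin.sum_univ_two, Fin.sum_univ_two]
    linear_combination (-2 : ℤ) * hd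
  have hcube : ((g * g * g : SL(2, ℤ)) : Matrix (Fin 2) (Fin 2) ℤ).trace = t ^ 3 - 3 * t := by
    rw [ht, Matrix.trace_fin_two, Matrix.trace_fin_two]
    simp only [Matrix.SpecialLinearGroup.coe_mul, Matrix.mul_apply, Fin.sum_univ_two]
    linear_combination (-3 * (g 0 0 + g 1 1)) * hd
  have key : ∀ k : ℕ, k ≠ 0 →
      ((g ^ k : SL(2, ℤ)) : Matrix (Fin 2) (Fin 2) ℤ).trace ^ 2 = 4 →
      φ (Additive.ofMul γ) = 0 := by
    intro k hk htr
    have h : φ (Additive.ofMul (γ ^ k)) = 0 := hφ (γ ^ k) (by rwa [SubmonoidClass.coe_pow])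
    rw [ofMul_pow, map_nsmul, ← natCast_zsmul] at h
    exact (smul_eq_zero.mp h).resolve_left (by exact_mod_cast hk)
  have h12 : -2 ≤ t ∧ t ≤ 2 := ⟨by nlinarith, by nlinarith⟩
  obtain ⟨h1, h2⟩ := h12
  interval_cases h : t
  · exact hφ γ (by rw [← ht]; norm_num)
  · refine key 3 (by norm_num) ?_
    rw [show g ^ 3 = g * g * g by rw [pow_succ, sq], hcube]; norm_num
  · refine key 2 (by norm_num) ?_
    rw [show g ^ 2 = g * g from sq g, hsq]; norm_num
  · refine key 3 (by norm_num) ?_
    rw [show g ^ 3 = g * g * g by rw [pow_succ, sq], hcube]; norm_num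
  · exact hφ γ (by rw [← ht]; norm_num)

variable [NeZero N]

/-- A good homomorphism to a torsion-free group factors through the lattice. -/
theorem ofCoords_coords_torsionFree {A : Type*} [AddCommGroup A] [Module.IsTorsionFree ℤ A]
    {ψ : Additive (Gamma0 N) →+ A} (hψ : IsGoodHom N ψ) : ofCoords N (HeckeJ0.coords N ψ) = ψ := by
  have : AddGroup.FG (Additive (Gamma0 N)) :=
    haveI := fg_Gamma0 (N := N)
    inferInstance
  have : AddGroup.FG ψ.range := AddGroup.fg_range ψ
  let P : Submodule ℤ A := ψ.range.toIntSubmodule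
  have : Module.Finite ℤ P := Module.Finite.iff_addGroup_fg.mpr (inferInstanceAs (AddGroup.FG ψ.range))
  have : Module.Free ℤ P := Module.free_of_finite_type_torsion_free'
  let b := Module.finBasis ℤ P
  let ψ' : Additive (Gamma0 N) →+ P :=
    { toFun := fun g => ⟨ψ g, g, rfl⟩
      map_zero' := Subtype.ext (map_zero ψ)
      map_add' := fun g h => Subtype.ext (map_add ψ g h) }
  have hcoord : ∀ i, ofCoords N (HeckeJ0.coords N ((b.coord i).toAddMonoidHom.comp ψ')) =
      (b.coord i).toAddMonoidHom.comp ψ' := fun i => ofCoords_coords_int N fun g hg => by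
    show b.coord i (ψ' (Additive.ofMul g)) = 0
    rw [show ψ' (Additive.ofMul g) = 0 from Subtype.ext (hψ g hg), map_zero]
  have hP : ofCoords N (HeckeJ0.coords N ψ') = ψ' := by
    refine AddMonoidHom.ext fun g => b.ext_elem fun i => ?_
    have h := DFunLike.congr_fun (hcoord i) g
    rw [← show (b.coord i).toAddMonoidHom.comp (ofCoords N (HeckeJ0.coords N ψ')) =
      ofCoords N (HeckeJ0.coords N ((b.coord i).toAddMonoidHom.comp ψ')) from map_ofCoords N _ _] at h
    exact h
  have hcomp : P.subtype.toAddMonoidHom.comp ψ' = ψ := AddMonoidHom.ext fun g => rfl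
  calc ofCoords N (HeckeJ0.coords N ψ)
      = P.subtype.toAddMonoidHom.comp (ofCoords N (HeckeJ0.coords N ψ')) := by
        rw [map_ofCoords]; rfl
    _ = ψ := by rw [hP, hcomp]

/-- The element `T_r - r - 1` of a class, as a homomorphism, factors through the lattice. -/
theorem eisen_factors {p : ℕ} [Fact p.Prime] (hp2 : p ≠ 2) (hp3 : ThreeOK p N) {O : Type} [CommRing O]
    (ι : ℤ_[p] →+* O) {A : Type} [AddCommGroup A] [Module O A] {r : ℕ} [hr : Fact r.Prime]
    [NeZero r] (hr1 : (r : ZMod N) = 1) (hrp : r ≠ p) (c : Cocycle (trivRep N O A)) :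
    let ψ : Additive (Gamma0 N) →+ A := homOf (fun _ => rfl)
      (((heckeData (trivRep N O A) r).onCocycles toGL_injective c) - ((r : O) + 1) • c)
    ofCoords N (HeckeJ0.coords N ψ) = ψ := by
  intro ψ
  let : Module ℤ_[p] A := Module.compHom A ι
  -- lift to a free module over `ℤ_p`
  let f : (A →₀ ℤ_[p]) →ₗ[ℤ_[p]] A := Finsupp.linearCombination ℤ_[p] id
  have hfs : Function.Surjective f := fun a => ⟨Finsupp.single a 1, by simp [f]⟩
  have hlift : Liftable ℤ_[p] N := hp3.liftable hp2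
  let c₁ : Cocycle (trivRep N ℤ_[p] A) :=
    mapCocycle (fun _ => rfl) (fun _ => rfl) (AddMonoidHom.id A) c
  obtain ⟨c₂, hc₂⟩ := exists_cocycle_lift (ρA := trivRep N ℤ_[p] (A →₀ ℤ_[p]))
    (ρB := trivRep N ℤ_[p] A) f (fun u a => rfl) hfs rfl hlift c₁
  let d : Cocycle (trivRep N ℤ_[p] (A →₀ ℤ_[p])) :=
    (heckeData (trivRep N ℤ_[p] (A →₀ ℤ_[p])) r).onCocycles toGL_injective c₂ -
      ((r : ℤ_[p]) + 1) • c₂
  let ψ₂ : Additive (Gamma0 N) →+ (A →₀ ℤ_[p]) := homOf (fun _ => rfl) d
  have hcomm : f.toAddMonoidHom.comp ψ₂ = ψ := by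
    refine AddMonoidHom.ext fun g => ?_
    obtain ⟨g, rfl⟩ := Additive.ofMul.surjective g
    show f ((heckeData _ r).raw c₂.1 g - ((r : ℤ_[p]) + 1) • c₂.1 g) =
      (heckeData _ r).raw c.1 g - ((r : O) + 1) • c.1 g
    rw [map_sub, map_smul, raw_apply_trivial (fun _ => rfl), raw_apply_trivial (fun _ => rfl),
      map_sum, hc₂]
    congr 1
    · refine Finset.sum_congr rfl fun x _ => ?_
      rw [hc₂]
      exact congrArg c.1 ((heckeData (trivRep N O A) r).spec_unique toGL_injective
        ((heckeData (trivRep N ℤ_[p] (A →₀ ℤ_[p])) r).mul_spec x g)).2.symm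
    · show ι ((r : ℤ_[p]) + 1) • c.1 g = _
      rw [map_add, map_natCast, map_one]
  have hpar : IsParabolicHom (Gamma0 N) ψ₂ := by
    refine isParabolicHom_homOf (fun _ => rfl) (c := d) fun u v huv => ?_
    have hb := boundary_hecke hr1 c₂ huv
    have hd : (r : ℤ) • d.1 (parElt N u v 1) = 0 := by
      refine Eq.trans ?_ hb
      show (r : ℤ) • ((heckeData _ r).raw c₂.1 _ - ((r : ℤ_[p]) + 1) • c₂.1 _) = _
      rw [← Int.cast_smul_eq_zsmul ℤ_[p] ((r : ℤ) + 1)]
      simp
    exact (smul_eq_zero.mp hd).resolve_left (by exact_mod_cast hr.out.ne_zero)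
  have hgood : IsGoodHom N ψ₂ := fun g hg => apply_eq_zero_of_trace_sq_le hpar hg
  calc ofCoords N (HeckeJ0.coords N ψ)
      = f.toAddMonoidHom.comp (ofCoords N (HeckeJ0.coords N ψ₂)) := by
        rw [map_ofCoords, ← hcomm]; rfl
    _ = ψ := by rw [ofCoords_coords_torsionFree hgood, hcomm]

end Fermat.Agent.Engine.TRep
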