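import Fermat.Agent.Engine.TRep.Algebra
import Fermat.Agent.Engine.TRep.Boundary
import Fermat.Agent.HeckeJ0.TorsionModel
import Fermat.Agent.HeckeJ0.Inputs
import Fermat.Agent.EigenRep.Inputs
import Fermat.Agent.EigenRep.Smooth

/-!
# The localised algebra acts on the non-Eisenstein localisation of `H¹(Γ₀(N), A)`
-/

set_option autoImplicit false

noncomputable section

open CongruenceSubgroup
open scoped MatrixGroups

namespace Fermat.Agent.Engine.TRep

open EigenRep HeckeModule EigenSystems

variable {N p : ℕ} [NeZero N] [Fact p.Prime] (hes : EichlerShimuraRelations N p)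

/-- The inputs at level `N`. -/
def stdInputs : RepInputs N p :=
  ⟨HeckeJ0.torsionHeckeModel N p, HeckeJ0.heckeGaloisEquivariant N, jZeroSmooth N, hes,
    frobeniusDense⟩

theorem stdInputs_T (l : Nat.Primes) : (stdInputs hes).model.T l = HeckeJ0.heckeMatAt N l := rfl

variable {O : Type} [CommRing O] {A : Type} [AddCommGroup A] [Module O A]

/-- The homomorphism of a class with trivial coefficients. -/
def classHom (u : Coh1 (trivRep N O A)) : Additive (Gamma0 N) →+ A :=
  homOf (fun _ => rfl) (toCoh_surjective (trivRep N O A) u).choose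

theorem classHom_toCoh (c : Cocycle (trivRep N O A)) :
    classHom (toCoh (trivRep N O A) c) = homOf (fun _ => rfl) c := by
  have h := (toCoh_surjective (trivRep N O A) (toCoh (trivRep N O A) c)).choose_spec
  rw [classHom, toCoh_trivial_injective h]

theorem classHom_injective : Function.Injective (classHom (N := N) (O := O) (A := A)) := by
  intro u v h
  obtain ⟨c, rfl⟩ := toCoh_surjective _ u
  obtain ⟨d, rfl⟩ := toCoh_surjective _ v
  rw [classHom_toCoh, classHom_toCoh] at h
  exact congrArg _ (Subtype.ext (funext fun g => DFunLike.congr_fun h (Additive.ofMul g)))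

theorem classHom_add (u v : Coh1 (trivRep N O A)) : classHom (u + v) = classHom u + classHom v := by
  obtain ⟨c, rfl⟩ := toCoh_surjective _ u
  obtain ⟨d, rfl⟩ := toCoh_surjective _ v
  rw [← map_add, classHom_toCoh, classHom_toCoh, classHom_toCoh]
  exact AddMonoidHom.ext fun g => rfl

/-- Coordinates of a class on the lattice. -/
def classCoords : Coh1 (trivRep N O A) →ₗ[O] (Fin (HeckeJ0.rk N) → A) where
  toFun u := HeckeJ0.coords N (classHom u)
  map_add' u v := by rw [classHom_add, map_add]
  map_smul' a u := by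
    obtain ⟨c, rfl⟩ := toCoh_surjective _ u
    rw [← map_smul, classHom_toCoh, classHom_toCoh]
    rfl

/-- A class on the lattice: determined by its coordinates. -/
def OnLattice (u : Coh1 (trivRep N O A)) : Prop :=
  HeckeJ0.ofCoords N (classCoords u) = classHom u

theorem onLattice_add {u v : Coh1 (trivRep N O A)} (hu : OnLattice u) (hv : OnLattice v) :
    OnLattice (u + v) := by
  unfold OnLattice at *
  refine AddMonoidHom.ext fun g => ?_
  rw [classHom_add, AddMonoidHom.add_apply, ← DFunLike.congr_fun hu g, ← DFunLike.congr_fun hv g,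
    map_add]
  simp [HeckeJ0.ofCoords_apply, smul_add, Finset.sum_add_distrib]

/-- An integral matrix on coordinates with values in a module. -/
def intAct (M : Matrix (Fin (HeckeJ0.rk N)) (Fin (HeckeJ0.rk N)) ℤ)
    (a : Fin (HeckeJ0.rk N) → A) : Fin (HeckeJ0.rk N) → A :=
  fun i => ∑ k, M i k • a k

omit [Module O A] in
theorem coords_cohHecke_ofCoords' (ℓ : ℕ) [Fact ℓ.Prime] [NeZero ℓ]
    (a : Fin (HeckeJ0.rk N) → A) :
    HeckeJ0.coords N (HeckeJ0.cohHecke ℓ (HeckeJ0.ofCoords N a)) =
      intAct (HeckeJ0.heckeMat N ℓ) a := by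
  classical
  funext i
  show _ = ∑ k, HeckeJ0.heckeMat N ℓ i k • a k
  simp only [HeckeJ0.coords_apply, HeckeJ0.cohHecke_apply, HeckeJ0.heckeMat]
  simp only [Finset.sum_smul, HeckeJ0.ofCoords_apply]
  rw [Finset.sum_comm]
  refine Finset.sum_congr rfl fun k _ => Finset.sum_congr rfl fun x _ => ?_
  simp [Pi.single_apply]

theorem classHom_heckeOp {ℓ : ℕ} [Fact ℓ.Prime] [NeZero ℓ] (u : Coh1 (trivRep N O A)) :
    classHom (heckeOp (trivRep N O A) ℓ u) = HeckeJ0.cohHecke ℓ (classHom u) := by
  obtain ⟨c, rfl⟩ := toCoh_surjective _ u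
  rw [heckeOp_toCoh, classHom_toCoh, classHom_toCoh]
  refine AddMonoidHom.ext fun g => ?_
  obtain ⟨g, rfl⟩ := Additive.ofMul.surjective g
  show (heckeData _ ℓ).raw c.1 g = _
  rw [raw_apply_trivial (fun _ => rfl), HeckeJ0.cohHecke_apply]
  refine Finset.sum_congr rfl fun x _ => congrArg c.1 ?_
  exact ((heckeData (trivRep N O A) ℓ).spec_unique toGL_injective (HeckeJ0.rep_mul x g)).2

theorem classCoords_heckeOp (l : Nat.Primes) {u : Coh1 (trivRep N O A)} (hu : OnLattice u) :
    classCoords (heckeGen (trivRep N O A) l u) = intAct (HeckeJ0.heckeMatAt N l) (classCoords u) := by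
  have : Fact (l : ℕ).Prime := ⟨l.2⟩
  have : NeZero (l : ℕ) := ⟨l.2.ne_zero⟩
  show HeckeJ0.coords N (classHom (heckeOp (trivRep N O A) (l : ℕ) u)) = _
  rw [classHom_heckeOp, ← hu, coords_cohHecke_ofCoords']
  rfl

variable (ι : ℤ_[p] →+* O) (S : Finset ℕ)

/-- An endomorphism of `O^d` on `A^d`. -/
def moduleAct (B : Module.End O (Fin (stdInputs hes).model.d → O)) (a : Fin (stdInputs hes).model.d → A) :
    Fin (stdInputs hes).model.d → A :=
  fun i => ∑ k, B (Pi.single k 1) i • a k

theorem moduleAct_mul (B C : Module.End O (Fin (stdInputs hes).model.d → O))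
    (a : Fin (stdInputs hes).model.d → A) : moduleAct hes (B * C) a = moduleAct hes B (moduleAct hes C a) := by
  funext i
  simp only [moduleAct, Module.End.mul_apply, Finset.smul_sum, smul_smul]
  rw [Finset.sum_comm]
  refine Finset.sum_congr rfl fun k _ => ?_
  rw [← Finset.sum_smul]
  congr 1
  conv_lhs => rw [← Finset.univ_sum_single (C (Pi.single k 1))]
  rw [map_sum, Finset.sum_apply]
  refine Finset.sum_congr rfl fun j _ => ?_
  rw [show (Pi.single j (C (Pi.single k 1) j) : Fin (stdInputs hes).model.d → O) =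
    C (Pi.single k 1) j • Pi.single j 1 by rw [← Pi.single_smul, smul_eq_mul, mul_one],
    map_smul, Pi.smul_apply, smul_eq_mul, mul_comm]

theorem moduleAct_latOp (l : AwayIndex (↑S : Set ℕ)) (a : Fin (stdInputs hes).model.d → A) :
    moduleAct hes (latOp (stdInputs hes) ι S l) a = intAct (HeckeJ0.heckeMatAt N l) a := by
  funext i
  refine Finset.sum_congr rfl fun k _ => ?_
  show ((latOp (stdInputs hes) ι S l) (Pi.single k (1 : O) : Lat (stdInputs hes) O) i) • a k = _
  rw [latOp, matEnd_apply, Matrix.mulVec_single_one]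
  show ι ((((stdInputs hes).model.T l) i k : ℤ) : ℤ_[p]) • a k = _
  rw [map_intCast, Int.cast_smul_eq_zsmul, stdInputs_T]

theorem moduleAct_algebraMap (c : O) (a : Fin (stdInputs hes).model.d → A) :
    moduleAct hes (algebraMap O (Module.End O (Lat (stdInputs hes) O)) c) a = c • a := by
  funext i
  show ∑ k, (c • (Pi.single k (1 : O) : Fin (stdInputs hes).model.d → O)) i • a k = c • a i
  rw [Finset.sum_eq_single i]
  · simp
  · intro k _ hk
    simp [Ne.symm hk]
  · exact fun h => absurd (Finset.mem_univ i) h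

theorem moduleAct_add (B C : Module.End O (Fin (stdInputs hes).model.d → O))
    (a : Fin (stdInputs hes).model.d → A) :
    moduleAct hes (B + C) a = moduleAct hes B a + moduleAct hes C a := by
  funext i
  show ∑ k, (B (Pi.single k 1) i + C (Pi.single k 1) i) • a k = _
  simp only [add_smul, Finset.sum_add_distrib]
  rfl

theorem moduleAct_zero (a : Fin (stdInputs hes).model.d → A) :
    moduleAct hes (0 : Module.End O (Fin (stdInputs hes).model.d → O)) a = 0 := by
  funext i
  exact Finset.sum_eq_zero fun k _ => zero_smul O (a k)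

variable {r : ℕ} [hr : Fact r.Prime]

/-- Everything in the image of the Eisenstein element is on the lattice. -/
theorem onLattice_eisen (hp2 : p ≠ 2) (hp3 : ThreeOK p N) (hr1 : (r : ZMod N) = 1) (hrp : r ≠ p)
    (ι : ℤ_[p] →+* O) (u : Coh1 (trivRep N O A)) : OnLattice (eisen O r • u) := by
  have : NeZero r := ⟨hr.out.ne_zero⟩
  obtain ⟨c, rfl⟩ := toCoh_surjective _ u
  rw [eisen_smul, heckeOp_toCoh, ← map_smul, ← map_sub]
  unfold OnLattice
  show HeckeJ0.ofCoords N (HeckeJ0.coords N (classHom _)) = _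
  rw [classHom_toCoh]
  exact eisen_factors hp2 hp3 ι hr1 hrp c

/-- A polynomial acts on the coordinates of lattice classes through the lattice algebra. -/
theorem classCoords_smul (hp2 : p ≠ 2) (hp3 : ThreeOK p N) (hr1 : (r : ZMod N) = 1) (hrp : r ≠ p)
    (P : AwayPoly O (↑S : Set ℕ)) (u : Coh1 (trivRep N O A)) :
    classCoords (awayIncl O (↑S : Set ℕ) P • eisen O r • u) =
      moduleAct hes (latHom (stdInputs hes) ι S P : Module.End O (Lat (stdInputs hes) O))
        (classCoords (eisen O r • u)) := by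
  induction P using MvPolynomial.induction_on generalizing u with
  | C a =>
    rw [← MvPolynomial.algebraMap_eq, AlgHom.commutes, AlgHom.commutes, algebraMap_smul, map_smul]
    exact (moduleAct_algebraMap hes a _).symm
  | add P Q hP hQ =>
    rw [map_add, add_smul, map_add, hP, hQ, map_add, Subalgebra.coe_add]
    exact (moduleAct_add hes _ _ _).symm
  | mul_X P l hP =>
    have e : (eisen O r) • (awayIncl O (↑S : Set ℕ) (MvPolynomial.X l) • u) =
        awayIncl O (↑S : Set ℕ) (MvPolynomial.X l) • eisen O r • u := smul_comm _ _ _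
    have hX : classCoords (awayIncl O (↑S : Set ℕ) (MvPolynomial.X l) • eisen O r • u) =
        intAct (HeckeJ0.heckeMatAt N l) (classCoords (eisen O r • u)) := by
      rw [awayIncl_X, heckePoly_smul_def, heckeHom_X]
      exact classCoords_heckeOp _ (onLattice_eisen hp2 hp3 hr1 hrp ι u)
    rw [map_mul, mul_smul, ← e, hP, e, hX, map_mul, Subalgebra.coe_mul, latHom_X]
    exact (congrArg (moduleAct hes _) (moduleAct_latOp hes ι S l _).symm).trans
      (moduleAct_mul hes _ _ _).symm

/-- Killing the lattice kills the Eisenstein multiples of every class. -/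
theorem smul_eq_zero_of_latHom (hp2 : p ≠ 2) (hp3 : ThreeOK p N) (hr1 : (r : ZMod N) = 1)
    (hrp : r ≠ p) {P : AwayPoly O (↑S : Set ℕ)} (hP : latHom (stdInputs hes) ι S P = 0)
    (u : Coh1 (trivRep N O A)) : (eisen O r * awayIncl O (↑S : Set ℕ) P) • u = 0 := by
  have h := classCoords_smul hes ι S hp2 hp3 hr1 hrp P u
  rw [hP, ZeroMemClass.coe_zero] at h
  have h0 : classCoords (awayIncl O (↑S : Set ℕ) P • eisen O r • u) = 0 :=
    h.trans (moduleAct_zero hes _)
  rw [mul_comm, mul_smul]
  rw [show awayIncl O (↑S : Set ℕ) P • eisen O r • u =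
    eisen O r • (awayIncl O (↑S : Set ℕ) P • u) from smul_comm _ _ _] at h0 ⊢
  apply classHom_injective
  rw [← (onLattice_eisen hp2 hp3 hr1 hrp ι (awayIncl O (↑S : Set ℕ) P • u) :
    HeckeJ0.ofCoords N _ = _), h0]
  obtain ⟨c, hc⟩ := toCoh_surjective (trivRep N O A) 0
  refine AddMonoidHom.ext fun g => ?_
  have hz : classHom (0 : Coh1 (trivRep N O A)) = 0 := by
    rw [← map_zero (toCoh (trivRep N O A)), classHom_toCoh]
    exact AddMonoidHom.ext fun g => rfl
  rw [hz]
  simp [HeckeJ0.ofCoords_apply]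

/-- Factor a map to a commutative algebra through a surjection followed by a localisation. -/
theorem exists_lift_localization {R P L T E : Type} [CommRing R] [CommRing P] [CommRing L]
    [CommRing T] [CommRing E] [Algebra R P] [Algebra R L] [Algebra R T] [Algebra R E] [Algebra L T]
    [IsScalarTower R L T] (f : P →ₐ[R] L) (hf : Function.Surjective f) (M : Submonoid P)
    [IsLocalization (M.map (f : P →+* L)) T] (g : P →ₐ[R] E) (hk : ∀ x, f x = 0 → g x = 0)
    (hu : ∀ a ∈ M, IsUnit (g a)) :
    ∃ F : T →ₐ[R] E, ∀ x, F (algebraMap L T (f x)) = g x := by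
  let g' : L →ₐ[R] E := AlgHom.liftOfSurjective f hf g fun x hx =>
    RingHom.mem_ker.mpr (hk x (RingHom.mem_ker.mp hx))
  have hg' : ∀ x, g' (f x) = g x := fun x => AlgHom.liftOfSurjective_apply _ _ _ _ x
  have hu' : ∀ s : M.map (f : P →+* L), IsUnit (g' (s : L)) := by
    rintro ⟨s, a, ha, rfl⟩
    show IsUnit (g' (f a))
    rw [hg']
    exact hu a ha
  refine ⟨IsLocalization.liftAlgHom (f := g') hu', fun x => ?_⟩
  rw [IsLocalization.liftAlgHom_apply, IsLocalization.lift_eq]
  exact hg' x

/-- Killing the lattice kills the localised class. -/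
theorem mk_eq_zero_of_latHom (hp2 : p ≠ 2) (hp3 : ThreeOK p N) (hr1 : (r : ZMod N) = 1) (hrp : r ≠ p)
    (m : Ideal (AwayPoly O (↑S : Set ℕ))) [m.IsPrime] (hrS : r ∉ S)
    (hre : awayX O hr.out (show r ∉ (↑S : Set ℕ) from hrS) -
      MvPolynomial.C ((r : O) + 1) ∉ m)
    {P : AwayPoly O (↑S : Set ℕ)} (hP : latHom (stdInputs hes) ι S P = 0)
    (u : LocalizedModule (awayMonoid m) (Coh1 (trivRep N O A))) :
    awayIncl O (↑S : Set ℕ) P • u = 0 := by
  induction u using LocalizedModule.induction_on with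
  | _ u s =>
    rw [LocalizedModule.smul'_mk, ← LocalizedModule.zero_mk s, LocalizedModule.mk_eq]
    refine ⟨⟨_, eisen_mem_awayMonoid _ hre⟩, ?_⟩
    rw [smul_zero, smul_zero, Submonoid.smul_def, Submonoid.smul_def, smul_comm]
    rw [← mul_smul (eisen O r), smul_eq_zero_of_latHom hes ι S hp2 hp3 hr1 hrp hP, smul_zero]

variable (m : Ideal (AwayPoly O (↑S : Set ℕ))) [m.IsPrime]

/-- If the system occurs in localised `H¹`, it occurs in the lattice. -/
theorem ker_latHom_le (hp2 : p ≠ 2) (hp3 : ThreeOK p N) (hr1 : (r : ZMod N) = 1) (hrp : r ≠ p)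
    (hrS : r ∉ S) (hre : awayX O hr.out (show r ∉ (↑S : Set ℕ) from hrS) -
      MvPolynomial.C ((r : O) + 1) ∉ m)
    [hnt : Nontrivial (LocalizedModule (awayMonoid m) (Coh1 (trivRep N O A)))] :
    RingHom.ker (latHom (stdInputs hes) ι S) ≤ m := by
  intro P hP
  by_contra hPm
  obtain ⟨u, hu⟩ := exists_ne (0 : LocalizedModule (awayMonoid m) (Coh1 (trivRep N O A)))
  refine hu ?_
  have hz := mk_eq_zero_of_latHom hes ι S hp2 hp3 hr1 hrp m hrS hre (RingHom.mem_ker.mp hP) u
  have hinj := (Module.End.isUnit_iff _).mp (IsLocalizedModule.map_units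
    (LocalizedModule.mkLinearMap (awayMonoid m) (Coh1 (trivRep N O A)))
    ⟨_, mem_awayMonoid hPm⟩)
  exact hinj.1 (hz.trans (map_zero _).symm)

end Fermat.Agent.Engine.TRep
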