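import Fermat.Agent.Engine.TRep.Local
import Fermat.Agent.Engine.TRep.Compare
import Fermat.Agent.SemistableRed.AllFacts
import Fermat.Agent.TameInertia.Qbar

/-!
# Exact and product relations for the representation over the localised algebra

Relations between Galois matrices on the lattice, transferred to the representation, and unipotent
inertia at a prime exactly dividing the level.
-/

set_option autoImplicit false

noncomputable section

namespace Fermat.Agent.Engine.TRep

open EigenRep HeckeModule DefRing Matrix ModularCurve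

local notation "Qbar" => AlgebraicClosure ℚ

/-- The inputs at level `N`, unconditionally. -/
def levelInputs (N p : ℕ) [NeZero N] [Fact p.Prime] : RepInputs N p :=
  stdInputs (SemistableRed.allRelations N p)

variable {N p : ℕ} [NeZero N] [Fact p.Prime] {I : RepInputs N p}
  {O : Type} [CommRing O] {ι : ℤ_[p] →+* O} {S : Finset ℕ}
  {m : Ideal (AwayPoly O (↑S : Set ℕ))} [m.IsPrime] {R : MRep (TLoc I ι S m)}

/-- The image of a `p`-adic integer. -/
abbrev tInt (I : RepInputs N p) (ι : ℤ_[p] →+* O) (S : Finset ℕ)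
    (m : Ideal (AwayPoly O (↑S : Set ℕ))) [m.IsPrime] : ℤ_[p] →+* TLoc I ι S m :=
  (algebraMap O (TLoc I ι S m)).comp ι

theorem one_mem_latMonoid :
    (⟨matEnd I ι 1, matEnd_mem I ι S (one_mem (matAway I S))⟩ : LatAlg I ι S) ∈
      latMonoid I ι S m := by
  convert (latMonoid I ι S m).one_mem
  exact map_one (matEnd I ι)

/-- A relation holding on the whole lattice. -/
theorem IsTorsionRep.transfer_exact (hR : IsTorsionRep I ι S m R) {r : ℕ} (z : Fin r → ℤ_[p])
    (g : Fin r → GQ)
    (h : ∀ n : ℕ, matMod p I.model.d n (∑ i, z i • galMat I.model (g i)) = 0) :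
    ∑ i, tInt I ι S m (z i) • R (g i) = 0 :=
  hR.transfer z g fun n =>
    ⟨1, one_mem _, one_mem_latMonoid, by rw [map_mul, map_one, one_mul]; exact h n⟩

/-- A product relation, after elements outside `m`. -/
theorem IsTorsionRep.transfer_mul (hR : IsTorsionRep I ι S m R) (a b : ℤ_[p]) (σ τ : GQ)
    (h : ∀ n : ℕ, ∃ (A : Matrix (Fin I.model.d) (Fin I.model.d) ℤ_[p]) (hA : A ∈ matAway I S),
      (⟨matEnd I ι A, matEnd_mem I ι S hA⟩ : LatAlg I ι S) ∈ latMonoid I ι S m ∧
        matMod p I.model.d n
          (A * ((galMat I.model σ - a • 1) * (galMat I.model τ - b • 1))) = 0) :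
    (R σ - tInt I ι S m a • 1) * (R τ - tInt I ι S m b • 1) = 0 := by
  have key := hR.transfer ![1, -b, -a, a * b] ![σ * τ, σ, τ, 1] fun n => by
    obtain ⟨A, hA, hmon, h0⟩ := h n
    refine ⟨A, hA, hmon, Eq.trans (congrArg (matMod p I.model.d n) (congrArg (A * ·) ?_)) h0⟩
    simp only [Fin.sum_univ_four, Matrix.cons_val_zero, Matrix.cons_val_one, Matrix.cons_val,
      Matrix.cons_val, map_one, map_mul, sub_mul, mul_sub, smul_mul_assoc,
      mul_smul_comm, one_mul, mul_one, one_smul]
    module
  rw [← key]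
  simp only [Fin.sum_univ_four, Matrix.cons_val_zero, Matrix.cons_val_one, Matrix.cons_val,
    Matrix.cons_val, map_one, map_mul, map_neg, sub_mul, mul_sub,
    smul_mul_assoc, mul_smul_comm, one_mul, mul_one, one_smul, RingHom.comp_apply]
  ext i j
  simp only [Matrix.add_apply, Matrix.sub_apply, Matrix.smul_apply, smul_eq_mul]
  ring

/-- At a prime exactly dividing the level inertia is unipotent on the lattice. -/
theorem galMat_unipotent_of_exact_dvd {M q : ℕ} [NeZero M] [NeZero (M * q)] [Fact q.Prime]
    (hqM : ¬ q ∣ M) (hqp : q ≠ p) (J : RepInputs (M * q) p)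
    {A : ValuationSubring Qbar} (hA : A.LiesOverPrime q) {σ : GQ}
    (hσ : σ ∈ A.inertiaSubgroupIn ℚ) :
    (galMat J.model σ - 1) * (galMat J.model σ - 1) = 0 := by
  have hu : SemistableRed.UnipotentOnTorsion (M * q) p σ := by
    intro x hx
    obtain ⟨n, hn⟩ := hx
    exact SemistableRed.inertiaUnipotent_of_facts hqM (SemistableRed.goodReductionFacts M q hqM)
      A hA σ hσ (p ^ n)
      (((Nat.coprime_primes Fact.out Fact.out).mpr hqp.symm).pow_left n) x hn
  have h := SemistableRed.galMat_unipotent J.model hu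
  rw [← h]
  noncomm_ring

theorem matMod_pow_eq_one {d : ℕ} {X : Matrix (Fin d) (Fin d) ℤ_[p]}
    (h : (X - 1) * (X - 1) = 0) (n : ℕ) : matMod p d n X ^ (p ^ n) = 1 := by
  have key : ∀ k : ℕ, X ^ k = 1 + k • (X - 1) := by
    intro k
    induction k with
    | zero => simp
    | succ k ih =>
      have : (X - 1) * X = X - 1 := by
        rw [← sub_eq_zero, ← h]; noncomm_ring
      rw [pow_succ, ih, add_mul, one_mul, smul_mul_assoc, this, succ_nsmul]
      abel
  rw [← map_pow, key, map_add, map_one, map_nsmul]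
  have h0 : ((p ^ n : ℕ) : Matrix (Fin d) (Fin d) (ZMod (p ^ n))) = 0 := by
    ext i j
    by_cases hij : i = j <;> simp [Matrix.natCast_apply, hij]
  rw [nsmul_eq_mul, h0, zero_mul, add_zero]

end Fermat.Agent.Engine.TRep
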