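import Fermat.Agent.Engine.TRep.Ext
import Fermat.Agent.Engine.TRep.Tame
import Fermat.Agent.Engine.TSide

/-!
# Eigen systems with trivial character: inertia of trace two

`trace_eq_two_of_occurs`: an element acting unipotently on the torsion of `J₀(N)` and trivially on
the roots of unity of `p`-power order has trace two in every representation attached to an eigen
system of level `N` which is not Eisenstein.
-/

set_option autoImplicit false

noncomputable section

namespace Fermat.Agent.Engine.TRep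

open EigenRep HeckeModule DefRing Matrix IsLocalRing

variable {N p : ℕ} [NeZero N] [Fact p.Prime] {O : Type} [CommRing O] [IsDomain O]
  [IsDiscreteValuationRing O]

/-- A non-zero integral eigenvector of the Hecke matrices from an eigen class. -/
theorem exists_eigenSub_of_occurs (hes : EichlerShimuraRelations N p) (hp2 : p ≠ 2) (hp3 : HeckeModule.ThreeOK p N)
    (hp : (p : O) ∈ maximalIdeal O) [IsAdicComplete (maximalIdeal O) O] {L : Type} [Field L]
    [Algebra O L] [IsFractionRing O L] {S : Finset ℕ} {a : ℕ → O}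
    (h : Engine.Occurs L N 1 S fun ℓ => algebraMap O L (a ℓ))
    (hS : ∀ ℓ : ℕ, ℓ.Prime → ℓ ∣ N → ℓ ∈ S) {r : ℕ} [hr : Fact r.Prime] (hr1 : (r : ZMod N) = 1)
    (hrp : r ≠ p) (hrS : r ∉ S) (hne : a r ≠ (r : O) + 1) :
    ∃ v, v ≠ 0 ∧ v ∈ eigenSub (stdInputs hes).model (↑S : Set ℕ) fun l => a (l : ℕ) := by
  classical
  obtain ⟨c, hc0, hc⟩ := h
  have : NeZero r := ⟨hr.out.ne_zero⟩
  have e : scalarRep (1 : (ZMod N)ˣ →* L) L = trivRep N L L :=
    MonoidHom.ext fun u => LinearMap.ext fun x => by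
      rw [scalarRep_apply, MonoidHom.one_apply, one_smul]; rfl
  revert hc hc0 c
  rw [e]
  intro c hc0 hc
  let ιL : ℤ_[p] →+* L := (algebraMap O L).comp (padicHom p hp)
  set u := eisen L r • c with hu
  have hlat : OnLattice u := onLattice_eisen hp2 hp3 hr1 hrp ιL c
  have hscal : u = (algebraMap O L (a r) - ((r : L) + 1)) • c := by
    rw [hu, eisen_smul, hc r hrS fun hd => hrS (hS r hr.out hd), sub_smul]
  have hk : algebraMap O L (a r) - ((r : L) + 1) ≠ 0 := fun h0 => hne (IsFractionRing.injective O L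
    (by rw [map_add, map_natCast, map_one]; exact sub_eq_zero.1 h0))
  have hu0 : u ≠ 0 := by rw [hscal]; exact smul_ne_zero hk hc0
  have hw0 : classCoords u ≠ 0 := fun h0 => hu0 (classHom_injective (by
    rw [← hlat, h0]
    rw [show (0 : Coh1 (trivRep N L L)) = (0 : L) • c from (zero_smul L c).symm]
    obtain ⟨z, rfl⟩ := toCoh_surjective _ c
    rw [← map_smul, classHom_toCoh]
    refine AddMonoidHom.ext fun g => ?_
    obtain ⟨g, rfl⟩ := Additive.ofMul.surjective g
    show _ = (0 : L) • z.1 g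
    simp [HeckeJ0.ofCoords_apply]))
  let w : Fin (stdInputs hes).model.d → L := classCoords u
  have heig : ∀ l : AwayIndex (↑S : Set ℕ),
      ((stdInputs hes).model.T (l : Nat.Primes)).map (Int.cast : ℤ → L) *ᵥ w =
        algebraMap O L (a ((l : Nat.Primes) : ℕ)) • w := by
    intro l
    have : Fact ((l : Nat.Primes) : ℕ).Prime := ⟨(l : Nat.Primes).2⟩
    have h1 : heckeGen (trivRep N L L) (l : Nat.Primes) u =
        algebraMap O L (a ((l : Nat.Primes) : ℕ)) • u := by
      have h0 := hc _ l.2 fun hd => l.2 (hS _ (l : Nat.Primes).2 hd)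
      rw [hscal]
      refine (LinearMap.map_smul _ _ _).trans ?_
      exact (congrArg _ h0).trans (smul_comm _ _ _)
    have h2 := (classCoords_heckeOp (l : Nat.Primes) hlat).symm
    rw [h1] at h2
    refine Eq.trans ?_ (h2.trans (LinearMap.map_smul classCoords _ u))
    funext i
    show ∑ k : Fin (HeckeJ0.rk N), ((HeckeJ0.heckeMatAt N (l : Nat.Primes) i k : ℤ) : L) * w k =
      ∑ k, HeckeJ0.heckeMatAt N (l : Nat.Primes) i k • classCoords u k
    exact Finset.sum_congr rfl fun k _ => (zsmul_eq_mul _ _).symm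
  obtain ⟨b, hb⟩ := IsLocalization.exist_integer_multiples_of_finite (nonZeroDivisors O) w
  choose v hv using hb
  have hcv : ∀ i, algebraMap O L (v i) = algebraMap O L b * w i := fun i => by
    rw [hv, Algebra.smul_def]
  have hw0' : w ≠ 0 := hw0
  refine ⟨v, fun h0 => hw0' (funext fun i => ?_), (mem_eigenSub _).mpr fun l hl => ?_⟩
  · have := hcv i
    rw [h0, Pi.zero_apply, map_zero, eq_comm, mul_eq_zero] at this
    exact this.resolve_left (IsFractionRing.to_map_ne_zero_of_mem_nonZeroDivisors b.2)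
  · funext i
    apply IsFractionRing.injective O L
    rw [RingHom.map_mulVec, Pi.smul_apply, smul_eq_mul, map_mul, hcv,
      show (algebraMap O L) ∘ v = algebraMap O L (b : O) • w from funext hcv, mulVec_smul,
      Pi.smul_apply, smul_eq_mul, mul_left_comm]
    congr 1
    have h2 := congrFun (heig ⟨l, hl⟩) i
    rw [Pi.smul_apply, smul_eq_mul] at h2
    refine Eq.trans ?_ h2
    rw [show (((stdInputs hes).model.T l).map (Int.cast : ℤ → O)).map (algebraMap O L) =
      ((stdInputs hes).model.T l).map (Int.cast : ℤ → L) by ext; simp]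

/-- **Unipotent on the torsion: trace two.** -/
theorem trace_eq_two_of_occurs (hes : EichlerShimuraRelations N p) (hp2 : p ≠ 2) (hp3 : HeckeModule.ThreeOK p N)
    (hp : (p : O) ∈ maximalIdeal O) [IsAdicComplete (maximalIdeal O) O] {L : Type} [Field L]
    [Algebra O L] [IsFractionRing O L] [CharZero O] {S : Finset ℕ} {a : ℕ → O}
    (h : Engine.Occurs L N 1 S fun ℓ => algebraMap O L (a ℓ))
    (hS : ∀ ℓ : ℕ, ℓ.Prime → ℓ ∣ N * p → ℓ ∈ S) {r : ℕ} [Fact r.Prime] (hr1 : (r : ZMod N) = 1)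
    (hrS : r ∉ S) (hne : a r ≠ (r : O) + 1) {ρ : MRep O} (hρ : IsCont ρ)
    (hfrob : ∀ ℓ : ℕ, ℓ.Prime → ℓ ∉ S → ∀ P : ValuationSubring (AlgebraicClosure ℚ),
      P.LiesOverPrime ℓ → ∀ τ : GQ, P.IsFrobeniusAt τ ℓ → (ρ τ).trace = a ℓ)
    {σ : GQ} (hu : (galMat (stdInputs hes).model σ - 1) * (galMat (stdInputs hes).model σ - 1) = 0)
    (hε : (epsilonPadic p σ : ℤ_[p]) = 1) : (ρ σ).trace = 2 := by
  classical
  set I := stdInputs hes
  set ι := padicHom p hp
  obtain ⟨v, hv0, hv⟩ := exists_eigenSub_of_occurs hes hp2 hp3 hp h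
    (fun ℓ hℓ hd => hS ℓ hℓ (hd.mul_right p)) hr1
    (fun e => hrS (e ▸ hS p Fact.out (dvd_mul_left p N))) hrS hne
  -- inertia moves `v` to a non-zero vector
  set π := galEnd I.model ι
  obtain ⟨j, hj⟩ : ∃ j, π σ v j ≠ 0 := by
    refine Function.ne_iff.mp fun h0 => hv0 ?_
    have h1 : π σ⁻¹ (π σ v) = v := by
      rw [← Module.End.mul_apply, ← map_mul, inv_mul_cancel, map_one, Module.End.one_apply]
    rw [← h1, h0]
    exact map_zero _
  rw [← sub_eq_zero]
  refine (Submodule.eq_bot_iff _).mp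
    (Ideal.iInf_pow_eq_bot_of_isLocalRing (maximalIdeal O) (maximalIdeal.isMaximal O).ne_top) _
    ((Submodule.mem_iInf _).mpr fun n => ?_)
  -- the valuation of the coordinate
  obtain ⟨k, hk⟩ : ∃ k, π σ v j ∉ maximalIdeal O ^ k := by
    by_contra hc
    push Not at hc
    exact hj ((Submodule.eq_bot_iff _).mp (Ideal.iInf_pow_eq_bot_of_isLocalRing (maximalIdeal O)
      (maximalIdeal.isMaximal O).ne_top) _ ((Submodule.mem_iInf _).mpr hc))
  obtain ⟨L₁, hL₁, H⟩ := exists_level I (n + k)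
  obtain ⟨L₂, hL₂, H₂⟩ := hρ n
  have := hL₁
  have := hL₂
  have : FiniteDimensional ℚ ↥(L₁ ⊔ L₂) := IntermediateField.finiteDimensional_sup L₁ L₂
  obtain ⟨ℓ, hℓ, hℓS, P, hP, τ, hτ, hτL⟩ :=
    Fermat.Agent.Chebotarev.exists_isFrobeniusAt_eqOn (L₁ ⊔ L₂) σ S
  have htr := trace_sub_mem_of_eqOn H₂ fun x hx => hτL x (le_sup_right (a := L₁) (b := L₂) hx)
  rw [hfrob ℓ hℓ hℓS P hP τ hτ] at htr
  have hd : ¬ ℓ ∣ N * p := fun hd => hℓS (hS ℓ hℓ hd)
  obtain ⟨h₁, h₂⟩ := H (σ⁻¹ * τ) fun x hx => by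
    rw [AlgEquiv.mul_apply, hτL x (le_sup_left (a := L₁) (b := L₂) hx)]
    exact σ.symm_apply_apply x
  -- congruences for Galois
  have hτσ : τ = σ * (σ⁻¹ * τ) := (mul_inv_cancel_left σ τ).symm
  have hmat : ∀ i i', ι (galMat I.model τ i i') - ι (galMat I.model σ i i') ∈
      maximalIdeal O ^ (n + k) := fun i i' => by
    have e0 : matMod p I.model.d (n + k) (galMat I.model τ) =
        matMod p I.model.d (n + k) (galMat I.model σ) := by
      rw [hτσ, map_mul, map_mul, h₁, mul_one]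
    obtain ⟨c, hc⟩ := sub_mem_span_pow ι congr($e0 i i')
    rw [hc, add_sub_cancel_left]
    exact Ideal.mul_mem_right _ _ (Ideal.pow_mem_pow hp _)
  have hεn : (ℓ : O) - 1 ∈ maximalIdeal O ^ (n + k) := by
    have e0 : PadicInt.toZModPow (n + k) (epsilonPadic p τ : ℤ_[p]) =
        PadicInt.toZModPow (n + k) (1 : ℤ_[p]) := by
      rw [hτσ, map_mul, Units.val_mul, map_mul, h₂, mul_one, hε]
    obtain ⟨c, hc⟩ := sub_mem_span_pow ι e0
    rw [epsilon_frobenius hℓ (fun e => hd (e ▸ dvd_mul_left p N)) hP hτ, map_natCast, map_one] at hc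
    rw [hc, add_sub_cancel_left]
    exact Ideal.mul_mem_right _ _ (Ideal.pow_mem_pow hp _)
  -- modulo the power
  set q := Ideal.Quotient.mk (maximalIdeal O ^ (n + k))
  have hq : ∀ x : Fin I.model.d → O, q ∘ π τ x = q ∘ π σ x := fun x => by
    funext i
    refine Ideal.Quotient.eq.2 ?_
    show ((galMat I.model τ).map ι *ᵥ x) i - ((galMat I.model σ).map ι *ᵥ x) i ∈ _
    simp only [Matrix.mulVec, dotProduct, Matrix.map_apply, ← Finset.sum_sub_distrib, ← sub_mul]
    exact sum_mem fun l _ => Ideal.mul_mem_right _ _ (hmat i l)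
  have hrel := galEnd_frobenius I.model ι I.es I.equivariant hℓ (by simpa using hℓS) hd hP hτ hv
  have huni : π σ (π σ v) - 2 • π σ v + v = 0 := by
    have h0 := congrArg ι.mapMatrix hu
    rw [map_mul, map_sub, map_one, map_zero, RingHom.mapMatrix_apply] at h0
    have h1 := congrArg (· *ᵥ v) h0
    simp only [sub_mul, mul_sub, one_mul, mul_one, sub_mulVec, ← mulVec_mulVec, one_mulVec,
      zero_mulVec, ← galEnd_apply] at h1
    rw [← h1, two_nsmul]
    abel
  have hmul : (a ℓ - 2) * π σ v j ∈ maximalIdeal O ^ (n + k) := by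
    have e1 : q (π τ (π τ v) j) = q (π σ (π σ v) j) := by
      refine (congrFun (hq _) j).trans ?_
      show q (((galMat I.model σ).map ι *ᵥ π τ v) j) = q (((galMat I.model σ).map ι *ᵥ π σ v) j)
      rw [RingHom.map_mulVec, RingHom.map_mulVec, hq]
    have e2 : q (π τ v j) = q (π σ v j) := congrFun (hq v) j
    have e3 := congrArg q (congrFun hrel j)
    have e4 := congrArg q (congrFun huni j)
    simp only [Pi.add_apply, Pi.sub_apply, Pi.smul_apply, Pi.zero_apply, smul_eq_mul, map_add,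
      map_sub, map_mul, map_zero, map_natCast, two_nsmul] at e3 e4
    have e5 : (q (ℓ : O)) = 1 := by
      rw [← map_one q]; exact Ideal.Quotient.eq.2 hεn
    rw [map_natCast] at e5
    rw [← Ideal.Quotient.eq_zero_iff_mem]
    show q _ = 0
    rw [map_mul, map_sub, map_ofNat]
    rw [e1, e2, e5] at e3
    linear_combination e4 - e3
  have hkey : a ℓ - 2 ∈ maximalIdeal O ^ n := by
    obtain ⟨π₀, hπ₀⟩ := IsDiscreteValuationRing.exists_irreducible O
    rw [hπ₀.maximalIdeal_eq, Ideal.span_singleton_pow, Ideal.mem_span_singleton] at hmul hk ⊢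
    rcases eq_or_ne (a ℓ - 2) 0 with h0 | h0
    · rw [h0]; exact dvd_zero _
    obtain ⟨s, u₁, hs⟩ := IsDiscreteValuationRing.eq_unit_mul_pow_irreducible h0 hπ₀
    rw [hs]
    by_contra hcon
    have hsn : s < n := by
      by_contra hle
      exact hcon ((pow_dvd_pow π₀ (not_lt.1 hle)).mul_left _)
    rw [hs, mul_assoc, Units.dvd_mul_left] at hmul
    obtain ⟨c, hc⟩ := hmul
    refine hk ?_
    have e6 : π σ v j = π₀ ^ (n + k - s) * c := by
      refine mul_left_cancel₀ (pow_ne_zero s hπ₀.ne_zero) ?_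
      rw [hc, ← mul_assoc, ← pow_add]
      congr 2
      omega
    rw [e6]
    exact (pow_dvd_pow π₀ (by omega)).mul_right c
  rw [show (ρ σ).trace - 2 = (a ℓ - 2) - (a ℓ - (ρ σ).trace) by ring]
  exact sub_mem hkey htr

end Fermat.Agent.Engine.TRep
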