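import Fermat.Agent.Engine.TRep.TwistChain
import Fermat.Agent.Engine.TSide

/-!
# Keeping one character

`occurs_twist_single`: an eigen system in `H¹(Γ₀(M), K(∏ ψ²))` gives, twisted by the inverse
characters away from `q`, an eigen system at level `M ∏_{Q ∖ q}` whose character is `ψ q ²`.
-/

set_option autoImplicit false

noncomputable section

namespace Fermat.Agent.Engine.TRep

open HeckeModule

variable {K : Type} [Field K] [CharZero K] (ψ : ∀ q : ℕ, (ZMod q)ˣ →* K)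

/-- All the characters at `Q'` removed, those at `Q₀` kept. -/
theorem exists_twistKeep (Q₀ Q' : Finset ℕ) : ∀ (M M' : ℕ) [NeZero M], M' = M * ∏ q ∈ Q', q →
    (∀ q ∈ Q₀ ∪ Q', q.Prime ∧ q ∣ M ∧ ¬ q * q ∣ M) → Disjoint Q₀ Q' →
    (∀ q ∈ Q', ∀ u, ∃ k : ℕ, Odd k ∧ ψ q u ^ k = 1) →
    ∃ Φ : Coh1 (scalarRep (charSq ψ (Q₀ ∪ Q') M) K) →ₗ[K] Coh1 (scalarRep (charSq ψ Q₀ M') K),
      Function.Injective Φ ∧ ∀ (ℓ : ℕ) [Fact ℓ.Prime], ¬ ℓ ∣ M' → ∀ u,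
        Φ (heckeOp _ ℓ u) = charProd ψ Q' ℓ • heckeOp _ ℓ (Φ u) := by
  classical
  induction Q' using Finset.induction_on with
  | empty =>
    intro M M' _ hM' _ _ _
    obtain rfl : M' = M := by rw [hM', Finset.prod_empty, mul_one]
    rw [Finset.union_empty]
    exact ⟨LinearMap.id, fun _ _ h => h, fun ℓ _ _ u => by
      rw [charProd, Finset.prod_empty, one_smul]; rfl⟩
  | insert q Q hqQ ih =>
    intro M M' _ hM' hQ hdisj hodd
    have hq0 : q ∉ Q₀ := Finset.disjoint_right.mp hdisj (Finset.mem_insert_self q Q)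
    obtain ⟨hqp, ⟨N, rfl⟩, hq2⟩ := hQ q (Finset.mem_union_right _ (Finset.mem_insert_self q Q))
    revert hq2 hM'
    rw [mul_comm q N]
    intro hM' hq2
    have := Fact.mk hqp
    have : NeZero q := ⟨hqp.ne_zero⟩
    have : NeZero N := ⟨fun h => NeZero.ne (q * N) (by rw [h, mul_zero])⟩
    have hqN : ¬ q ∣ N := fun h => hq2 (mul_dvd_mul_right h q)
    have hqU : q ∉ Q₀ ∪ Q := by rw [Finset.mem_union, not_or]; exact ⟨hq0, hqQ⟩
    have hdvd : ∀ q' ∈ Q₀ ∪ Q, q'.Prime ∧ q' ∣ N ∧ ¬ q' * q' ∣ N * q * q := fun q' hq' => by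
      obtain ⟨hp', hd', hd2⟩ := hQ q' (by
        rw [Finset.union_insert]; exact Finset.mem_insert_of_mem hq')
      have hne : ¬ q' ∣ q := fun h => hqU ((Nat.prime_dvd_prime_iff_eq hp' hqp).mp h ▸ hq')
      have hcop : Nat.Coprime q' q := (Nat.Prime.coprime_iff_not_dvd hp').mpr hne
      rw [mul_comm q N] at hd' hd2
      refine ⟨hp', hcop.dvd_of_dvd_mul_right hd', fun h => hd2 (dvd_mul_of_dvd_left ?_ q)⟩
      exact (hcop.mul_left hcop).dvd_of_dvd_mul_right ((hcop.mul_left hcop).dvd_of_dvd_mul_right h)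
    obtain ⟨Φ₁, hi₁, hΦ₁⟩ := exists_twistStep ψ hqN hqU (fun q' h => (hdvd q' h).2.1)
      (hodd q (Finset.mem_insert_self q Q))
    obtain ⟨Φ₂, hi₂, hΦ₂⟩ := ih (N * q * q) M'
      (by rw [hM', Finset.prod_insert hqQ]; ring)
      (fun q' h => ⟨(hdvd q' h).1, ((hdvd q' h).2.1.mul_right q).mul_right q, (hdvd q' h).2.2⟩)
      (hdisj.mono_right (Finset.subset_insert _ _))
      (fun q' h => hodd q' (Finset.mem_insert_of_mem h))
    rw [Finset.union_insert]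
    refine ⟨Φ₂.comp Φ₁, hi₂.comp hi₁, fun ℓ _ hℓ u => ?_⟩
    have hℓ' : ¬ ℓ ∣ N * q * q := fun h => hℓ (h.trans ⟨∏ x ∈ Q, x, by
      rw [hM', Finset.prod_insert hqQ]; ring⟩)
    rw [LinearMap.comp_apply, LinearMap.comp_apply, hΦ₁ ℓ hℓ', map_smul, hΦ₂ ℓ hℓ, smul_smul,
      charProd, charProd, Finset.prod_insert hqQ]

/-- **Keeping the character at `q`.** -/
theorem occurs_twist_single {Q : Finset ℕ} {q : ℕ} (hq : q ∈ Q) {M : ℕ} [NeZero M]
    (hQ : ∀ x ∈ Q, x.Prime ∧ x ∣ M ∧ ¬ x * x ∣ M)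
    (hodd : ∀ x ∈ Q, ∀ u, ∃ k : ℕ, Odd k ∧ ψ x u ^ k = 1) {S : Finset ℕ} {lam : ℕ → K}
    (hS : ∀ ℓ : ℕ, ℓ.Prime → ℓ ∣ M → ℓ ∈ S) (h : Engine.Occurs K M (charSq ψ Q M) S lam) :
    Engine.Occurs K (M * ∏ x ∈ Q.erase q, x) (charSq ψ {q} (M * ∏ x ∈ Q.erase q, x)) S
      fun ℓ => (charProd ψ (Q.erase q) ℓ)⁻¹ * lam ℓ := by
  classical
  have hU : Q = {q} ∪ Q.erase q := by
    rw [← Finset.insert_eq, Finset.insert_erase hq]
  rw [hU] at hQ h
  obtain ⟨c, hc0, hc⟩ := h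
  obtain ⟨Φ, hinj, hΦ⟩ := exists_twistKeep ψ {q} (Q.erase q) M (M * ∏ x ∈ Q.erase q, x) rfl hQ
    (Finset.disjoint_singleton_left.mpr (Finset.notMem_erase q Q))
    fun x hx => hodd x (Finset.mem_of_mem_erase hx)
  refine ⟨Φ c, fun h0 => hc0 (hinj (h0.trans (map_zero Φ).symm)), fun ℓ hℓ hℓS hℓd => ?_⟩
  have hne : charProd ψ (Q.erase q) ℓ ≠ 0 := by
    refine Finset.prod_ne_zero_iff.mpr fun x hx => ?_
    unfold charAt
    split
    · exact ((Group.isUnit _).map (ψ x)).ne_zero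
    · exact one_ne_zero
  have h1 := hΦ ℓ hℓd c
  rw [hc ℓ hℓS fun hd => hℓS (hS ℓ hℓ.out hd), map_smul] at h1
  rw [mul_smul, h1, smul_smul, inv_mul_cancel₀ hne, one_smul]

end Fermat.Agent.Engine.TRep
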