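import Fermat.Agent.Engine.TRep.TwistClassify
import Fermat.Agent.Engine.TRep.EigenPoint
import Fermat.Agent.Engine.TRep.TwistSingle
import Fermat.Agent.Engine.TRep.TraceTwo
import Fermat.Agent.Engine.TRep.NonEis
import Fermat.Agent.EigenRep.CoeffRing
import Mathlib.LinearAlgebra.Matrix.Charpoly.LinearMap

/-!
# Trace of inertia at a prime with auxiliary character, up to uniform nilpotence

`TwistData.pow_trace_sub_eq_zero`: at `q ∈ Q` and `σ` in inertia with class `e` modulo `q`, the image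
of `tr ρ(σ) - ψ q e - ψ q e⁻¹` in the algebra of the family is nilpotent, of exponent the largest
rank.
-/

set_option autoImplicit false
set_option linter.unusedSectionVars false

noncomputable section

namespace Fermat.Agent.Engine.TRep

open EigenRep HeckeModule IsLocalRing DefRing Deform Matrix

local notation "Qbar" => AlgebraicClosure ℚ

/-- A nilpotent endomorphism of a free module over a reduced ring is killed by the rank. -/
theorem pow_eq_zero_of_isNilpotent_end {Λ : Type*} [CommRing Λ] [IsReduced Λ] [Nontrivial Λ]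
    {V : Type*} [AddCommGroup V] [Module Λ V] [Module.Free Λ V] [Module.Finite Λ V]
    {f : Module.End Λ V} (hf : IsNilpotent f) {D : ℕ} (hD : Module.finrank Λ V ≤ D) : f ^ D = 0 := by
  classical
  have h1 : f.charpoly - Polynomial.X ^ Module.finrank Λ V = 0 := by
    let b := Module.Free.chooseBasis Λ V
    have h := Matrix.isNilpotent_charpoly_sub_pow_of_isNilpotent
      (hf.map (LinearMap.toMatrixAlgEquiv b).toRingEquiv.toRingHom)
    rw [Module.finrank_eq_card_chooseBasisIndex, ← LinearMap.charpoly_toMatrix f b]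
    exact Polynomial.ext fun i =>
      ((Polynomial.isNilpotent_iff.mp h i).eq_zero).trans (Polynomial.coeff_zero i).symm
  have h2 := f.aeval_self_charpoly
  rw [sub_eq_zero.1 h1, map_pow, Polynomial.aeval_X] at h2
  rw [← Nat.add_sub_cancel' hD, pow_add, h2, zero_mul]

/-- A non-nilpotent element is non-zero at some integral point. -/
theorem exists_point (O : Type) [CommRing O] [IsDomain O] [IsDiscreteValuationRing O]
    [IsAdicComplete (maximalIdeal O) O] [Finite (ResidueField O)] [CharZero O] (C : Type)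
    [CommRing C] [Algebra O C] [Module.Finite O C]
    (htf : ∀ (o : O) (x : C), o ≠ 0 → algebraMap O C o * x = 0 → x = 0) {x : C}
    (hx : ¬ IsNilpotent x) :
    ∃ (O' : Type) (_ : CommRing O') (_ : IsDomain O') (_ : IsDiscreteValuationRing O')
      (_ : IsAdicComplete (maximalIdeal O') O') (_ : Finite (ResidueField O')) (_ : CharZero O')
      (_ : Algebra O O') (_ : Module.Finite O O') (_ : IsLocalHom (algebraMap O O'))
      (θ : C →ₐ[O] O'), θ x ≠ 0 := by
  classical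
  obtain ⟨P, hP, hxP⟩ : ∃ P ∈ minimalPrimes C, x ∉ P := by
    by_contra h
    push Not at h
    refine hx (mem_nilradical.mp ?_)
    rw [nilradical, ← Ideal.sInf_minimalPrimes, Ideal.mem_sInf]
    exact fun {P} hP => h P hP
  have : P.IsPrime := hP.1.1
  have hO : ∀ o : O, algebraMap O C o ∈ P → o = 0 := fun o ho => by
    by_contra h0
    refine Set.disjoint_left.mp (Ideal.disjoint_nonZeroDivisors_of_mem_minimalPrimes hP) ho ?_
    exact mem_nonZeroDivisors_iff_right.mpr fun y hy => htf o y h0 (by rwa [mul_comm])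
  let B := C ⧸ P
  let L := FractionRing B
  have hinj : Function.Injective (algebraMap O L) := by
    rw [IsScalarTower.algebraMap_eq O B L]
    refine (IsFractionRing.injective B L).comp
      ((injective_iff_map_eq_zero (algebraMap O B)).mpr fun o ho => ?_)
    exact hO o (Ideal.Quotient.eq_zero_iff_mem.mp ho)
  have : FaithfulSMul O L := (faithfulSMul_iff_algebraMap_injective O L).mpr hinj
  let E := FractionRing O
  let : Algebra E L := FractionRing.liftAlgebra O L
  have : IsScalarTower O E L := FractionRing.isScalarTower_liftAlgebra O L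
  have : Module.Finite O B := Module.Finite.of_surjective (Ideal.Quotient.mkₐ O P).toLinearMap
    Ideal.Quotient.mk_surjective
  have : Algebra.IsIntegral O B := Algebra.IsIntegral.of_finite O B
  have : FaithfulSMul O B := (faithfulSMul_iff_algebraMap_injective O B).mpr
    ((injective_iff_map_eq_zero _).mpr fun o ho => hO o (Ideal.Quotient.eq_zero_iff_mem.mp ho))
  have : FiniteDimensional E L := by
    obtain ⟨n, g, hg⟩ := Module.Finite.exists_fin (R := O) (M := B)
    let F := IntermediateField.adjoin E (Set.range fun i => algebraMap B L (g i))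
    have : FiniteDimensional E F := IntermediateField.finiteDimensional_adjoin fun z hz => by
      obtain ⟨i, rfl⟩ := hz
      exact ((Algebra.IsIntegral.isIntegral (R := O) (g i)).map
        (IsScalarTower.toAlgHom O B L)).tower_top
    have hB : ∀ z : B, algebraMap B L z ∈ F := by
      intro z
      have hz : z ∈ Submodule.span O (Set.range g) := hg ▸ Submodule.mem_top
      induction hz using Submodule.span_induction with
      | mem z hz =>
        obtain ⟨i, rfl⟩ := hz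
        exact IntermediateField.subset_adjoin E _ ⟨i, rfl⟩
      | zero => rw [map_zero]; exact zero_mem _
      | add u v _ _ hu hv => rw [map_add]; exact add_mem hu hv
      | smul c u _ hu =>
        rw [Algebra.smul_def, map_mul, ← IsScalarTower.algebraMap_apply,
          IsScalarTower.algebraMap_apply O E L]
        exact mul_mem (F.algebraMap_mem _) hu
    have hF : F = ⊤ := eq_top_iff.mpr fun z _ => by
      obtain ⟨u, v, -, rfl⟩ := IsFractionRing.div_surjective (A := B) z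
      exact div_mem (hB u) (hB v)
    exact Module.Finite.equiv ((IntermediateField.equivOfEq hF).trans
      IntermediateField.topEquiv).toLinearEquiv
  obtain ⟨hdvr, hcomp, hres, hchar, hfin, -, -, hlh⟩ := integralClosure_coeff_props O E L
  let θ₀ : C →ₐ[O] L := (IsScalarTower.toAlgHom O B L).comp (Ideal.Quotient.mkₐ O P)
  have hint : ∀ y, θ₀ y ∈ integralClosure O L := fun y =>
    (Algebra.IsIntegral.isIntegral (R := O) (Ideal.Quotient.mk P y)).map
      (IsScalarTower.toAlgHom O B L)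
  refine ⟨integralClosure O L, inferInstance, inferInstance, hdvr, hcomp, hres, hchar,
    inferInstance, hfin, hlh, θ₀.codRestrict _ hint, fun h0 => hxP ?_⟩
  exact Ideal.Quotient.eq_zero_iff_mem.mp (IsFractionRing.to_map_eq_zero_iff.mp
    (congrArg Subtype.val h0 : θ₀ x = 0))

/-- Points of local rings in finite extensions are local. -/
theorem isLocalHom_point {O : Type} [CommRing O] {C : Type} [CommRing C] [IsLocalRing C]
    [Algebra O C] {O' : Type} [CommRing O'] [IsDomain O'] [Algebra O O'] [Module.Finite O O']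
    (θ : C →ₐ[O] O') : IsLocalHom (θ : C →+* O') := by
  let : Algebra C O' := (θ : C →+* O').toAlgebra
  have : IsScalarTower O C O' := IsScalarTower.of_algebraMap_eq fun o => (θ.commutes o).symm
  have : Algebra.IsIntegral O O' := Algebra.IsIntegral.of_finite O O'
  have : Algebra.IsIntegral C O' :=
    ⟨fun y => (Algebra.IsIntegral.isIntegral (R := O) y).tower_top⟩
  refine ⟨fun a ha => ?_⟩
  by_contra hna
  have hker : RingHom.ker (θ : C →+* O') ≤ maximalIdeal C :=
    IsLocalRing.le_maximalIdeal (RingHom.ker_ne_top _)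
  obtain ⟨Q, -, hQ, hQc⟩ := Ideal.exists_ideal_over_prime_of_isIntegral (S := O')
    (maximalIdeal C) ⊥ (by
      rw [← RingHom.ker_eq_comap_bot]
      exact hker)
  have := hQ
  have : (θ : C →+* O') a ∈ Q := by
    have h : a ∈ Q.comap (algebraMap C O') := hQc.symm ▸ hna
    exact h
  exact hQ.ne_top (Ideal.eq_top_of_isUnit_mem _ this ha)

variable {p : ℕ} [Fact p.Prime] {O : Type} [CommRing O] [IsDomain O] [IsDiscreteValuationRing O]
  [IsAdicComplete (maximalIdeal O) O] [Finite (ResidueField O)] [CharZero O]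
  {Λ : Type} [CommRing Λ]
  [IsLocalRing Λ] [IsNoetherianRing Λ] [IsAdicComplete (maximalIdeal Λ) Λ] [Algebra O Λ]
  [IsLocalHom (algebraMap O Λ)] [IsReduced Λ] [Module.IsTorsionFree ℤ Λ]
  {S : Finset ℕ} {lam : ℕ → O} {ψ : ∀ q : ℕ, (ZMod q)ˣ →* Λ} {Q : Finset ℕ} {J : Type}
  [Fintype J] {M : J → ℕ} [∀ j, NeZero (M j)] {Mtop : ℕ} [NeZero Mtop]

omit [IsLocalRing Λ] [IsNoetherianRing Λ] [IsAdicComplete (maximalIdeal Λ) Λ]
  [IsLocalHom (algebraMap O Λ)] [IsReduced Λ] in
/-- A ring without additive torsion has no torsion over `O`. -/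
theorem eq_zero_of_algebraMap_mul (hp : (p : O) ∈ maximalIdeal O) {o : O} (ho : o ≠ 0) {x : Λ}
    (h : algebraMap O Λ o * x = 0) : x = 0 := by
  obtain ⟨π, hπ⟩ := IsDiscreteValuationRing.exists_irreducible O
  obtain ⟨k, u, hu⟩ := IsDiscreteValuationRing.eq_unit_mul_pow_irreducible ho hπ
  obtain ⟨c, hc⟩ : o ∣ (p : O) ^ k := by
    rw [hπ.maximalIdeal_eq, Ideal.mem_span_singleton] at hp
    rw [hu, Units.mul_left_dvd]
    exact pow_dvd_pow_of_dvd hp k
  have h2 : ((p ^ k : ℕ) : Λ) * x = 0 := by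
    rw [Nat.cast_pow, ← map_natCast (algebraMap O Λ) p, ← map_pow, hc, map_mul, mul_right_comm, h,
      zero_mul]
  refine (smul_eq_zero.mp (show ((p ^ k : ℕ) : ℤ) • x = 0 by
    rw [zsmul_eq_mul, Int.cast_natCast]; exact h2)).resolve_left ?_
  exact_mod_cast (pow_ne_zero k (Fact.out : p.Prime).ne_zero)

variable (hsΛ : Function.Surjective (residue Λ ∘ algebraMap O Λ))
  (H : TwistData p S lam ψ Q M Mtop)

include H

/-- **Trace of inertia at an auxiliary prime.** -/
theorem TwistData.pow_trace_sub_eq_zero [Module.Finite O Λ]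
    [Nontrivial (TwAlg hsΛ S lam ψ Q M)]
    (hex : ∀ j, ExactHyp (awayMonoid (lamIdeal hsΛ S lam)) (charSq ψ Q (M j)))
    (L : LevelData O) (P : L.RepRing)
    (hspan : Submodule.span (ResidueField O) (Set.range L.D.rbar) = ⊤) (hfin : IsCont L.D.rbar)
    (htr : ∀ ℓ : ℕ, ℓ.Prime → ℓ ∉ S → ∀ A : ValuationSubring Qbar, A.LiesOverPrime ℓ →
      ∀ σ : GQ, A.IsFrobeniusAt σ ℓ → (L.D.rbar σ).trace = residue O (lam ℓ))
    (ι₀ : ℤ_[p] →+* O)
    (hdetbar : ∀ σ, (L.D.rbar σ).det = residue O (ι₀ (epsilonPadic p σ : ℤ_[p])))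
    (hdet : ∀ σ, (P.rep σ).det = algebraMap O P.R (ι₀ (epsilonPadic p σ : ℤ_[p])))
    (φ : P.R →ₐ[O] TwAlg hsΛ S lam ψ Q M) (hφ : IsLocalHom (φ : P.R →+* TwAlg hsΛ S lam ψ Q M))
    (hfrob : ∀ (ℓ : ℕ) (hℓ : ℓ.Prime) (hℓS : ℓ ∉ (↑S : Set ℕ)), ∀ A : ValuationSubring Qbar,
      A.LiesOverPrime ℓ → ∀ σ : GQ, A.IsFrobeniusAt σ ℓ → φ (P.rep σ).trace =
        twClass hsΛ S lam ψ Q M (MvPolynomial.C (invChar ψ Q S ⟨⟨ℓ, hℓ⟩, hℓS⟩) *
          MvPolynomial.X ⟨⟨ℓ, hℓ⟩, hℓS⟩))
    {q : ℕ} (hq : q ∈ Q) (hqp : q ≠ p)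
    (hneb : ∀ (O' : Type) [CommRing O'] [IsDomain O'] [IsDiscreteValuationRing O']
      [IsAdicComplete (maximalIdeal O') O'] [Finite (ResidueField O')] [CharZero O'],
      (p : O') ∈ maximalIdeal O' → ∀ N : ℕ, N ≠ 0 → NebentypusInertia O' p N q)
    {A : ValuationSubring Qbar} (hA : A.LiesOverPrime q) {σ : GQ}
    (hσ : σ ∈ A.inertiaSubgroupIn ℚ) {e : (ZMod q)ˣ}
    (he : ∀ μ : Qbar, μ ^ q = 1 → σ μ = μ ^ (e : ZMod q).val)
    {D : ℕ} (hD : ∀ j, Module.finrank Λ (LevelCoh hsΛ S lam ψ Q M j) ≤ D) :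
    (φ (P.rep σ).trace -
      algebraMap Λ (TwAlg hsΛ S lam ψ Q M) (ψ q e + ψ q e⁻¹)) ^ D = 0 := by
  classical
  have hp3 := H.three_le
  have hfinV : ∀ j, Module.Finite Λ (LevelCoh hsΛ S lam ψ Q M j) := fun j =>
    finite_cohLoc _ _ (maximalIdeal_le_lamIdeal hsΛ S lam)
  have hfreeV : ∀ j, Module.Free Λ (LevelCoh hsΛ S lam ψ Q M j) := fun j => free_cohChar (hex j)
  set C := TwAlg hsΛ S lam ψ Q M
  have : Module.Finite O C := Module.Finite.trans Λ C
  set y : C := φ (P.rep σ).trace - algebraMap Λ C (ψ q e + ψ q e⁻¹) with hy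
  suffices hnil : IsNilpotent y by
    refine Subtype.ext (funext fun j => ?_)
    rw [SubmonoidClass.coe_pow, Pi.pow_apply]
    refine pow_eq_zero_of_isNilpotent_end ?_ (hD j)
    exact hnil.map ((Pi.evalRingHom (fun j => Module.End Λ (LevelCoh hsΛ S lam ψ Q M j)) j).comp
      C.val.toRingHom)
  by_contra hy0
  have htf : ∀ (o : O) (x : C), o ≠ 0 → algebraMap O C o * x = 0 → x = 0 := by
    intro o x ho hox
    refine Subtype.ext (funext fun j => LinearMap.ext fun v => ?_)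
    have h1 : algebraMap O Λ o • (x : TwEnd hsΛ S lam ψ Q M) j v = 0 := by
      have h0 := congrArg (fun z : C => (z : TwEnd hsΛ S lam ψ Q M) j v) hox
      exact h0
    let b := Module.Free.chooseBasis Λ (LevelCoh hsΛ S lam ψ Q M j)
    refine b.repr.injective (Finsupp.ext fun i => ?_)
    have h2 := congrArg (fun z => b.repr z i) h1
    simp only [map_smul, Finsupp.smul_apply, smul_eq_mul, map_zero, Finsupp.zero_apply] at h2
    simp only [ZeroMemClass.coe_zero, Pi.zero_apply, LinearMap.zero_apply, map_zero,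
      Finsupp.zero_apply]
    exact eq_zero_of_algebraMap_mul H.p_mem ho h2
  obtain ⟨O', _, _, _, _, _, _, _, _, hlh, θ, hθ⟩ := exists_point O C htf hy0
  have hθl : IsLocalHom (θ : C →+* O') := isLocalHom_point θ
  have := hφ
  have hpO' : (p : O') ∈ maximalIdeal O' := by
    rw [← map_natCast (algebraMap O O')]
    exact fun h => H.p_mem (hlh.map_nonunit _ h)
  let θΛ : Λ →+* O' := (θ : C →+* O').comp (algebraMap Λ C)
  let K := FractionRing O'
  have : CharZero K := charZero_of_injective_algebraMap (IsFractionRing.injective O' K)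
  let φK : AwayPoly Λ (↑S : Set ℕ) →+* K :=
    ((algebraMap O' K).comp (θ : C →+* O')).comp (twClass hsΛ S lam ψ Q M).toRingHom
  -- a member of the family supporting the point
  obtain ⟨j, hj⟩ : ∃ j, ∀ X, (∀ v : LevelCoh hsΛ S lam ψ Q M j,
      awayIncl Λ (↑S : Set ℕ) X • v = 0) → φK X = 0 := by
    by_contra hcon
    push Not at hcon
    choose X hX hX0 using hcon
    refine Finset.prod_ne_zero_iff.mpr (fun j (_ : j ∈ Finset.univ) => hX0 j) ?_
    rw [← map_prod]
    refine show (algebraMap O' K) (θ (twClass hsΛ S lam ψ Q M (∏ j, X j))) = 0 from ?_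
    rw [show twClass hsΛ S lam ψ Q M (∏ j, X j) = 0 from Subtype.ext (funext fun j =>
      LinearMap.ext fun v => by
        rw [twClass_apply, ← Finset.mul_prod_erase Finset.univ X (Finset.mem_univ j), map_mul,
          mul_comm, mul_smul, hX j v, smul_zero]
        rfl), map_zero, map_zero]
  -- the eigen systems
  let cv : ℕ → O' := fun ℓ => if h : ℓ.Prime ∧ ℓ ∉ S then
    θ (twClass hsΛ S lam ψ Q M (MvPolynomial.X ⟨⟨ℓ, h.1⟩, h.2⟩)) else 0
  let cI : Finset ℕ → ℕ → O' := fun Q' ℓ =>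
    θΛ (charProd (fun x => (ψ x).comp invMonoidHom) Q' ℓ)
  let av : ℕ → O' := fun ℓ => cI Q ℓ * cv ℓ
  let ψK : ∀ x : ℕ, (ZMod x)ˣ →* K := fun x =>
    ((algebraMap O' K).comp θΛ).toMonoidHom.comp (ψ x)
  have hoccM : Engine.Occurs K (M j) (charSq ψK Q (M j)) S (fun ℓ => algebraMap O' K (cv ℓ)) := by
    have h := occurs_of_cohChar (lamIdeal hsΛ S lam) (hex j) φK hj
      (lam := fun ℓ => algebraMap O' K (cv ℓ)) fun l => by
        show algebraMap O' K (dite _ _ _) = _
        rw [dif_pos (show ((l : Nat.Primes) : ℕ).Prime ∧ ((l : Nat.Primes) : ℕ) ∉ S from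
          ⟨(l : Nat.Primes).2, l.2⟩)]
        rfl
    rw [charSq_map ψ ((algebraMap O' K).comp θΛ).toMonoidHom Q (M j)]
    convert h using 3
    refine RingHom.ext fun z => ?_
    show algebraMap O' K (θ (algebraMap Λ C z)) =
      algebraMap O' K (θ (twClass hsΛ S lam ψ Q M (MvPolynomial.C z)))
    rw [← MvPolynomial.algebraMap_eq, AlgHom.commutes]
  obtain ⟨hqpr, ⟨k₀, hk₀⟩, hq2⟩ := H.aux j q hq
  have := Fact.mk hqpr
  have : NeZero q := ⟨hqpr.ne_zero⟩
  have hMS : ∀ ℓ : ℕ, ℓ.Prime → ℓ ∣ M j → ℓ ∈ S := fun ℓ hℓ h =>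
    H.mem_S ℓ hℓ ((h.trans ((dvd_mul_right _ _).trans (H.dvd_top j))).mul_right p)
  have hQS : ∀ x ∈ Q, x ∈ S := fun x hx => hMS x (H.aux j x hx).1 (H.aux j x hx).2.1
  set N := k₀ * ∏ x ∈ Q.erase q, x with hN
  have hN0 : N ≠ 0 := by
    refine mul_ne_zero (fun h => NeZero.ne (M j) (by rw [hk₀, h, mul_zero])) ?_
    exact Finset.prod_ne_zero_iff.mpr fun x hx => ((H.aux j x (Finset.mem_of_mem_erase hx)).1).ne_zero
  have : NeZero N := ⟨hN0⟩
  have hNS : ∀ ℓ : ℕ, ℓ.Prime → ℓ ∣ N → ℓ ∈ S := fun ℓ hℓ h => by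
    rcases (Nat.Prime.dvd_mul hℓ).mp h with h | h
    · exact hMS ℓ hℓ (hk₀ ▸ h.mul_left q)
    · obtain ⟨x, hx, hd⟩ := (Prime.dvd_finsetProd_iff hℓ.prime _).mp h
      rw [(Nat.prime_dvd_prime_iff_eq hℓ (H.aux j x (Finset.mem_of_mem_erase hx)).1).mp hd]
      exact hQS x (Finset.mem_of_mem_erase hx)
  have hqN : ¬ q ∣ N := fun h => by
    rcases (Nat.Prime.dvd_mul hqpr).mp h with h | h
    · exact hq2 (hk₀ ▸ mul_dvd_mul_left q h)
    · obtain ⟨x, hx, hd⟩ := (Prime.dvd_finsetProd_iff hqpr.prime _).mp h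
      exact (Finset.ne_of_mem_erase hx)
        ((Nat.prime_dvd_prime_iff_eq hqpr (H.aux j x (Finset.mem_of_mem_erase hx)).1).mp hd).symm
  have hlev : M j * ∏ x ∈ Q.erase q, x = N * q := by rw [hN, hk₀]; ring
  have hodd : ∀ x ∈ Q, ∀ u, ∃ k : ℕ, Odd k ∧ ψK x u ^ k = 1 := fun x hx u => by
    obtain ⟨k, hk, hku⟩ := H.odd x hx u
    refine ⟨k, hk, ?_⟩
    show ((algebraMap O' K).comp θΛ) (ψ x u) ^ k = 1
    rw [← map_pow, hku, map_one]
  have hocc := occurs_twist_single ψK hq (H.aux j) hodd hMS hoccM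
  rw [hlev] at hocc
  have hinv : ∀ (Q' : Finset ℕ) (ℓ : ℕ), cI Q' ℓ * θΛ (charProd ψ Q' ℓ) = 1 := fun Q' ℓ => by
    show θΛ _ * θΛ _ = 1
    rw [← map_mul, charProd, charProd, ← Finset.prod_mul_distrib, Finset.prod_eq_one, map_one]
    intro x _
    unfold charAt
    split
    · rw [MonoidHom.comp_apply, ← map_mul]
      simp
    · rw [one_mul]
  have hcK : (fun ℓ => (charProd ψK (Q.erase q) ℓ)⁻¹ * algebraMap O' K (cv ℓ)) =
      fun ℓ => algebraMap O' K (cI (Q.erase q) ℓ * cv ℓ) := funext fun ℓ => by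
    have h1 : charProd ψK (Q.erase q) ℓ = algebraMap O' K (θΛ (charProd ψ (Q.erase q) ℓ)) :=
      charProd_map ψ ((algebraMap O' K).comp θΛ).toMonoidHom _ ℓ
    rw [map_mul, h1, inv_eq_of_mul_eq_one_left (by rw [← map_mul, hinv, map_one])]
  rw [hcK] at hocc
  -- the representation at the point
  let ρ : MRep O' := mapRep ((θ : C →+* O').comp (φ : P.R →+* C)) P.rep
  have hρl : IsLocalHom ((θ : C →+* O').comp (φ : P.R →+* C)) := RingHom.isLocalHom_comp _ _
  have hρc : IsCont ρ := P.isLift.cont.map _ hρl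
  have hρtr : ∀ τ, (ρ τ).trace = θ (φ (P.rep τ).trace) := fun τ => trace_mapRep _ _ τ
  have hρfrob : ∀ ℓ : ℕ, ℓ.Prime → ℓ ∉ S → ∀ Pl : ValuationSubring Qbar, Pl.LiesOverPrime ℓ →
      ∀ τ : GQ, Pl.IsFrobeniusAt τ ℓ → (ρ τ).trace = av ℓ := fun ℓ hℓ hℓS Pl hPl τ hτ => by
    rw [hρtr, hfrob ℓ hℓ hℓS Pl hPl τ hτ, map_mul, ← MvPolynomial.algebraMap_eq, AlgHom.commutes,
      map_mul]
    show θΛ _ * _ = cI Q ℓ * dite _ _ _
    rw [dif_pos (show ℓ.Prime ∧ ℓ ∉ S from ⟨hℓ, hℓS⟩)]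
    rfl
  -- not Eisenstein
  have hnonEis : ∀ m : ℕ, 0 < m →
      ∃ ℓ : ℕ, ℓ.Prime ∧ ℓ ∉ S ∧ (ℓ : ZMod m) = 1 ∧ av ℓ ≠ (ℓ : O') + 1 := by
    intro m hm
    obtain ⟨ℓ, hℓ, hℓS, hℓ1, Pl, hPl, τ, hτ, hne⟩ := exists_prime_trace_ne (Field.toIsField _)
      L.D.rbar hfin.finite_level hspan S (fun ℓ hℓ hℓS Pl hPl τ hτ => by
        rw [hdetbar, epsilon_frobenius hℓ
          (fun h => hℓS (h ▸ H.mem_S p Fact.out (dvd_mul_left p Mtop))) hPl hτ, map_natCast,
          map_natCast]) m hm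
    refine ⟨ℓ, hℓ, hℓS, hℓ1, fun hav => hne ?_⟩
    rw [← hρfrob ℓ hℓ hℓS Pl hPl τ hτ, hρtr, hfrob ℓ hℓ hℓS Pl hPl τ hτ, ← sub_eq_zero,
      ← map_natCast θ, ← map_one θ, ← map_add θ, ← map_sub θ] at hav
    have h1 : twClass hsΛ S lam ψ Q M (MvPolynomial.C (invChar ψ Q S ⟨⟨ℓ, hℓ⟩, hℓS⟩) *
        MvPolynomial.X ⟨⟨ℓ, hℓ⟩, hℓS⟩) - ((ℓ : C) + 1) ∈ maximalIdeal C := fun hu => by
      have := hu.map θ
      rw [hav] at this
      exact not_isUnit_zero this
    rw [← toResidue_eq_zero_iff (isLocalHom_algebraMap_twAlg hsΛ S lam ψ Q M)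
      (surjective_residue_twAlg hsΛ S lam ψ Q M), map_sub, toResidue_twClass, map_add, map_natCast,
      map_one, map_mul, lamHom_X, lamHom_C, sub_eq_zero] at h1
    have h2 := (toResidue_eq_zero_iff (inferInstance : IsLocalHom (algebraMap O Λ)) hsΛ).mpr
      (H.invChar_sub_one_mem ⟨⟨ℓ, hℓ⟩, hℓS⟩)
    rw [map_sub, map_one, sub_eq_zero] at h2
    rw [h2, one_mul] at h1
    rw [htr ℓ hℓ hℓS Pl hPl τ hτ]
    exact h1
  -- the character at `q`
  let ψu : (ZMod q)ˣ →* O'ˣ := (θΛ.toMonoidHom.comp (ψ q)).toHomUnits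
  have hψu : ∀ v, ((ψu v : O'ˣ) : O') = θΛ (ψ q v) := fun v => rfl
  have hchar : charSq ψK {q} (N * q) =
      ((algebraMap O' K).toMonoidHom.comp (Units.coeHom O')).comp
        ((ψu ^ 2).comp (ZMod.unitsMap (dvd_mul_left q N))) := MonoidHom.ext fun v => by
    rw [charSq_apply, Finset.prod_singleton, charOn, dif_pos (dvd_mul_left q N)]
    show algebraMap O' K (θΛ (ψ q _)) ^ 2 = algebraMap O' K ((ψu _ ^ 2 : O'ˣ) : O')
    rw [Units.val_pow_eq_pow_val, map_pow, hψu]
  rw [hchar] at hocc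
  refine hθ ?_
  rw [hy, map_sub, ← hρtr, sub_eq_zero]
  show (ρ σ).trace = θΛ (ψ q e + ψ q e⁻¹)
  rw [map_add]
  have hqS : q ∈ S := hQS q hq
  have hpS : p ∈ S := H.mem_S p Fact.out (dvd_mul_left p Mtop)
  have hmul : ∀ (ℓ : ℕ) (hℓ : ℓ.Coprime q), av ℓ * ((ψu (ZMod.unitOfCoprime ℓ hℓ) : O'ˣ) : O') =
      cI (Q.erase q) ℓ * cv ℓ := fun ℓ hℓ => by
    have h0 : charProd (fun x => (ψ x).comp invMonoidHom) Q ℓ *
        ψ q (ZMod.unitOfCoprime ℓ hℓ) = charProd (fun x => (ψ x).comp invMonoidHom) (Q.erase q) ℓ := by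
      rw [charProd, charProd, ← Finset.mul_prod_erase Q _ hq, charAt, dif_pos hℓ, mul_right_comm,
        MonoidHom.comp_apply, ← map_mul]
      simp
    show θΛ _ * cv ℓ * θΛ _ = θΛ _ * cv ℓ
    rw [mul_right_comm, ← map_mul, h0]
  by_cases hψ2 : ψu ^ 2 = 1
  · have hψ1 : ∀ v, θΛ (ψ q v) = 1 := fun v => by
      obtain ⟨k, ⟨t, rfl⟩, hk⟩ := H.odd q hq v
      have h2 : ((ψu v ^ 2 : O'ˣ) : O') = 1 := congrArg Units.val (DFunLike.congr_fun hψ2 v)
      rw [Units.val_pow_eq_pow_val, hψu] at h2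
      have h3 := congrArg θΛ hk
      rw [map_pow, map_one, pow_succ, pow_mul, h2, one_pow, one_mul] at h3
      exact h3
    rw [hψ1, hψ1]
    have hocc1 : Engine.Occurs K (N * q) 1 S fun ℓ => algebraMap O' K (av ℓ) := by
      have e1 : ((algebraMap O' K).toMonoidHom.comp (Units.coeHom O')).comp
          ((ψu ^ 2).comp (ZMod.unitsMap (dvd_mul_left q N))) = 1 := by
        rw [hψ2]; ext v; simp
      rw [e1] at hocc
      obtain ⟨c, hc0, hc⟩ := hocc
      refine ⟨c, hc0, fun ℓ hℓ hℓS hℓd => ?_⟩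
      rw [hc ℓ hℓS hℓd]
      have hcop : ℓ.Coprime q := (Nat.coprime_primes hℓ.out hqpr).mpr fun h => hℓS (h ▸ hqS)
      have h4 := hmul ℓ hcop
      rw [hψu, hψ1, mul_one] at h4
      exact congrArg (fun z => algebraMap O' K z • c) h4.symm
    have : NeZero (N * q) := ⟨mul_ne_zero hN0 hqpr.ne_zero⟩
    obtain ⟨r, hr, hrS, hr1, hrne⟩ := hnonEis (N * q) (Nat.pos_of_ne_zero (NeZero.ne _))
    have := Fact.mk hr
    rw [trace_eq_two_of_occurs (SemistableRed.allRelations (N * q) p) (by omega)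
      ((H.three j).of_dvd ⟨∏ x ∈ Q.erase q, x, hlev.symm⟩) hpO'
      hocc1 (fun ℓ hℓ hd => ?_) hr1 hrS hrne hρc hρfrob
      (galMat_unipotent_of_exact_dvd hqN hqp _ hA hσ)
      (by rw [epsilon_inertia hqpr hqp hA hσ, Units.val_one]), ← one_add_one_eq_two]
    rcases (Nat.Prime.dvd_mul hℓ).mp hd with h | h
    · rcases (Nat.Prime.dvd_mul hℓ).mp h with h | h
      · exact hNS ℓ hℓ h
      · exact (Nat.prime_dvd_prime_iff_eq hℓ hqpr).mp h ▸ hqS
    · exact (Nat.prime_dvd_prime_iff_eq hℓ Fact.out).mp h ▸ hpS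
  · have hatt : IsAttachedSystem O' p (toAdic ρ hρc) S av := by
      refine ⟨⟨hpO', fun n τ a ha => ?_⟩, fun ℓ hℓ hℓS Pl hPl τ hτ => ?_⟩
      · show LinearMap.det (Matrix.toLin' (ρ τ)) - (a : O') ∈ Ideal.span {((p ^ n : ℕ) : O')}
        rw [LinearMap.det_toLin']
        obtain ⟨ζ, hζ⟩ := exists_primitiveRoot (p := p) n
        have hz : PadicInt.toZModPow n (epsilonPadic p τ : ℤ_[p]) =
            PadicInt.toZModPow n (a : ℤ_[p]) := by
          rw [toZModPow_epsilon_eq hζ (ha ζ hζ.pow_eq_one), map_natCast]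
        obtain ⟨c, hc⟩ := sub_mem_span_pow ((algebraMap O O').comp ι₀) hz
        rw [map_natCast] at hc
        have hd : (ρ τ).det = algebraMap O O' (ι₀ (epsilonPadic p τ : ℤ_[p])) := by
          show (((θ : C →+* O').comp (φ : P.R →+* C)).mapMatrix (P.rep τ)).det = _
          rw [← RingHom.map_det, hdet]
          exact (congrArg θ (φ.commutes _)).trans (θ.commutes _)
        rw [hd, show algebraMap O O' (ι₀ (epsilonPadic p τ : ℤ_[p])) = _ from hc, add_sub_cancel_left,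
          Nat.cast_pow]
        exact Ideal.mul_mem_right _ _ (Ideal.mem_span_singleton_self _)
      · show LinearMap.trace _ _ ((toAdic ρ hρc).ρ τ) = _
        rw [toAdic_ρ_apply]
        exact (Matrix.trace_toLin'_eq (ρ τ)).trans (hρfrob ℓ hℓ hℓS Pl hPl τ hτ)
    have h := hneb O' hpO' N hN0 ψu hψ2 hqpr hqp hqN S (fun ℓ => cI (Q.erase q) ℓ * cv ℓ) av
      (toAdic ρ hρc) hqS hpS hNS hocc (fun ℓ hℓ _ _ => hmul ℓ hℓ) hatt hnonEis A hA σ hσ e he
    refine (Matrix.trace_toLin'_eq (ρ σ)).symm.trans (h.trans ?_)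
    rw [MonoidHom.inv_apply, ← map_inv, hψu, hψu]

end Fermat.Agent.Engine.TRep
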