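import Fermat.Agent.Engine.TRep.Flat
import Fermat.Agent.Engine.FlatLevels
import Fermat.Agent.FlatJ0.Bound

/-!
# Entries of the classified representation on the flat kernel

On inertia fixing `J₀(N)[p]` inside a kernel where the residual representation is trivial, the
representation of a level ring classified by traces of the localised Hecke algebra of level `N` has
entries in `flatIdeal`.
-/

set_option autoImplicit false
set_option linter.unusedSectionVars false

noncomputable section

namespace Fermat.Agent.Engine.TRep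

open IsLocalRing EigenRep HeckeModule FlatJ0 ModularCurve DefRing

local notation "GQ" => AlgebraicClosure ℚ ≃ₐ[ℚ] AlgebraicClosure ℚ

variable {N p : ℕ} [NeZero N] [Fact p.Prime] (I : RepInputs N p) {Λ : Type} [CommRing Λ]
  (ι : ℤ_[p] →+* Λ) (S : Finset ℕ) (m : Ideal (AwayPoly Λ (↑S : Set ℕ))) [m.IsPrime]

/-- The entries on the kernel. -/
theorem entries_mem_flatIdeal_of_torsionKer {O : Type} [CommRing O] [IsDomain O] [IsLocalRing O]
    [CharZero O] [CharP (ResidueField O) p] {L : LevelData O} (P : L.RepRing)
    (hspan : Submodule.span (ResidueField O) (Set.range L.D.rbar) = ⊤)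
    {χ : GQ → ResidueField O} (hχ : IsCyclotomicModP p χ) (hdet : ∀ σ, (L.D.rbar σ).det = χ σ)
    {C : Type} [CommRing C] [Algebra O C] [Algebra.IsIntegral O C] (F : TLoc I ι S m →+* C)
    (ψ : P.R →ₐ[O] C) (htrace : ∀ g, ψ (P.rep g).trace = F (tTrace I ι S m g))
    {A : ValuationSubring (AlgebraicClosure ℚ)} {σ : GQ} (hσ : σ ∈ torsionKer A p (JZero N))
    (hσ' : L.D.rbar σ = 1) (a b : Fin 2) : (P.rep σ - 1) a b ∈ flatIdeal p ψ :=
  P.entries_mem_flatIdeal hspan ψ hσ' (fun g => by
    rw [htrace, htrace]
    exact tTrace_sub_mem_divIdeal I ι S m F ((matMod_galMat_eq_one_iff I σ).2 hσ.2)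
      (toZModPow_epsilon_eq_one hχ hdet hσ') g) a b

end Fermat.Agent.Engine.TRep
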