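import Fermat.Agent.Engine.LevelRing
import Fermat.Agent.Deform.Traces
import Fermat.Agent.Chebotarev.Main

/-!
# Maps out of deformation rings are determined by traces of Frobenius

Continuous representations with equal traces at Frobenius elements outside a finite set have equal
traces; hence two points of a level ring with equal such traces are equal.
-/

set_option autoImplicit false

noncomputable section

namespace Fermat.Agent.Engine

open IsLocalRing DefRing Deform

local notation "Qbar" => AlgebraicClosure ℚ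

/-- A continuous representation is constant modulo `𝔪 ^ n` on cosets of a finite level. -/
theorem trace_sub_mem_of_eqOn {A : Type} [CommRing A] [IsLocalRing A] {N : MRep A} {n : ℕ}
    {L : IntermediateField ℚ Qbar}
    (hL : ∀ σ : GQ, (∀ a ∈ L, σ a = a) → ∀ i j, (N σ - 1) i j ∈ maximalIdeal A ^ n)
    {σ τ : GQ} (h : ∀ a ∈ L, τ a = σ a) :
    (N τ).trace - (N σ).trace ∈ maximalIdeal A ^ n := by
  have h1 := hL (σ⁻¹ * τ) fun a ha => by
    rw [AlgEquiv.mul_apply, h a ha]
    exact σ.symm_apply_apply a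
  have e : N τ - N σ = N σ * (N (σ⁻¹ * τ) - 1) := by
    rw [mul_sub, mul_one, ← map_mul, mul_inv_cancel_left]
  rw [← Matrix.trace_sub, e, Matrix.trace]
  refine sum_mem fun i _ => ?_
  rw [Matrix.diag_apply, Matrix.mul_apply]
  exact sum_mem fun j _ => Ideal.mul_mem_left _ _ (h1 j i)

/-- Equal traces at Frobenius elements outside a finite set: equal traces. -/
theorem trace_eq_of_frobenius {A : Type} [CommRing A] [IsLocalRing A] [IsNoetherianRing A]
    {N N' : MRep A} (hN : IsCont N) (hN' : IsCont N') (S : Finset ℕ)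
    (h : ∀ ℓ : ℕ, ℓ.Prime → ℓ ∉ S → ∀ P : ValuationSubring Qbar, P.LiesOverPrime ℓ →
      ∀ τ : GQ, P.IsFrobeniusAt τ ℓ → (N τ).trace = (N' τ).trace) (σ : GQ) :
    (N σ).trace = (N' σ).trace := by
  rw [← sub_eq_zero]
  refine (Submodule.eq_bot_iff _).mp
    (Ideal.iInf_pow_eq_bot_of_isLocalRing (maximalIdeal A) (maximalIdeal.isMaximal A).ne_top) _
    ((Submodule.mem_iInf _).mpr fun n => ?_)
  obtain ⟨L, hL, hσ⟩ := hN n
  obtain ⟨L', hL', hσ'⟩ := hN' n
  have := hL
  have := hL'
  have : FiniteDimensional ℚ ↥(L ⊔ L') := IntermediateField.finiteDimensional_sup L L'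
  obtain ⟨ℓ, hℓ, hℓS, P, hP, τ, hτ, hτL⟩ :=
    Fermat.Agent.Chebotarev.exists_isFrobeniusAt_eqOn (L ⊔ L') σ S
  have h1 := trace_sub_mem_of_eqOn hσ fun a ha => hτL a (le_sup_left (a := L) (b := L') ha)
  have h2 := trace_sub_mem_of_eqOn hσ' fun a ha => hτL a (le_sup_right (a := L) (b := L') ha)
  rw [show (N σ).trace - (N' σ).trace = ((N' τ).trace - (N' σ).trace) -
    ((N τ).trace - (N σ).trace) by rw [h ℓ hℓ hℓS P hP τ hτ]; ring]
  exact sub_mem h2 h1

/-- The trace of a pushed representation. -/
theorem trace_mapRep {A B : Type} [CommRing A] [CommRing B] (φ : A →+* B) (N : MRep A) (σ : GQ) :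
    (mapRep φ N σ).trace = φ (N σ).trace :=
  (AddMonoidHom.map_trace φ.toAddMonoidHom (N σ)).symm

variable {O : Type} [CommRing O] [IsLocalRing O] {L : LevelData O}

/-- Two points of a level ring with equal traces at Frobenius elements outside a finite set are
equal. -/
theorem LevelData.RepRing.algHom_ext_trace (P : L.RepRing)
    (hspan : Submodule.span (ResidueField O) (Set.range L.D.rbar) = ⊤) {A : Type} [CommRing A]
    [IsLocalRing A] [IsNoetherianRing A] [IsAdicComplete (maximalIdeal A) A] [Algebra O A]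
    (hl : IsLocalHom (algebraMap O A)) (hs : Function.Surjective (residue A ∘ algebraMap O A))
    {φ φ' : P.R →ₐ[O] A} (hφ : IsLocalHom (φ : P.R →+* A)) (hφ' : IsLocalHom (φ' : P.R →+* A))
    (S : Finset ℕ)
    (h : ∀ ℓ : ℕ, ℓ.Prime → ℓ ∉ S → ∀ Pl : ValuationSubring Qbar, Pl.LiesOverPrime ℓ →
      ∀ τ : GQ, Pl.IsFrobeniusAt τ ℓ → φ (P.rep τ).trace = φ' (P.rep τ).trace) :
    φ = φ' := by
  have hlift : ∀ f : P.R →ₐ[O] A, IsLocalHom (f : P.R →+* A) →
      L.IsRepLift hl hs (mapRep (f : P.R →+* A) P.rep) := by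
    intro f hf
    refine ⟨P.isLift.normal.map f, P.isLift.reduces.map f hf, P.isLift.cont.map _ hf, ?_, ?_⟩
    · exact
        { det := fun σ => by
            show ((f : P.R →+* A).mapMatrix (P.rep σ)).det = _
            rw [← RingHom.map_det, P.isLift.eqs.det]
            exact f.commutes _
          unram := fun q hq hqS Pl hPl σ hσ => by
            rw [mapRep_apply, P.isLift.eqs.unram q hq hqS Pl hPl σ hσ]
            exact Matrix.map_one _ (map_zero _) (map_one _)
          unipotent := fun q hqS Pl hPl σ hσ => by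
            have h0 := P.isLift.eqs.unipotent q hqS Pl hPl σ hσ
            have h1 := congrArg (f : P.R →+* A).mapMatrix h0
            rwa [map_mul, map_sub, map_one, map_zero] at h1 }
    · intro B _ _ _ hB q hq hqs
      exact Closed.Mem'.mem_of_hom P.isLift.atPlace P.instIsLocalHom P.residue_surjective hB
        (q.comp f) (RingHom.isLocalHom_comp (q : A →+* B) (f : P.R →+* A))
  have key : mapRep (φ : P.R →+* A) P.rep = mapRep (φ' : P.R →+* A) P.rep :=
    eq_of_trace_eq (hl := hl) (hs := hs) hspan (hlift φ hφ).normal (hlift φ' hφ').normal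
      (hlift φ hφ).reduces (hlift φ' hφ').reduces
      (trace_eq_of_frobenius (hlift φ hφ).cont (hlift φ' hφ').cont S
        fun ℓ hℓ hℓS Pl hPl τ hτ => by
          rw [trace_mapRep, trace_mapRep]
          exact h ℓ hℓ hℓS Pl hPl τ hτ)
  obtain ⟨ψ, -, huniq⟩ := P.universal A hl hs _ (hlift φ hφ)
  rw [huniq φ ⟨hφ, rfl⟩, huniq φ' ⟨hφ', key.symm⟩]

end Fermat.Agent.Engine
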