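import Fermat.Agent.Engine.TRep.Compare
import Fermat.Agent.HeckeModule.BaseChange
import Mathlib.RingTheory.Ideal.MinimalPrime.Localization

/-!
# Change of coefficients

Reduced rings without torsion are detected by their maps to fields of characteristic zero; the
lattice algebra and `H¹(Γ₀(N), Λ(χ))` are compared with their versions over such fields.
-/

set_option autoImplicit false

noncomputable section

namespace Fermat.Agent.Engine.TRep

open EigenRep HeckeModule

/-- A reduced ring without torsion has enough maps to fields of characteristic zero. -/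
theorem exists_charZero_field {Λ : Type} [CommRing Λ] [IsReduced Λ] [Module.IsTorsionFree ℤ Λ]
    {x : Λ} (hx : x ≠ 0) :
    ∃ (K : Type) (_ : Field K) (_ : CharZero K) (θ : Λ →+* K), θ x ≠ 0 := by
  obtain ⟨P, hP, hxP⟩ : ∃ P ∈ minimalPrimes Λ, x ∉ P := by
    by_contra h
    push Not at h
    refine hx (IsNilpotent.eq_zero (mem_nilradical.mp ?_))
    rw [nilradical, ← Ideal.sInf_minimalPrimes, Ideal.mem_sInf]
    exact fun {P} hP => h P hP
  have : P.IsPrime := hP.1.1
  let θ : Λ →+* FractionRing (Λ ⧸ P) := (algebraMap (Λ ⧸ P) _).comp (Ideal.Quotient.mk P)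
  have hθ : ∀ y, θ y = 0 → y ∈ P := fun y hy =>
    Ideal.Quotient.eq_zero_iff_mem.mp (IsFractionRing.to_map_eq_zero_iff.mp hy)
  refine ⟨_, inferInstance, charZero_of_inj_zero fun n hn => ?_, θ, fun h => hxP (hθ x h)⟩
  by_contra h0
  rw [← map_natCast θ] at hn
  have hnz : (n : Λ) ∈ nonZeroDivisors Λ := mem_nonZeroDivisors_iff_right.mpr fun y hy => by
    refine (smul_eq_zero.mp (show (n : ℤ) • y = 0 from ?_)).resolve_left (by exact_mod_cast h0)
    rw [zsmul_eq_mul, Int.cast_natCast, mul_comm]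
    exact hy
  exact Set.disjoint_left.mp (Ideal.disjoint_nonZeroDivisors_of_mem_minimalPrimes hP)
    (hθ _ hn) hnz

section Lattice

variable {N p : ℕ} [NeZero N] [Fact p.Prime] (I : RepInputs N p)
  {O : Type} [CommRing O] {K : Type} [CommRing K] (θ : O →+* K) (ι : ℤ_[p] →+* O) (S : Finset ℕ)

theorem latOp_map (l : AwayIndex (↑S : Set ℕ)) (v : Lat I O) :
    latOp I (θ.comp ι) S l (θ ∘ v) = θ ∘ latOp I ι S l v := by
  funext i
  show _ = θ _
  rw [latOp, latOp, matEnd_apply, matEnd_apply, RingHom.map_mulVec]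
  rfl

theorem latHom_map_apply (P : AwayPoly O (↑S : Set ℕ)) (v : Lat I O) :
    (latHom I (θ.comp ι) S (MvPolynomial.map θ P) : Module.End K (Lat I K)) (θ ∘ v) =
      θ ∘ ((latHom I ι S P : Module.End O (Lat I O)) v) := by
  induction P using MvPolynomial.induction_on generalizing v with
  | C a =>
    rw [MvPolynomial.map_C, ← MvPolynomial.algebraMap_eq, ← MvPolynomial.algebraMap_eq,
      AlgHom.commutes, AlgHom.commutes]
    funext i
    show θ a * θ (v i) = θ (a * v i)
    rw [map_mul]
  | add P Q hP hQ =>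
    rw [map_add, map_add, map_add, Subalgebra.coe_add, Subalgebra.coe_add, LinearMap.add_apply,
      LinearMap.add_apply, hP, hQ]
    funext i
    exact (map_add θ _ _).symm
  | mul_X P l hP =>
    rw [map_mul, MvPolynomial.map_X, map_mul, map_mul, Subalgebra.coe_mul, Subalgebra.coe_mul,
      Module.End.mul_apply, Module.End.mul_apply, latHom_X, latHom_X, latOp_map, hP]

/-- Killing the lattice is stable under change of coefficients. -/
theorem latHom_map_eq_zero {P : AwayPoly O (↑S : Set ℕ)} (hP : latHom I ι S P = 0) :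
    latHom I (θ.comp ι) S (MvPolynomial.map θ P) = 0 := by
  apply Subtype.ext
  refine (Pi.basisFun K (Fin I.model.d)).ext fun k => ?_
  rw [Pi.basisFun_apply]
  have h := latHom_map_apply I θ ι S P (Pi.single k 1)
  have e : θ ∘ (Pi.single k 1 : Fin I.model.d → O) = Pi.single k 1 := by
    funext i
    rcases eq_or_ne i k with rfl | hik
    · simp
    · simp [hik]
  rw [e, hP] at h
  rw [h, ZeroMemClass.coe_zero]
  funext i
  exact map_zero θ

omit [NeZero N] in
theorem awayIncl_map (P : AwayPoly O (↑S : Set ℕ)) :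
    MvPolynomial.map θ (awayIncl O (↑S : Set ℕ) P) =
      awayIncl K (↑S : Set ℕ) (MvPolynomial.map θ P) :=
  MvPolynomial.map_rename θ Subtype.val P

end Lattice

section Coh

variable {Λ : Type} [CommRing Λ] {N : ℕ} (χ : (ZMod N)ˣ →* Λ)

theorem eisen_map {K : Type} [CommRing K] (θ : Λ →+* K) (r : ℕ) [Fact r.Prime] :
    MvPolynomial.map θ (eisen Λ r) = eisen K r := by
  exact (map_sub (MvPolynomial.map θ) _ _).trans (congrArg₂ HSub.hSub (MvPolynomial.map_X θ _)
    ((MvPolynomial.map_C θ _).trans (congrArg MvPolynomial.C (by simp))))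

/-- A class which dies in every field of characteristic zero is killed by Eisenstein elements. -/
theorem eisen_smul_eq_zero_of_fields [IsReduced Λ] [Module.IsTorsionFree ℤ Λ] {r : ℕ} [Fact r.Prime]
    (hr1 : (r : ZMod N) = 1) (c : Cocycle (scalarRep χ Λ))
    (h : ∀ (K : Type) [Field K] [CharZero K] (θ : Λ →+* K),
      ∃ b : K, ∀ γ, θ (c.1 γ) = θ (χ (dUnit N γ)) * b - b) :
    eisen Λ r • toCoh (scalarRep χ Λ) c = 0 := by
  classical
  choose K hK hK0 θ hθ using fun x : {x : Λ // x ≠ 0} => exists_charZero_field x.2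
  choose b hb using fun x : {x : Λ // x ≠ 0} => @h (K x) (hK x) (hK0 x) (θ x)
  let : ∀ x, Algebra Λ (K x) := fun x => (θ x).toAlgebra
  let f : Λ →ₗ[Λ] (∀ x, K x) := LinearMap.pi fun x => Algebra.linearMap Λ (K x)
  have hf : Function.Injective f := (injective_iff_map_eq_zero _).mpr fun y hy => by
    by_contra h0
    exact hθ ⟨y, h0⟩ (congrFun hy ⟨y, h0⟩)
  refine eisen_smul_ker f (isIntertwining_scalar χ f) hf hr1 ?_
  rw [cohMap_toCoh, toCoh_eq_zero_iff]
  exact ⟨b, fun γ => funext fun x => hb x γ⟩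

variable {K : Type} [CommRing K] (θ : Λ →+* K)

/-- A cocycle pushed along a ring map. -/
def pushCocycle (c : Cocycle (scalarRep χ Λ)) :
    Cocycle (scalarRep (θ.toMonoidHom.comp χ) K) :=
  ⟨fun γ => θ (c.1 γ), fun g h => by
    show θ (c.1 (g * h)) = θ (c.1 g) + θ (χ (dUnit N g)) * θ (c.1 h)
    rw [c.2.1, ← map_mul, ← map_add]; rfl,
    fun k hk => by show θ (c.1 k) = 0; rw [c.2.2 k hk, map_zero]⟩

/-- Pushing along a ring map commutes with the Hecke polynomials. -/
theorem push_smul (a : HeckePoly Λ) (c c' : Cocycle (scalarRep χ Λ))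
    (hc' : a • toCoh (scalarRep χ Λ) c = toCoh _ c') :
    toCoh (scalarRep (θ.toMonoidHom.comp χ) K) (pushCocycle χ θ c') =
      MvPolynomial.map θ a • toCoh _ (pushCocycle χ θ c) := by
  let : Algebra Λ K := θ.toAlgebra
  let f : Λ →ₗ[Λ] K := Algebra.linearMap Λ K
  have hsame : ∀ (u : (ZMod N)ˣ) (x : K),
      scalarRep χ K u x = scalarRep (θ.toMonoidHom.comp χ) K u x := fun u x => rfl
  let B : Coh1 (scalarRep χ Λ) → Coh1 (scalarRep (θ.toMonoidHom.comp χ) K) :=
    fun u => sameCoh hsame (cohMap f (isIntertwining_scalar χ f) u)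
  have hB : ∀ d : Cocycle (scalarRep χ Λ), B (toCoh _ d) = toCoh _ (pushCocycle χ θ d) := by
    intro d
    show sameCoh hsame (cohMap f _ (toCoh _ d)) = _
    rw [cohMap_toCoh]
    exact sameH1_cls _ _
  rw [← hB, ← hB, ← hc']
  show sameCoh hsame (cohMap f _ (a • _)) = _
  rw [LinearMap.map_smul, sameCoh_poly_smul hsame (f := θ) fun _ _ => rfl]

end Coh

end Fermat.Agent.Engine.TRep
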