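import Fermat.Agent.Engine.TRep.Congr
import Fermat.Agent.Engine.Quadratic
import Fermat.Agent.DefRing.MatrixRep

/-!
# The Galois representation over the localised Hecke algebra

`TRep.exists_rep`: two-dimensional, trace `g + ε(g) g⁻¹` (so `T_ℓ` at Frobenius), determinant `ε`,
`p`-adically continuous, and every linear relation between Galois elements on the localised torsion
holds between the matrices.
-/

set_option autoImplicit false

noncomputable section

namespace Fermat.Agent.Engine.TRep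

open EigenRep HeckeModule DefRing Matrix

variable {N p : ℕ} [NeZero N] [Fact p.Prime] (I : RepInputs N p)
  {O : Type} [CommRing O] (ι : ℤ_[p] →+* O) (S : Finset ℕ)
  (m : Ideal (AwayPoly O (↑S : Set ℕ))) [m.IsPrime]

/-- What is known of the representation over the localised algebra. -/
structure IsTorsionRep (R : MRep (TLoc I ι S m)) : Prop where
  trace : ∀ g, (R g).trace = tTrace I ι S m g
  det : ∀ g, (R g).det = algebraMap O (TLoc I ι S m) (ι (epsilonPadic p g : ℤ_[p]))
  cont : ∀ n : ℕ, ∃ L : IntermediateField ℚ (AlgebraicClosure ℚ), FiniteDimensional ℚ L ∧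
    ∀ σ : GQ, (∀ a ∈ L, σ a = a) → ∀ i j, (R σ - 1) i j ∈ pIdeal I ι S m ^ n
  /-- a relation between Galois matrices modulo every power of `p`, after an element outside
  `m`, holds in the representation -/
  transfer : ∀ {r : ℕ} (z : Fin r → ℤ_[p]) (g : Fin r → GQ),
    (∀ n : ℕ, ∃ (A : Matrix (Fin I.model.d) (Fin I.model.d) ℤ_[p]) (hA : A ∈ matAway I S),
      (⟨matEnd I ι A, matEnd_mem I ι S hA⟩ : LatAlg I ι S) ∈ latMonoid I ι S m ∧
        matMod p I.model.d n (A * ∑ i, z i • galMat I.model (g i)) = 0) →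
    ∑ i, algebraMap O (TLoc I ι S m) (ι (z i)) • R (g i) = 0

/-- The cyclotomic character with values in the localised algebra. -/
def tEps : GQ →* TLoc I ι S m :=
  ((algebraMap O (TLoc I ι S m)).comp ι).toMonoidHom.comp
    ((Units.coeHom ℤ_[p]).comp (epsilonPadic p))

theorem quadraticAction_tGal : QuadraticAction (tGal I ι S m) (tTrace I ι S m) (tEps I ι S m) := by
  intro g
  refine LinearMap.ext fun v => ?_
  induction v using LocalizedModule.induction_on with
  | _ v s =>
    have h := LinearMap.congr_fun (congrArg (matEnd I ι) (galMat_quadratic I g)) v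
    rw [map_add, map_sub, map_mul, map_mul, matEnd_smul, map_one, map_zero] at h
    simp only [LinearMap.add_apply, LinearMap.sub_apply, LinearMap.smul_apply,
      Module.End.mul_apply, Module.End.one_apply, LinearMap.zero_apply] at h ⊢
    rw [tGal_mk, tGal_mk, tTrace_smul_mk]
    show _ - _ + algebraMap O (TLoc I ι S m) (ι (epsilonPadic p g : ℤ_[p])) • _ = _
    rw [scalar_smul_mk, sub_add_eq_add_sub, sub_eq_zero, LocalizedModule.mk_add_mk, ← smul_add]
    rw [LocalizedModule.mk_cancel_common_left, ← sub_eq_zero]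
    have hz : matEnd I ι (galMat I.model g) (matEnd I ι (galMat I.model g) v) +
        ι (epsilonPadic p g : ℤ_[p]) • v =
          matEnd I ι (tMat I g) (matEnd I ι (galMat I.model g) v) := by
      rw [← sub_eq_zero, ← h]; abel
    rw [hz, sub_self]

/-- A linear combination of Galois elements on a class. -/
theorem sum_tGal_mk {r : ℕ} (z : Fin r → ℤ_[p]) (g : Fin r → GQ) (v : Lat I O)
    (s : latMonoid I ι S m) :
    ∑ i, algebraMap O (TLoc I ι S m) (ι (z i)) • tGal I ι S m (g i) (LocalizedModule.mk v s) =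
      LocalizedModule.mk (matEnd I ι (∑ i, z i • galMat I.model (g i)) v) s := by
  rw [map_sum, LinearMap.sum_apply]
  simp only [tGal_mk, scalar_smul_mk, matEnd_smul, LinearMap.smul_apply]
  induction (Finset.univ : Finset (Fin r)) using Finset.induction with
  | empty => simp
  | insert a t ha ih =>
      rw [Finset.sum_insert ha, Finset.sum_insert ha, ih, LocalizedModule.mk_add_mk, ← smul_add,
        LocalizedModule.mk_cancel_common_left]

/-- A linear combination of matrices acting on a split module. -/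
theorem sum_action {T : Type*} [CommRing T] {U V : Type*} [AddCommGroup U] [Module T U]
    [AddCommGroup V] [Module T V] (φ : (Fin 2 → U) →ₗ[T] V) {r : ℕ} (c : Fin r → T)
    (X : Fin r → Matrix (Fin 2) (Fin 2) T) (w : Fin 2 → U) :
    ∑ l, c l • φ (fun i => ∑ j, X l i j • w j) =
      φ (fun i => ∑ j, (∑ l, c l • X l) i j • w j) := by
  rw [show (fun i => ∑ j, (∑ l, c l • X l) i j • w j) =
      ∑ l, c l • (fun i => ∑ j, X l i j • w j) from ?_, map_sum]
  · simp only [map_smul]
  funext i
  simp only [Matrix.sum_apply, Matrix.smul_apply, Finset.sum_smul, Finset.sum_apply, Pi.smul_apply,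
    Finset.smul_sum, smul_smul, smul_eq_mul]
  exact Finset.sum_comm

variable {k : Type} [Field k] (lam : AwayPoly O (↑S : Set ℕ) →+* k)

/-- A trace-zero involution over a field of characteristic different from two has a basis of
eigenvectors. -/
theorem exists_diagonalize {k : Type} [Field k] (h2 : (2 : k) ≠ 0)
    (C : Matrix (Fin 2) (Fin 2) k) (hC : C * C = 1) (htr : C.trace = 0) :
    ∃ P Q : Matrix (Fin 2) (Fin 2) k, Q * P = 1 ∧ P * Q = 1 ∧ Q * C * P = !![1, 0; 0, -1] := by
  have hns : ∀ ε : k, ε * ε = 1 → C ≠ ε • 1 := by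
    intro ε hε he
    rw [he, Matrix.trace_smul, Matrix.trace_one, Fintype.card_fin, smul_eq_mul] at htr
    rcases mul_eq_zero.mp htr with h | h
    · rw [h, mul_zero] at hε; exact zero_ne_one hε
    · exact h2 (by exact_mod_cast h)
  have hv : ∀ ε : k, ε * ε = 1 → ∃ v : Fin 2 → k, v ≠ 0 ∧ C *ᵥ v = ε • v := by
    intro ε hε
    by_cases hw : ∀ j, (C + ε • 1) *ᵥ Pi.single j (1 : k) = 0
    · exact absurd (by
        refine Matrix.ext_of_mulVec_single fun j => ?_
        have := hw j
        rw [Matrix.add_mulVec, add_eq_zero_iff_eq_neg, ← Matrix.neg_mulVec] at this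
        rw [this, neg_smul]) (hns (-ε) (by rwa [neg_mul_neg]))
    · push Not at hw
      obtain ⟨j, hj⟩ := hw
      refine ⟨_, hj, ?_⟩
      rw [Matrix.mulVec_mulVec, mul_add, hC, Matrix.mul_smul, mul_one, ← Matrix.smul_mulVec,
        smul_add, smul_smul, hε, one_smul, add_comm]
  obtain ⟨v, hv0, hv1⟩ := hv 1 (one_mul 1)
  obtain ⟨w, hw0, hw1⟩ := hv (-1) (by rw [neg_mul_neg, one_mul])
  let P : Matrix (Fin 2) (Fin 2) k := !![v 0, w 0; v 1, w 1]
  have hdet : IsUnit P.det := by
    rw [isUnit_iff_ne_zero]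
    intro h0
    obtain ⟨x, hx, hPx⟩ := Matrix.exists_mulVec_eq_zero_iff.mpr h0
    have hcomb : x 0 • v + x 1 • w = 0 := by
      rw [← hPx]
      funext i
      fin_cases i <;> simp [P, Matrix.mulVec, dotProduct, Fin.sum_univ_two] <;> ring
    have hC' := congrArg (C *ᵥ ·) hcomb
    simp only [Matrix.mulVec_add, Matrix.mulVec_smul, hv1, hw1, Matrix.mulVec_zero, one_smul,
      neg_smul, smul_neg] at hC'
    have e1 : (2 : k) • (x 0 • v) = 0 := by
      rw [two_smul]
      linear_combination (norm := abel) hcomb + hC'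
    have e2 : (2 : k) • (x 1 • w) = 0 := by
      rw [two_smul]
      linear_combination (norm := abel) hcomb - hC'
    simp only [smul_eq_zero, h2, hv0, hw0, or_false, false_or] at e1 e2
    exact hx (funext fun i => by fin_cases i <;> assumption)
  refine ⟨P, P⁻¹, Matrix.nonsing_inv_mul P hdet, Matrix.mul_nonsing_inv P hdet, ?_⟩
  rw [mul_assoc, show C * P = P * !![1, 0; 0, -1] from ?_, ← mul_assoc,
    Matrix.nonsing_inv_mul P hdet, one_mul]
  ext i j
  have a := congrFun hv1 i
  have b := congrFun hw1 i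
  fin_cases i <;> fin_cases j <;>
    simp [P, Matrix.mul_apply, Matrix.mulVec, dotProduct, Fin.sum_univ_two] at a b ⊢ <;>
    first | exact a | exact b

/-- An invertible mixed element, from residual irreducibility. -/
theorem exists_unit_entries [IsLocalRing (TLoc I ι S m)] (res : TLoc I ι S m →+* k)
    (hresm : ∀ x, res x ≠ 0 → IsUnit x) (h2 : (2 : k) ≠ 0) (hlf : TLoc I ι S m)
    (hhlf : 2 * hlf = 1) (c : GQ) (hc : c * c = 1) (htc : tTrace I ι S m c = 0)
    (ρbar : GQ →* Matrix (Fin 2) (Fin 2) k)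
    (htr : ∀ g, res (tTrace I ι S m g) = (ρbar g).trace)
    (hirr : ∀ v : Fin 2 → k, v ≠ 0 → ∃ g, ∀ a : k, ρbar g *ᵥ v ≠ a • v) :
    ∃ g₀ h₀, IsUnit (entryX (tTrace I ι S m) hlf c g₀ h₀) ∧
      IsUnit (entryY (tTrace I ι S m) hlf c g₀ h₀) := by
  have hC : ρbar c * ρbar c = 1 := by rw [← map_mul, hc, map_one]
  obtain ⟨P, Q, hQP, hPQ, hD⟩ := exists_diagonalize h2 (ρbar c) hC
    (by rw [← htr, htc, map_zero])
  let r : GQ → Matrix (Fin 2) (Fin 2) k := fun g => Q * ρbar g * P
  have hr : ∀ g h, r (g * h) = r g * r h := fun g h => by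
    simp only [r, map_mul, mul_assoc]
    rw [← mul_assoc P Q, hPQ, one_mul]
  have htrr : ∀ g, res (tTrace I ι S m g) = r g 0 0 + r g 1 1 := fun g => by
    rw [htr, ← Matrix.trace_fin_two]
    show _ = (Q * ρbar g * P).trace
    rw [Matrix.trace_mul_cycle, hPQ, one_mul]
  have hh : res hlf * 2 = 1 := by rw [← map_ofNat res 2, ← map_mul, mul_comm, hhlf, map_one]
  have hgc : ∀ g, r (g * c) 0 0 = r g 0 0 ∧ r (g * c) 1 1 = -r g 1 1 := fun g => by
    rw [hr, show r c = !![1, 0; 0, -1] from hD]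
    simp [Matrix.mul_apply, Fin.sum_univ_two]
  have hA : ∀ g, res (entryA (tTrace I ι S m) hlf c g) = r g 0 0 := fun g => by
    rw [entryA, map_mul, map_add, htrr, htrr, (hgc g).1, (hgc g).2]
    linear_combination r g 0 0 * hh
  have hD' : ∀ g, res (entryD (tTrace I ι S m) hlf c g) = r g 1 1 := fun g => by
    rw [entryD, map_mul, map_sub, htrr, htrr, (hgc g).1, (hgc g).2]
    linear_combination r g 1 1 * hh
  have hline : ∀ v : Fin 2 → k, v ≠ 0 → ∃ g, ∀ a : k, r g *ᵥ v ≠ a • v := by
    intro v hv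
    have hPv : P *ᵥ v ≠ 0 := fun h => hv (by
      rw [← Matrix.one_mulVec v, ← hQP, ← Matrix.mulVec_mulVec, h, Matrix.mulVec_zero])
    obtain ⟨g, hg⟩ := hirr _ hPv
    refine ⟨g, fun a ha => hg a ?_⟩
    have h' := congrArg (P *ᵥ ·) ha
    simp only [r, Matrix.mulVec_smul, Matrix.mulVec_mulVec, ← mul_assoc, hPQ, one_mul] at h'
    rw [Matrix.mulVec_mulVec]
    exact h'
  obtain ⟨g₁, hg₁⟩ := hline ![0, 1] (fun h => one_ne_zero (congrFun h 1))
  obtain ⟨h₁, hh₁⟩ := hline ![1, 0] (fun h => one_ne_zero (congrFun h 0))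
  have hb : r g₁ 0 1 ≠ 0 := fun h0 => hg₁ (r g₁ 1 1) (funext fun i => by
    fin_cases i <;> simp [Matrix.mulVec, dotProduct, Fin.sum_univ_two, h0])
  have hc1 : r h₁ 1 0 ≠ 0 := fun h0 => hh₁ (r h₁ 0 0) (funext fun i => by
    fin_cases i <;> simp [Matrix.mulVec, dotProduct, Fin.sum_univ_two, h0])
  refine ⟨g₁, h₁, hresm _ ?_, hresm _ ?_⟩
  · rw [entryX, map_sub, map_mul, hA, hA, hA, hr, Matrix.mul_apply, Fin.sum_univ_two,
      add_sub_cancel_left]
    exact mul_ne_zero hb hc1
  · rw [entryY, map_sub, map_mul, hD', hD', hD', hr, Matrix.mul_apply, Fin.sum_univ_two,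
      add_sub_cancel_right]
    exact mul_ne_zero hc1 hb

section Split

variable {T : Type*} [CommRing T] {V : Type*} [AddCommGroup V] [Module T V] {U : Submodule T V}
  (φ : (Fin 2 → U) ≃ₗ[T] V)

include φ in
/-- The summand of a faithful module is faithful. -/
theorem split_faithful (hV : ∀ x : T, (∀ v : V, x • v = 0) → x = 0) (x : T)
    (hx : ∀ w : U, x • w = 0) : x = 0 := hV x fun v => by
  obtain ⟨w, rfl⟩ := φ.surjective v
  rw [← map_smul, show x • w = 0 from funext fun i => hx (w i), map_zero]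

/-- Entries of a matrix acting into a multiple of the split module. -/
theorem split_entry_mem (D : Matrix (Fin 2) (Fin 2) T) (J : Ideal T)
    (h : ∀ w : Fin 2 → U, (φ fun i => ∑ j, D i j • w j) ∈ J • (⊤ : Submodule T V))
    (i j : Fin 2) (w : U) : D i j • w ∈ J • (⊤ : Submodule T U) := by
  have h' := Submodule.mem_map_of_mem (f := (LinearMap.proj i).comp φ.symm.toLinearMap)
    (h (Pi.single j w : Fin 2 → U))
  rw [Submodule.map_smul''] at h'
  have e : (LinearMap.proj i).comp φ.symm.toLinearMap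
      (φ fun i => ∑ l, D i l • (Pi.single j w : Fin 2 → U) l) = D i j • w := by
    simp [Pi.single_apply]
  rw [e] at h'
  exact Submodule.smul_mono le_rfl le_top h'

/-- The action of `D - 1`. -/
theorem split_sub_one (D : Matrix (Fin 2) (Fin 2) T) (w : Fin 2 → U) :
    (φ fun i => ∑ j, (D - 1) i j • w j) = (φ fun i => ∑ j, D i j • w j) - φ w := by
  rw [← map_sub]
  congr 1
  funext i
  fin_cases i <;> simp [Matrix.sub_apply, sub_smul]

end Split

/-- Continuity and transfer for a splitting of the localised lattice. -/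
theorem cont_and_transfer [IsNoetherianRing O] [IsLocalRing (TLoc I ι S m)]
    (R : MRep (TLoc I ι S m)) (U : Submodule (TLoc I ι S m) (VLoc I ι S m))
    (φ : (Fin 2 → U) ≃ₗ[TLoc I ι S m] VLoc I ι S m)
    (hact : ∀ g w, tGal I ι S m g (φ w) = φ fun i => ∑ j, R g i j • w j)
    (hp : ¬ IsUnit (p : TLoc I ι S m)) :
    (∀ n : ℕ, ∃ L : IntermediateField ℚ (AlgebraicClosure ℚ), FiniteDimensional ℚ L ∧
      ∀ σ : GQ, (∀ a ∈ L, σ a = a) → ∀ i j, (R σ - 1) i j ∈ pIdeal I ι S m ^ n) ∧
    ∀ {r : ℕ} (z : Fin r → ℤ_[p]) (g : Fin r → GQ),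
      (∀ n : ℕ, ∃ (A : Matrix (Fin I.model.d) (Fin I.model.d) ℤ_[p]) (hA : A ∈ matAway I S),
        (⟨matEnd I ι A, matEnd_mem I ι S hA⟩ : LatAlg I ι S) ∈ latMonoid I ι S m ∧
          matMod p I.model.d n (A * ∑ i, z i • galMat I.model (g i)) = 0) →
      ∑ i, algebraMap O (TLoc I ι S m) (ι (z i)) • R (g i) = 0 := by
  have hU := split_faithful φ (tLoc_faithful I ι S m)
  have : Module.Finite (TLoc I ι S m) U := Module.Finite.of_fg (IsNoetherian.noetherian U)
  refine ⟨fun n => ?_, fun {r} z g hrel => ?_⟩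
  · obtain ⟨M, hM⟩ := exists_pow_mem (U := U) hU (pIdeal I ι S m) n
    obtain ⟨L, hL, H⟩ := exists_level_galMat I.model I.smooth M
    refine ⟨L, hL, fun σ hσ i j => hM _ fun w => split_entry_mem φ (R σ - 1) _ (fun w' => ?_) i j w⟩
    rw [split_sub_one, ← hact]
    induction φ w' using LocalizedModule.induction_on with
    | _ v s =>
      rw [tGal_mk, sub_eq_add_neg, ← LocalizedModule.mk_neg, LocalizedModule.mk_add_mk, ← smul_add,
        LocalizedModule.mk_cancel_common_left, ← sub_eq_add_neg]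
      have := mk_matEnd_mem I ι S m (X := galMat I.model σ - 1)
        (by rw [map_sub, map_one, H σ hσ, sub_self]) v s
      rw [map_sub, map_one, LinearMap.sub_apply, Module.End.one_apply] at this
      exact this
  · ext i j
    refine hU _ fun w => ?_
    have hbot := Ideal.iInf_pow_smul_eq_bot_of_isLocalRing (R := TLoc I ι S m) (M := U)
      (pIdeal I ι S m) (by rwa [Ne, Ideal.span_singleton_eq_top])
    refine (Submodule.eq_bot_iff _).mp hbot _ ((Submodule.mem_iInf _).mpr fun n => ?_)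
    refine split_entry_mem φ (∑ l, algebraMap O (TLoc I ι S m) (ι (z l)) • R (g l))
      (pIdeal I ι S m ^ n) (fun w' => ?_) i j w
    have e := sum_action φ.toLinearMap (fun l => algebraMap O (TLoc I ι S m) (ι (z l)))
      (fun l => R (g l)) w'
    simp only [LinearEquiv.coe_coe, ← hact] at e
    rw [← e]
    induction φ w' using LocalizedModule.induction_on with
    | _ v s =>
      rw [sum_tGal_mk]
      obtain ⟨A, hA, hmon, hmod⟩ := hrel n
      obtain ⟨a, ha⟩ := IsLocalization.map_units (TLoc I ι S m)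
        (⟨⟨matEnd I ι A, matEnd_mem I ι S hA⟩, hmon⟩ : latMonoid I ι S m)
      have hmem := mk_matEnd_mem I ι S m hmod v s
      rw [map_mul, Module.End.mul_apply] at hmem
      have e2 : ∀ x : Lat I O, LocalizedModule.mk (matEnd I ι A x) s =
          (a : TLoc I ι S m) • LocalizedModule.mk x s := fun x => by
        rw [ha, algebraMap_smul, LocalizedModule.smul'_mk]; rfl
      rw [e2] at hmem
      have h3 := Submodule.smul_mem _ (↑a⁻¹ : TLoc I ι S m) hmem
      rw [smul_smul, Units.inv_mul, one_smul] at h3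
      exact h3

/-- The representation. -/
theorem exists_rep [IsNoetherianRing O] (hp2 : p ≠ 2)
    (hNS : ∀ q : ℕ, q.Prime → q ∣ N * p → q ∈ S)
    (hker : RingHom.ker (latHom I ι S) ≤ m) (hlam : RingHom.ker lam = m)
    (hpk : (p : k) = 0) (ρbar : GQ →* Matrix (Fin 2) (Fin 2) k)
    (hfin : ∃ L : IntermediateField ℚ (AlgebraicClosure ℚ), FiniteDimensional ℚ L ∧
      ∀ σ : GQ, (∀ a ∈ L, σ a = a) → ρbar σ = 1)
    (htr : ∀ (ℓ : ℕ) (hℓ : ℓ.Prime) (hS : ℓ ∉ S), ∀ A : ValuationSubring (AlgebraicClosure ℚ),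
      A.LiesOverPrime ℓ → ∀ σ : GQ, A.IsFrobeniusAt σ ℓ →
        (ρbar σ).trace = lam (MvPolynomial.X ⟨⟨ℓ, hℓ⟩, hS⟩))
    (hirr : ∀ v : Fin 2 → k, v ≠ 0 → ∃ g, ∀ a : k, ρbar g *ᵥ v ≠ a • v) :
    ∃ R : MRep (TLoc I ι S m), IsTorsionRep I ι S m R := by
  classical
  have := isLocalRing_tLoc I ι S m hker
  obtain ⟨res, hres⟩ := exists_residual I ι S m lam hker hlam
  have htr' := residual_trace I ι S m lam hNS res hres hpk ρbar hfin htr
  -- units are detected by the residual map
  have hresm : ∀ x, res x ≠ 0 → IsUnit x := by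
    intro x hx
    obtain ⟨⟨a, s⟩, rfl⟩ := IsLocalization.mk'_surjective (latMonoid I ι S m) x
    obtain ⟨P, rfl⟩ := latHom_surjective I ι S a
    dsimp only at hx ⊢
    rw [IsLocalization.mk'_eq_mul_mk'_one, map_mul] at hx
    have hP : P ∉ m := fun h => left_ne_zero_of_mul hx (by
      show res (tHom I ι S m P) = 0
      rw [hres]; exact RingHom.mem_ker.mp (hlam.symm ▸ h))
    rw [IsLocalization.mk'_eq_mul_mk'_one]
    exact (isUnit_tHom I ι S m hP).mul (IsUnit.of_mul_eq_one
      (algebraMap (LatAlg I ι S) (TLoc I ι S m) (s : LatAlg I ι S))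
      (by rw [IsLocalization.mk'_spec, map_one]))
  have h2k : (2 : k) ≠ 0 := by
    intro h
    have hchar := (CharP.charP_iff_prime_eq_zero (R := k) (Fact.out : p.Prime)).mpr hpk
    exact hp2 ((Nat.prime_dvd_prime_iff_eq (Fact.out : p.Prime) Nat.prime_two).mp
      ((CharP.cast_eq_zero_iff k p 2).mp (by exact_mod_cast h)))
  have h2 : IsUnit (2 : TLoc I ι S m) := hresm _ (by rw [map_ofNat]; exact h2k)
  obtain ⟨u, hu⟩ := h2
  have hhlf : 2 * (↑u⁻¹ : TLoc I ι S m) = 1 := by rw [← hu]; exact u.mul_inv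
  obtain ⟨g₀, h₀, hX, hY⟩ := exists_unit_entries I ι S m res hresm h2k _ hhlf complexConjugation
    complexConjugation_mul_self (tTrace_complexConjugation I ι S m) ρbar htr' hirr
  obtain ⟨R, U, φ, hRtr, hRdet, hact⟩ := exists_matrices_of_quadratic (tTrace I ι S m) _
    complexConjugation (quadraticAction_tGal I ι S m) (tLoc_faithful I ι S m) hhlf
    (tTrace_complexConjugation I ι S m)
    (by
      show algebraMap O (TLoc I ι S m) (ι (epsilonPadic p complexConjugation : ℤ_[p])) = -1
      rw [epsilon_complexConjugation, map_neg, map_neg, map_one, map_one]) hX hY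
  obtain ⟨hcont, htrans⟩ := cont_and_transfer I ι S m R U φ hact (fun hu' => by
    have := (hu'.map res).ne_zero
    rw [map_natCast, hpk] at this
    exact this rfl)
  exact ⟨R, ⟨hRtr, hRdet, hcont, htrans⟩⟩

end Fermat.Agent.Engine.TRep
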