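import Fermat.Agent.Engine.TRep.TwistChain
import Fermat.Agent.Engine.TRep.Rep

/-!
# The representation at a level with characters at auxiliary primes

`Λ` reduced without torsion, `ψ q` of odd order for `q ∈ Q` (primes exactly dividing `M`).
`smul_eq_zero_of_twist`: what kills the lattice algebra of a level divisible by `M ∏ q` kills the
non-Eisenstein part of `H¹(Γ₀(M), Λ(∏ ψ²))` after the twist `X_ℓ ↦ (∏ ψ q (ℓ))⁻¹ X_ℓ`.
-/

set_option autoImplicit false

noncomputable section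

namespace Fermat.Agent.Engine.TRep

open EigenRep HeckeModule EigenSystems

section Poly

variable {O : Type} [CommRing O] {S : Finset ℕ}

/-- Scale the variables. -/
def twistPoly (d : AwayIndex (↑S : Set ℕ) → O) :
    AwayPoly O (↑S : Set ℕ) →ₐ[O] AwayPoly O (↑S : Set ℕ) :=
  MvPolynomial.aeval fun l => MvPolynomial.C (d l) * MvPolynomial.X l

@[simp] theorem twistPoly_X (d : AwayIndex (↑S : Set ℕ) → O) (l : AwayIndex (↑S : Set ℕ)) :
    twistPoly d (MvPolynomial.X l) = MvPolynomial.C (d l) * MvPolynomial.X l :=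
  MvPolynomial.aeval_X _ _

theorem twistPoly_map {K : Type} [CommRing K] (θ : O →+* K) (d : AwayIndex (↑S : Set ℕ) → O)
    (P : AwayPoly O (↑S : Set ℕ)) :
    MvPolynomial.map θ (twistPoly d P) = twistPoly (fun l => θ (d l)) (MvPolynomial.map θ P) := by
  induction P using MvPolynomial.induction_on with
  | C a =>
    rw [MvPolynomial.map_C, ← MvPolynomial.algebraMap_eq, AlgHom.commutes,
      MvPolynomial.algebraMap_eq, MvPolynomial.map_C, ← MvPolynomial.algebraMap_eq, AlgHom.commutes]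
  | add P Q hP hQ => rw [map_add, map_add, map_add, map_add, hP, hQ]
  | mul_X P l hP =>
    rw [map_mul, map_mul, hP, twistPoly_X, map_mul, map_mul, MvPolynomial.map_C, MvPolynomial.map_X,
      map_mul, twistPoly_X]

/-- A twist congruent to one modulo `m` preserves `m`. -/
theorem comap_twistPoly (d : AwayIndex (↑S : Set ℕ) → O) (m : Ideal (AwayPoly O (↑S : Set ℕ)))
    (hd : ∀ l, MvPolynomial.C (d l - 1) ∈ m) : m.comap (twistPoly d) = m := by
  have key : ∀ P, twistPoly d P - P ∈ m := by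
    intro P
    induction P using MvPolynomial.induction_on with
    | C a => rw [← MvPolynomial.algebraMap_eq, AlgHom.commutes, sub_self]; exact zero_mem m
    | add P Q hP hQ => rw [map_add, add_sub_add_comm]; exact add_mem hP hQ
    | mul_X P l hP =>
      rw [map_mul, twistPoly_X, show twistPoly d P * (MvPolynomial.C (d l) * MvPolynomial.X l) -
        P * MvPolynomial.X l = (twistPoly d P - P) * (MvPolynomial.C (d l) * MvPolynomial.X l) +
          P * MvPolynomial.X l * MvPolynomial.C (d l - 1) by rw [map_sub, map_one]; ring]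
      exact add_mem (Ideal.mul_mem_right _ _ hP) (Ideal.mul_mem_left _ _ (hd l))
  ext P
  rw [Ideal.mem_comap]
  exact ⟨fun h => by simpa using sub_mem h (key P), fun h => by simpa using add_mem (key P) h⟩

/-- A map intertwining the operators up to scalars intertwines the scaled polynomials. -/
theorem twisted_smul {N N' : ℕ} {A B : Type} [AddCommGroup A] [Module O A] [AddCommGroup B]
    [Module O B] {ρ : Representation O (ZMod N)ˣ A} {ρ' : Representation O (ZMod N')ˣ B}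
    (Φ : Coh1 ρ →ₗ[O] Coh1 ρ') (c d : AwayIndex (↑S : Set ℕ) → O)
    (hΦ : ∀ (l : AwayIndex (↑S : Set ℕ)) u, Φ (heckeGen ρ (l : Nat.Primes) u) = c l • heckeGen ρ' (l : Nat.Primes) (Φ u))
    (hdc : ∀ l, d l * c l = 1) (P : AwayPoly O (↑S : Set ℕ)) (u : Coh1 ρ) :
    Φ (awayIncl O (↑S : Set ℕ) (twistPoly d P) • u) = awayIncl O (↑S : Set ℕ) P • Φ u := by
  induction P using MvPolynomial.induction_on generalizing u with
  | C a =>
    rw [← MvPolynomial.algebraMap_eq, AlgHom.commutes, AlgHom.commutes, algebraMap_smul,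
      algebraMap_smul, map_smul]
  | add P Q hP hQ => rw [map_add, map_add, map_add, add_smul, add_smul, map_add, hP, hQ]
  | mul_X P l hP =>
    rw [map_mul, map_mul, map_mul, mul_smul, mul_smul, hP]
    congr 1
    rw [twistPoly_X, map_mul, ← MvPolynomial.algebraMap_eq, AlgHom.commutes, mul_smul,
      algebraMap_smul, map_smul, awayIncl_X, heckePoly_smul_def, heckeHom_X, hΦ, smul_smul, hdc,
      one_smul, heckePoly_smul_def, heckeHom_X]

end Poly

variable {Λ : Type} [CommRing Λ] (ψ : ∀ q : ℕ, (ZMod q)ˣ →* Λ) (Q : Finset ℕ)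

/-- The inverse of the product of the characters at a prime outside `S`. -/
def invChar (S : Finset ℕ) (l : AwayIndex (↑S : Set ℕ)) : Λ :=
  charProd (fun q => (ψ q).comp invMonoidHom) Q ((l : Nat.Primes) : ℕ)

theorem invChar_mul (S : Finset ℕ) (l : AwayIndex (↑S : Set ℕ)) :
    invChar ψ Q S l * charProd ψ Q ((l : Nat.Primes) : ℕ) = 1 := by
  rw [invChar, charProd, charProd, ← Finset.prod_mul_distrib]
  refine Finset.prod_eq_one fun q _ => ?_
  unfold charAt
  split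
  · rw [MonoidHom.comp_apply, ← map_mul]
    simp
  · rw [one_mul]

variable {M M' p : ℕ} [NeZero M] [NeZero M'] [Fact p.Prime]
  (hes : EichlerShimuraRelations M' p) (ι : ℤ_[p] →+* Λ) (S : Finset ℕ)
  {r : ℕ} [hr : Fact r.Prime]

omit [NeZero M] in
/-- Over a field: killing the lattice of level `M ∏ q` kills the twisted classes of level `M`. -/
theorem smul_eq_zero_of_twist_field [NeZero M] {K : Type} [Field K] [CharZero K]
    (ψ : ∀ q : ℕ, (ZMod q)ˣ →* K) (ι : ℤ_[p] →+* K) (hp2 : p ≠ 2) (hp3 : ThreeOK p M')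
    (hM' : M * ∏ q ∈ Q, q ∣ M') (hQ : ∀ q ∈ Q, q.Prime ∧ q ∣ M ∧ ¬ q * q ∣ M)
    (hψ : ∀ q ∈ Q, ∀ u, ∃ k : ℕ, Odd k ∧ ψ q u ^ k = 1)
    (hS : ∀ ℓ : ℕ, ℓ.Prime → ℓ ∣ M' → ℓ ∈ S) (hr1 : (r : ZMod M') = 1) (hrp : r ≠ p)
    {P : AwayPoly K (↑S : Set ℕ)} (hP : latHom (stdInputs hes) ι S P = 0)
    (u : Coh1 (scalarRep (charSq ψ Q M) K)) :
    (eisen K r * awayIncl K (↑S : Set ℕ) (twistPoly (invChar ψ Q S) P)) • u = 0 := by
  have h1 : 1 * (M * ∏ q ∈ Q, q) ∣ M' := by rwa [one_mul]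
  obtain ⟨Φ₀, hinj₀, hΦ₀⟩ := exists_twistChain ψ Q M _ rfl hQ hψ
  have hrep : IsIntertwining
      (pullRep (trivRep (M * ∏ q ∈ Q, q) K K) (dvd_of_mul_left_dvd h1)) (trivRep M' K K)
      LinearMap.id := fun _ _ => rfl
  have e : trivRep (M * ∏ q ∈ Q, q) K K = scalarRep (1 : (ZMod (M * ∏ q ∈ Q, q))ˣ →* K) K :=
    MonoidHom.ext fun u => (scalarRep_one u).symm
  have hdeg : Function.Injective (degen (trivRep (M * ∏ q ∈ Q, q) K K) one_ne_zero h1) := by
    rw [e]
    exact degen_one_injective h1 _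
  obtain ⟨Φ, hinj, hΦ⟩ : ∃ Φ : Coh1 (scalarRep (charSq ψ Q M) K) →ₗ[K] Coh1 (trivRep M' K K),
      Function.Injective Φ ∧ ∀ (ℓ : ℕ) [Fact ℓ.Prime], ¬ ℓ ∣ M' → ∀ u,
        Φ (heckeOp _ ℓ u) = charProd ψ Q ℓ • heckeOp _ ℓ (Φ u) := by
    refine ⟨((cohMapO LinearMap.id hrep).comp (degen _ one_ne_zero h1)).comp Φ₀, ?_, ?_⟩
    · refine ((Function.LeftInverse.injective (g := cohMapO (ρA := trivRep M' K K)
        (ρB := pullRep (trivRep (M * ∏ q ∈ Q, q) K K) (dvd_of_mul_left_dvd h1)) LinearMap.id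
        fun u a => (hrep u a).symm) fun v => ?_).comp hdeg).comp hinj₀
      obtain ⟨c, rfl⟩ := toCoh_surjective _ v
      rfl
    · intro ℓ _ hℓ u
      have : NeZero ℓ := ⟨(Fact.out : ℓ.Prime).ne_zero⟩
      simp only [LinearMap.comp_apply]
      rw [hΦ₀ ℓ (fun h => hℓ (h.trans hM')), map_smul, map_smul,
        degen_heckeOp _ one_ne_zero h1 (Nat.Prime.not_dvd_one Fact.out) (fun h => absurd h hℓ),
        cohMapO_heckeOp]
  apply hinj
  rw [map_zero, mul_smul]
  have hrM : ¬ r ∣ M' := not_dvd_of_natCast_eq_one hr1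
  have hdvd : ∀ q ∈ Q, q ∣ M' := fun q hq => ((hQ q hq).2.1.mul_right _).trans hM'
  have hr' : charProd ψ Q r = 1 := charProd_eq_one ψ fun q hq => by
    have h := congrArg (ZMod.castHom (hdvd q hq) (ZMod q)) hr1
    rwa [map_natCast, map_one] at h
  have he : ∀ v, Φ (eisen K r • v) = eisen K r • Φ v := fun v => by
    have : NeZero r := ⟨hr.out.ne_zero⟩
    rw [eisen_smul, eisen_smul, map_sub, map_smul, hΦ r hrM, hr', one_smul]
  have hl : ∀ (l : AwayIndex (↑S : Set ℕ)) v, Φ (heckeGen _ (l : Nat.Primes) v) =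
      charProd ψ Q ((l : Nat.Primes) : ℕ) • heckeGen _ (l : Nat.Primes) (Φ v) := fun l v => by
    have : Fact (((l : Nat.Primes) : ℕ)).Prime := ⟨(l : Nat.Primes).2⟩
    exact hΦ _ (fun h => l.2 (hS _ (l : Nat.Primes).2 h)) v
  rw [he, twisted_smul Φ _ _ hl (invChar_mul ψ Q S), ← mul_smul]
  exact smul_eq_zero_of_latHom hes ι S hp2 hp3 hr1 hrp hP (Φ u)

/-- Killing the lattice of level `M ∏ q` kills the twisted classes of level `M`. -/
theorem smul_eq_zero_of_twist [IsReduced Λ] [Module.IsTorsionFree ℤ Λ] (hp2 : p ≠ 2) (hp3 : ThreeOK p M')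
    (hM' : M * ∏ q ∈ Q, q ∣ M') (hQ : ∀ q ∈ Q, q.Prime ∧ q ∣ M ∧ ¬ q * q ∣ M)
    (hψ : ∀ q ∈ Q, ∀ u, ∃ k : ℕ, Odd k ∧ ψ q u ^ k = 1)
    (hS : ∀ ℓ : ℕ, ℓ.Prime → ℓ ∣ M' → ℓ ∈ S) (hr1 : (r : ZMod M') = 1) (hrp : r ≠ p)
    {P : AwayPoly Λ (↑S : Set ℕ)} (hP : latHom (stdInputs hes) ι S P = 0)
    (u : Coh1 (scalarRep (charSq ψ Q M) Λ)) :
    (eisen Λ r * (eisen Λ r * awayIncl Λ (↑S : Set ℕ) (twistPoly (invChar ψ Q S) P))) • u = 0 := by
  set a : HeckePoly Λ := eisen Λ r * awayIncl Λ (↑S : Set ℕ) (twistPoly (invChar ψ Q S) P) with ha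
  rw [mul_smul]
  obtain ⟨c₀, rfl⟩ := toCoh_surjective _ u
  obtain ⟨c', hc'⟩ := toCoh_surjective _ (a • toCoh (scalarRep (charSq ψ Q M) Λ) c₀)
  have hr1' : (r : ZMod M) = 1 := by
    have h := congrArg (ZMod.castHom ((dvd_mul_right M _).trans hM' : M ∣ M') (ZMod M)) hr1
    rwa [map_natCast, map_one] at h
  rw [← hc']
  refine eisen_smul_eq_zero_of_fields _ hr1' c' fun K _ _ θ => ?_
  have key : ∀ χ : (ZMod M)ˣ →* K, χ = charSq (fun q => θ.toMonoidHom.comp (ψ q)) Q M →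
      ∀ v : Coh1 (scalarRep χ K), MvPolynomial.map θ a • v = 0 := by
    rintro χ rfl v
    have hd : (fun l => θ (invChar ψ Q S l)) =
        invChar (fun q => θ.toMonoidHom.comp (ψ q)) Q S :=
      funext fun l => (charProd_map (fun q => (ψ q).comp invMonoidHom) θ.toMonoidHom Q _).symm
    rw [ha, map_mul, eisen_map, awayIncl_map, twistPoly_map, hd]
    refine smul_eq_zero_of_twist_field Q hes S _ (θ.comp ι) hp2 hp3 hM' hQ (fun q hq u => ?_) hS
      hr1 hrp (latHom_map_eq_zero _ θ ι S hP) v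
    obtain ⟨k, hk, hu⟩ := hψ q hq u
    exact ⟨k, hk, by
      show θ (ψ q u) ^ k = 1
      rw [← map_pow, hu, map_one]⟩
  have hz := (push_smul (charSq ψ Q M) θ a c₀ c' hc'.symm).trans
    (key _ (charSq_map ψ θ.toMonoidHom Q M).symm _)
  obtain ⟨b, hb⟩ := (toCoh_eq_zero_iff _).mp hz
  exact ⟨b, hb⟩

end Fermat.Agent.Engine.TRep
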