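import Fermat.Agent.HeckeModule.Finite
import Fermat.Agent.TwoAdic.Modules.LocCompare

/-!
# A finer localisation is a natural direct summand

Over a complete local ring the classes localised at a larger monoid are the submodule of those
classes lying in the image of every element of that monoid.  This submodule is preserved by every
linear map commuting with the operators, so the inclusion is natural.
-/

set_option autoImplicit false
set_option linter.unusedSectionVars false

noncomputable section

namespace Fermat.Agent.Engine.TRep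

open HeckeModule IsLocalRing

variable {O : Type} [CommRing O] [IsLocalRing O] [IsNoetherianRing O]
  [IsAdicComplete (maximalIdeal O) O] {S : Set ℕ}

section Idempotent

variable (E : Type) [AddCommGroup E] [Module O E] [Module (HeckePoly O) E]
  [IsScalarTower O (HeckePoly O) E] [Module.Finite O E]
  (n : Ideal (AwayPoly O S)) [n.IsPrime]

/-- An element outside a maximal ideal has an idempotent multiple outside it. -/
theorem exists_idempotent_mul
    (hn : (maximalIdeal O).map (algebraMap O (AwayPoly O S)) ≤ n) {s : AwayPoly O S} (hs : s ∉ n) :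
    ∃ w : AwayPoly O S, s * w ∉ n ∧
      ∀ x : E, awayIncl O S (s * w) • awayIncl O S (s * w) • x = awayIncl O S (s * w) • x := by
  classical
  let act : AwayPoly O S →ₐ[O] Module.End O E :=
    (Algebra.lsmul O O E (A := HeckePoly O)).comp (awayIncl O S)
  by_cases hker : RingHom.ker act.rangeRestrict ≤ n
  swap
  · obtain ⟨t, ht, htn⟩ := SetLike.not_le_iff_exists.mp hker
    refine ⟨t, fun h => (Ideal.IsPrime.mem_or_mem inferInstance h).elim hs htn, fun x => ?_⟩
    have h0 : ∀ y : E, awayIncl O S t • y = 0 := fun y =>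
      LinearMap.congr_fun (congrArg Subtype.val (RingHom.mem_ker.mp ht)) y
    rw [map_mul, mul_smul, mul_smul, h0, h0, smul_zero]
  let T : Type := act.range
  let π : AwayPoly O S →ₐ[O] T := act.rangeRestrict
  have hπ : Function.Surjective π := act.rangeRestrict_surjective
  let : CommRing T :=
    { (inferInstance : Ring T) with
      mul_comm := fun a b => by
        obtain ⟨a, rfl⟩ := hπ a
        obtain ⟨b, rfl⟩ := hπ b
        rw [← map_mul, mul_comm, map_mul] }
  let : Algebra O T := Algebra.ofModule' (fun r x => by simp) (fun r x => by simp)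
  have : Module.Finite O T := by
    obtain ⟨k, v, hv⟩ := Module.Finite.exists_fin (R := O) (M := E)
    let L : T →ₗ[O] (Fin k → E) :=
      LinearMap.pi fun i => (LinearMap.applyₗ (v i)) ∘ₗ act.range.val.toLinearMap
    refine Module.Finite.of_injective L ((injective_iff_map_eq_zero L).mpr fun f hf => ?_)
    refine Subtype.ext (LinearMap.ext_on hv ?_)
    rintro _ ⟨i, rfl⟩
    exact congrFun hf i
  let P : Ideal T := n.map (π : AwayPoly O S →+* T)
  have hcomap : P.comap (π : AwayPoly O S →+* T) = n :=
    (Ideal.comap_map_of_surjective (π : AwayPoly O S →+* T) hπ _).trans (sup_eq_left.mpr hker)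
  have hP : P.IsPrime := Ideal.map_isPrime_of_surjective hπ hker
  have hPmax : P.IsMaximal := by
    have : Algebra.IsIntegral O T := Algebra.IsIntegral.of_finite O T
    refine Ideal.isMaximal_of_isIntegral_of_isMaximal_comap (R := O) P ?_
    have heq : P.comap (algebraMap O T) = maximalIdeal O := by
      refine ((maximalIdeal.isMaximal O).eq_of_le (Ideal.comap_ne_top _ hP.ne_top)
        fun r hr => ?_).symm
      have h1 : algebraMap O (AwayPoly O S) r ∈ P.comap (π : AwayPoly O S →+* T) := by
        rw [hcomap]; exact hn (Ideal.mem_map_of_mem _ hr)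
      rw [Ideal.mem_comap] at h1 ⊢
      convert h1 using 1
      exact (π.commutes r).symm
    rw [heq]
    infer_instance
  obtain ⟨-, hbij, -, -⟩ :=
    Algebra.finite_maximalSpectrum_and_bijective_localization_of_module_finite (𝒪 := O) T
  let I₀ : MaximalSpectrum T := ⟨P, hPmax⟩
  have hsP : π s ∉ P := fun h' => hs (hcomap.le h')
  have hu : IsUnit (algebraMap T (Localization.AtPrime I₀.asIdeal) (π s)) :=
    IsLocalization.map_units _ (⟨π s, hsP⟩ : I₀.asIdeal.primeCompl)
  obtain ⟨w', hw⟩ := hbij.2 (Pi.single I₀ (↑hu.unit⁻¹))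
  obtain ⟨w, hw'⟩ := hπ w'
  have hwI : ∀ I : MaximalSpectrum T, algebraMap T (Localization.AtPrime I.asIdeal) w'
      = Pi.single (M := fun J : MaximalSpectrum T => Localization.AtPrime J.asIdeal) I₀
        (↑hu.unit⁻¹ : Localization.AtPrime I₀.asIdeal) I := fun I => congrFun hw I
  have he : π (s * w) * π (s * w) = π (s * w) := by
    refine hbij.1 (funext fun I => ?_)
    simp only [RingHom.pi_apply, map_mul, hw', hwI]
    rcases eq_or_ne I I₀ with rfl | hne
    · simp only [Pi.single_eq_same]
      rw [IsUnit.mul_val_inv, one_mul]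
    · simp [Pi.single_eq_of_ne hne]
  refine ⟨w, fun hin => ?_, fun x => LinearMap.congr_fun (congrArg Subtype.val he) x⟩
  have h1 : ¬ IsUnit (algebraMap T (Localization.AtPrime I₀.asIdeal) (π (s * w))) :=
    fun hunit => (IsLocalization.AtPrime.isUnit_to_map_iff _ I₀.asIdeal _).mp hunit
      (Ideal.mem_map_of_mem (π : AwayPoly O S →+* T) hin)
  apply h1
  rw [map_mul, map_mul, hw', hwI, Pi.single_eq_same, IsUnit.mul_val_inv]
  exact isUnit_one

end Idempotent

section Core

variable (E : Type) [AddCommGroup E] [Module O E] [Module (HeckePoly O) E]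
  [IsScalarTower O (HeckePoly O) E] (P : Submonoid (HeckePoly O))

/-- The elements in the image of every element of the monoid. -/
def relCore : Submodule O E :=
  ⨅ s : P, LinearMap.range (Algebra.lsmul O O E (A := HeckePoly O) (s : HeckePoly O))

theorem mem_relCore {x : E} : x ∈ relCore E P ↔ ∀ s ∈ P, ∃ y : E, s • y = x := by
  simp [relCore, Submodule.mem_iInf, LinearMap.mem_range]

variable {E P}

/-- Linear maps commuting with the monoid preserve the core. -/
theorem map_mem_relCore {E' : Type} [AddCommGroup E'] [Module O E'] [Module (HeckePoly O) E']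
    [IsScalarTower O (HeckePoly O) E'] (f : E →ₗ[O] E')
    (hf : ∀ s ∈ P, ∀ x, f (s • x) = s • f x) {x : E} (hx : x ∈ relCore E P) :
    f x ∈ relCore E' P := by
  refine (mem_relCore E' P).mpr fun s hs => ?_
  obtain ⟨y, rfl⟩ := (mem_relCore E P).mp hx s hs
  exact ⟨f y, (hf s hs y).symm⟩

theorem smul_mem_relCore (a : HeckePoly O) {x : E} (hx : x ∈ relCore E P) :
    a • x ∈ relCore E P :=
  map_mem_relCore (Algebra.lsmul O O E (A := HeckePoly O) a) (fun s _ y => smul_comm a s y) hx

end Core

variable {N : ℕ} [NeZero N] {A : Type} [AddCommGroup A] [Module O A] [Module.Finite O A]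
  {ρ : Representation O (ZMod N)ˣ A} {P : Submonoid (HeckePoly O)}
  [Module.Finite O (CohLoc P ρ)] {n : Ideal (AwayPoly O S)} [n.IsPrime]
  (hn : (maximalIdeal O).map (algebraMap O (AwayPoly O S)) ≤ n) (hP : P ≤ awayMonoid n)

include hn in
/-- **The core is the finer localisation.** -/
theorem locMono_relCore_bijective :
    Function.Bijective fun x : relCore (CohLoc P ρ) (awayMonoid n) =>
      TwoAdic.locMono (ρ := ρ) hP (x : CohLoc P ρ) := by
  classical
  set V := CohLoc P ρ
  set pr := (TwoAdic.locMono (ρ := ρ) hP).restrictScalars O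
  -- the kernel is killed by one element outside the prime
  have hkill : ∀ x : V, pr x = 0 → ∃ s ∈ awayMonoid n, s • x = 0 := by
    intro x hx
    induction x using LocalizedModule.induction_on with
    | _ u t =>
      rw [show pr (LocalizedModule.mk u t) = TwoAdic.locMono hP (LocalizedModule.mk u t) from rfl,
        TwoAdic.locMono_mk, IsLocalizedModule.mk_eq_mk', IsLocalizedModule.mk'_eq_zero'] at hx
      obtain ⟨s, hs⟩ := hx
      refine ⟨_, s.2, ?_⟩
      rw [Submonoid.smul_def] at hs
      rw [LocalizedModule.smul'_mk, hs, LocalizedModule.zero_mk]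
  obtain ⟨s₀, hs₀P, hs₀⟩ : ∃ s ∈ awayMonoid n, ∀ x : V, pr x = 0 → s • x = 0 := by
    have : IsNoetherian O V := isNoetherian_of_isNoetherianRing_of_finite O V
    obtain ⟨gen, hgen⟩ := IsNoetherian.noetherian (LinearMap.ker pr)
    have hmem : ∀ g ∈ gen, pr g = 0 := fun g hg =>
      LinearMap.mem_ker.mp (hgen ▸ Submodule.subset_span hg)
    choose s hsP hs using fun g : gen => hkill g (hmem g g.2)
    refine ⟨∏ g, s g, prod_mem fun g _ => hsP g, fun x hx => ?_⟩
    have hx' : x ∈ Submodule.span O (gen : Set V) := hgen ▸ LinearMap.mem_ker.mpr hx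
    clear hx
    induction hx' using Submodule.span_induction with
    | mem g hg =>
      rw [← Finset.mul_prod_erase Finset.univ s (Finset.mem_univ ⟨g, hg⟩), mul_comm, mul_smul, hs,
        smul_zero]
    | zero => exact smul_zero _
    | add a b _ _ ha hb => rw [smul_add, ha, hb, add_zero]
    | smul r a _ ha => rw [smul_comm, ha, smul_zero]
  obtain ⟨a₀, ha₀, ha₀e⟩ := hs₀P
  replace ha₀e : awayIncl O S a₀ = s₀ := ha₀e
  subst ha₀e
  obtain ⟨w₀, he₀, hid₀⟩ := exists_idempotent_mul V n hn ha₀
  set e₀ := awayIncl O S (a₀ * w₀)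
  have hke : ∀ x : V, pr x = 0 → e₀ • x = 0 := fun x hx => by
    show awayIncl O S (a₀ * w₀) • x = 0
    rw [map_mul, mul_comm, mul_smul, hs₀ x hx, smul_zero]
  -- an idempotent of the monoid is one on the finer localisation
  have hone : ∀ s ∈ awayMonoid n, ∀ x : V, s • s • x = s • x → pr (s • x) = pr x := fun s hs x h => by
    refine (TwoAdic.bijective_smul_of_mem (ρ := ρ) hs).1 ?_
    show s • TwoAdic.locMono hP (s • x) = s • TwoAdic.locMono hP x
    rw [← map_smul, ← map_smul, h]
  refine ⟨fun x y hxy => Subtype.ext (sub_eq_zero.mp ?_), fun z => ?_⟩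
  · have h0 : pr ((x : V) - y) = 0 := by rw [map_sub, sub_eq_zero]; exact hxy
    obtain ⟨v, hv⟩ := (mem_relCore V _).mp (sub_mem x.2 y.2) e₀ (mem_awayMonoid he₀)
    rw [← hv, ← hid₀ v, hv]
    exact hke _ h0
  · obtain ⟨v, rfl⟩ : ∃ v : V, pr v = z := by
      obtain ⟨u, rfl⟩ := toLoc_surjective ρ n hn z
      exact ⟨toLoc P ρ u, by
        show TwoAdic.locMono hP _ = _
        rw [toLoc, LocalizedModule.mkLinearMap_apply, TwoAdic.locMono_mk]
        rfl⟩
    refine ⟨⟨e₀ • v, (mem_relCore V _).mpr fun s hs => ?_⟩, hone _ (mem_awayMonoid he₀) v (hid₀ v)⟩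
    obtain ⟨a, ha, hae⟩ := hs
    replace hae : awayIncl O S a = s := hae
    subst hae
    obtain ⟨w, he, hid⟩ := exists_idempotent_mul V n hn ha
    refine ⟨awayIncl O S w • e₀ • v, ?_⟩
    rw [← mul_smul, ← map_mul, smul_comm, ← sub_eq_zero, ← smul_sub]
    exact hke _ (by rw [map_sub, hone _ (mem_awayMonoid he) v (hid v), sub_self])

/-- The inclusion of the finer localisation. -/
def relIncl : CohLoc (awayMonoid n) ρ →ₗ[O] CohLoc P ρ :=
  (relCore (CohLoc P ρ) (awayMonoid n)).subtype.comp
    (LinearEquiv.ofBijective (((TwoAdic.locMono (ρ := ρ) hP).restrictScalars O).comp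
      (relCore (CohLoc P ρ) (awayMonoid n)).subtype)
      (locMono_relCore_bijective hn hP)).symm.toLinearMap

theorem locMono_relIncl (z : CohLoc (awayMonoid n) ρ) :
    TwoAdic.locMono (ρ := ρ) hP (relIncl hn hP z) = z :=
  (LinearEquiv.ofBijective (((TwoAdic.locMono (ρ := ρ) hP).restrictScalars O).comp
    (relCore (CohLoc P ρ) (awayMonoid n)).subtype)
    (locMono_relCore_bijective hn hP)).apply_symm_apply z

theorem relIncl_mem (z : CohLoc (awayMonoid n) ρ) :
    relIncl hn hP z ∈ relCore (CohLoc P ρ) (awayMonoid n) :=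
  Subtype.mem _

/-- The inclusion is the unique section with values in the core. -/
theorem eq_relIncl {x : CohLoc P ρ} (hx : x ∈ relCore (CohLoc P ρ) (awayMonoid n)) :
    relIncl hn hP (TwoAdic.locMono (ρ := ρ) hP x) = x :=
  congrArg Subtype.val (a₁ := ⟨_, relIncl_mem hn hP _⟩) (a₂ := ⟨x, hx⟩)
    ((locMono_relCore_bijective (ρ := ρ) hn hP).1 (locMono_relIncl hn hP _))

theorem relIncl_smul (a : HeckePoly O) (z : CohLoc (awayMonoid n) ρ) :
    relIncl hn hP (a • z) = a • relIncl hn hP z := by
  conv_lhs => rw [← locMono_relIncl hn hP z, ← map_smul]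
  exact eq_relIncl hn hP (smul_mem_relCore a (relIncl_mem hn hP z))

section Map

variable {N' : ℕ} [NeZero N'] {A' : Type} [AddCommGroup A'] [Module O A'] [Module.Finite O A']
  {ρ' : Representation O (ZMod N')ˣ A'} [Module.Finite O (CohLoc P ρ')]
  (f : CohLoc P ρ →ₗ[O] CohLoc P ρ')

/-- A map on the finer localisations. -/
def relMap : CohLoc (awayMonoid n) ρ →ₗ[O] CohLoc (awayMonoid n) ρ' :=
  ((TwoAdic.locMono (ρ := ρ') hP).restrictScalars O).comp (f.comp (relIncl hn hP))

variable (hf : ∀ s ∈ awayMonoid n, ∀ x, f (s • x) = s • f x)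

include hf in
theorem relIncl_relMap (z : CohLoc (awayMonoid n) ρ) :
    relIncl hn hP (relMap hn hP f z) = f (relIncl hn hP z) :=
  eq_relIncl hn hP (map_mem_relCore f hf (relIncl_mem hn hP z))

include hf in
theorem relMap_locMono (x : CohLoc P ρ) :
    relMap hn hP f (TwoAdic.locMono (ρ := ρ) hP x) = TwoAdic.locMono (ρ := ρ') hP (f x) := by
  set y := relIncl hn hP (TwoAdic.locMono (ρ := ρ) hP x)
  have h0 : TwoAdic.locMono (ρ := ρ) hP (y - x) = 0 := by rw [map_sub, locMono_relIncl, sub_self]
  show TwoAdic.locMono hP (f y) = _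
  rw [← sub_eq_zero, ← map_sub, ← map_sub]
  revert h0
  generalize y - x = d
  intro h0
  induction d using LocalizedModule.induction_on with
  | _ u t =>
    rw [TwoAdic.locMono_mk, IsLocalizedModule.mk_eq_mk', IsLocalizedModule.mk'_eq_zero'] at h0
    obtain ⟨s, hs⟩ := h0
    refine (TwoAdic.bijective_smul_of_mem (ρ := ρ') s.2).1 ?_
    show (s : HeckePoly O) • TwoAdic.locMono hP (f _) = (s : HeckePoly O) • (0 : CohLoc (awayMonoid n) ρ')
    rw [← map_smul, ← hf _ s.2, LocalizedModule.smul'_mk, ← Submonoid.smul_def, hs,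
      LocalizedModule.zero_mk, map_zero, map_zero, smul_zero]

end Map

end Fermat.Agent.Engine.TRep
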