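import Fermat.Agent.TwoAdic.Modules.TWLevel

/-!
# The base level inside the auxiliary levels

`exists_baseLevelEquiv`: localising `H¹(Γ₀(N ∏ q))` at `U_q ≡ α_q`, simple roots of the residual
characteristic polynomials, gives back the localised `H¹(Γ₀(N))`, compatibly with the Hecke
operators away from all these primes.
-/

set_option autoImplicit false

noncomputable section

namespace Fermat.Agent.Engine.TRep

open HeckeModule TwoAdic IsLocalRing

variable {O : Type} [CommRing O]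

/-- Forgetting primes in two steps. -/
theorem relaxHom_comp {S S' S'' : Set ℕ} (t : ℕ → O) (hSS : S'' ⊆ S') (hS : S' ⊆ S)
    (a : AwayPoly O S'') :
    relaxHom O S S' t (relaxHom O S' S'' t a) = relaxHom O S S'' t a := by
  classical
  induction a using MvPolynomial.induction_on with
  | C r => simp [relaxHom]
  | add a b ha hb => rw [map_add, map_add, map_add, ha, hb]
  | mul_X a l ha =>
    rw [map_mul, map_mul, map_mul, ha]
    congr 1
    simp only [relaxHom, MvPolynomial.aeval_X]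
    by_cases h : ((l : Nat.Primes) : ℕ) ∈ S'
    · rw [dif_pos h, dif_pos (hS h)]
      simp [← MvPolynomial.algebraMap_eq]
    · rw [dif_neg h, MvPolynomial.aeval_X]

theorem relaxIdeal_comp {S S' S'' : Set ℕ} (t : ℕ → O) (hSS : S'' ⊆ S') (hS : S' ⊆ S)
    (m : Ideal (AwayPoly O S)) : relaxIdeal (relaxIdeal m S' t) S'' t = relaxIdeal m S'' t := by
  ext a
  rw [Ideal.mem_comap, Ideal.mem_comap, Ideal.mem_comap, relaxHom_comp t hSS hS]

/-- Only the values at the forgotten primes matter. -/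
theorem relaxHom_congr {S S' : Set ℕ} {t t' : ℕ → O} (h : ∀ x ∈ S, x ∉ S' → t x = t' x) :
    relaxHom O S S' t = relaxHom O S S' t' := by
  refine MvPolynomial.algHom_ext fun l => ?_
  simp only [relaxHom, MvPolynomial.aeval_X]
  split
  · rename_i hl; rw [h _ hl l.2]
  · rfl

variable [IsLocalRing O]

variable [IsNoetherianRing O] [IsAdicComplete (maximalIdeal O) O]

omit [IsNoetherianRing O] [IsAdicComplete (maximalIdeal O) O] in
theorem map_nilMod {E E' : Type} [AddCommGroup E] [Module O E] [Module (HeckePoly O) E]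
    [IsScalarTower O (HeckePoly O) E] [AddCommGroup E'] [Module O E'] [Module (HeckePoly O) E']
    [IsScalarTower O (HeckePoly O) E'] (f : E →ₗ[HeckePoly O] E') (hf : Function.Surjective f)
    {a : HeckePoly O} (ha : a ∈ nilModIdeal E) : a ∈ nilModIdeal E' := by
  obtain ⟨n, hn⟩ := (mem_nilModIdeal E).mp ha
  refine (mem_nilModIdeal E').mpr ⟨n, fun y => ?_⟩
  obtain ⟨x, rfl⟩ := hf y
  rw [← map_smul]
  exact map_mem_smul_top (f.restrictScalars O) _ (hn x)

/-- A further localisation of localised classes is onto. -/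
theorem locMono_surjective {N : ℕ} [NeZero N] {S S' : Set ℕ} (hS : S' ⊆ S) (t : ℕ → O)
    (m : Ideal (AwayPoly O S)) [m.IsPrime]
    (hm : (maximalIdeal O).map (algebraMap O (AwayPoly O S)) ≤ m)
    {χ : (ZMod N)ˣ →* O} :
    Function.Surjective (TwoAdic.locMono (ρ := scalarRep χ O) (awayMonoid_le_relax hS t m)) := by
  intro y
  obtain ⟨u, rfl⟩ := toLoc_surjective (scalarRep χ O) (relaxIdeal m S' t)
    (le_relaxIdeal t m hm) y
  refine ⟨toLoc (awayMonoid m) _ u, ?_⟩
  rw [toLoc, LocalizedModule.mkLinearMap_apply, TwoAdic.locMono_mk]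
  rfl

variable {N q : ℕ} [NeZero N] [hq : Fact q.Prime] {S : Set ℕ} (m : Ideal (AwayPoly O S))
  [m.IsPrime] (hm : (maximalIdeal O).map (algebraMap O (AwayPoly O S)) ≤ m)

include hm in
/-- One auxiliary prime. -/
theorem exists_auxStep (hqN : ¬ q ∣ N) (hqS : q ∈ S) {S₁ S₀ : Set ℕ} (hS₁ : S₁ ⊆ S)
    (hqS₁ : q ∈ S₁) (hS₀ : S₀ = S₁ \ {q}) (t : ℕ → O) {α β : O}
    (h1 : α * β - q ∈ maximalIdeal O) (h2 : IsUnit (α - β)) (h3 : IsUnit (α * α - 1))
    (h4 : IsUnit (((q : O) + 1) * ((q : O) + 1) - (α + β) * (α + β)))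
    (htq : t q = α + β)
    (hnil : MvPolynomial.X (qIdx q) - MvPolynomial.C (α + β) ∈
      nilModIdeal (CohLoc (awayMonoid m) (scalarRep (1 : (ZMod N)ˣ →* O) O))) :
    ∃ e : CohLoc (awayMonoid (relaxIdeal m S₀ t)) (scalarRep (1 : (ZMod N)ˣ →* O) O) ≃ₗ[O]
        CohLoc (awayMonoid (relaxIdeal m S₀ (Function.update t q α)))
          (scalarRep (1 : (ZMod (q * N))ˣ →* O) O),
      ∀ (X : AwayPoly O S) u,
        e (awayIncl O S X • u) = awayIncl O S X • e u := by
  classical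
  have : NeZero (q * N) := ⟨mul_ne_zero hq.out.ne_zero (NeZero.ne N)⟩
  have hS₀₁ : S₀ ⊆ S₁ := hS₀ ▸ Set.sdiff_subset
  set m₁ := relaxIdeal m S₁ t with hm₁
  have hm₁le := le_relaxIdeal (S' := S₁) t m hm
  have := finite_cohLoc (scalarRep (1 : (ZMod N)ˣ →* O) O) m₁ hm₁le
  have hnil₁ := map_nilMod (TwoAdic.locMono (ρ := scalarRep (1 : (ZMod N)ˣ →* O) O)
    (awayMonoid_le_relax hS₁ t m)) (locMono_surjective hS₁ t m hm) hnil
  -- forget `q` at level `N`
  have hb := locMono_relax_bijective (ρ := scalarRep (1 : (ZMod N)ˣ →* O) O) hS₀₁ t m₁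
    fun l hl hl' => by
      have hlq : l = qIdx q := Subtype.ext (by
        by_contra hne
        exact hl' (hS₀ ▸ ⟨hl, hne⟩))
      rw [hlq, show t ((qIdx q : Nat.Primes) : ℕ) = α + β from htq]
      exact hnil₁
  -- the auxiliary level
  have hM : (1 : ℕ) ∣ N := one_dvd N
  have hMq : (1 : ℕ) ∣ q * N := one_dvd _
  have e1 : levelChar hM (1 : (ZMod 1)ˣ →* O) = 1 := rfl
  have e2 : levelChar hMq (1 : (ZMod 1)ˣ →* O) = 1 := rfl
  have : Module.Finite O (CohLoc (awayMonoid m₁) (scalarRep (levelChar hM 1) O)) :=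
    finite_cohLoc _ m₁ hm₁le
  have H : TWRoot q α β (CohLoc (awayMonoid m₁) (scalarRep (levelChar hM (1 : (ZMod 1)ˣ →* O)) O)) :=
    ⟨h1, h2, h3, h4, hnil₁⟩
  have hbij := twMap_bijective (A := O) hqN hM hMq 1 rfl hqS₁ m₁ H hm₁le
  have hid : TwoAdic.twIdeal (q := q) m₁ α = relaxIdeal m (S₁ \ {q}) (Function.update t q α) := by
    show relaxIdeal (relaxIdeal m S₁ t) (S₁ \ {q}) (fun _ => α) = _
    rw [← relaxIdeal_comp (Function.update t q α) Set.sdiff_subset hS₁]
    have ht1 : relaxIdeal m S₁ (Function.update t q α) = relaxIdeal m S₁ t := by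
      unfold relaxIdeal
      rw [relaxHom_congr (t := Function.update t q α) (t' := t) fun x _ hx =>
        Function.update_of_ne (fun e => hx (by rw [e]; exact hqS₁)) _ _]
    rw [ht1]
    unfold relaxIdeal
    rw [relaxHom_congr (t := fun _ => α) (t' := Function.update t q α) fun x hx hx' => by
      have : x = q := by
        by_contra hne
        exact hx' ⟨hx, hne⟩
      rw [this, Function.update_self]]
  let b₀ := LinearEquiv.ofBijective ((TwoAdic.locMono (ρ := scalarRep (1 : (ZMod N)ˣ →* O) O)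
    (awayMonoid_le_relax hS₀₁ t m₁)).restrictScalars O) hb
  let e₀ := LinearEquiv.ofBijective (twMap (A := O) hM hMq 1 hqS₁ m₁ α) hbij
  -- equivariance
  have htw : ∀ (X : AwayPoly O S) u,
      twMap (A := O) hM hMq 1 hqS₁ m₁ α (awayIncl O S X • u) =
        awayIncl O S X • twMap (A := O) hM hMq 1 hqS₁ m₁ α u := by
    intro X u
    induction u using LocalizedModule.induction_on with
    | _ v s =>
      rw [LocalizedModule.smul'_mk, twMap_mk, twMap_mk, LocalizedModule.smul'_mk,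
        map_awayIncl_smul _ (fun ℓ _ hℓ w => resSelf_heckeOp hM hMq 1 hqS hℓ w)]
  revert hid
  subst hS₀
  intro hid
  have key : ∀ (n₀ n₁ : Ideal (AwayPoly O (S₁ \ {q}))) [n₀.IsPrime] [n₁.IsPrime],
      n₀ = relaxIdeal m₁ (S₁ \ {q}) t → n₁ = TwoAdic.twIdeal (q := q) m₁ α →
      ∃ e : CohLoc (awayMonoid n₀) (scalarRep (1 : (ZMod N)ˣ →* O) O) ≃ₗ[O]
          CohLoc (awayMonoid n₁) (scalarRep (1 : (ZMod (q * N))ˣ →* O) O),
        ∀ (X : AwayPoly O S) u, e (awayIncl O S X • u) = awayIncl O S X • e u := by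
    intro n₀ n₁ _ _ h₀ h₁
    subst h₀ h₁
    refine ⟨b₀.symm.trans e₀, fun X u => ?_⟩
    show e₀ (b₀.symm (awayIncl O S X • u)) = awayIncl O S X • e₀ (b₀.symm u)
    rw [show b₀.symm (awayIncl O S X • u) = awayIncl O S X • b₀.symm u from by
      apply b₀.injective
      rw [LinearEquiv.apply_symm_apply]
      show _ = TwoAdic.locMono (awayMonoid_le_relax hS₀₁ t m₁) (_ • b₀.symm u)
      rw [map_smul]
      exact congrArg (_ • ·) (b₀.apply_symm_apply u).symm]
    exact htw X _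
  exact key _ _ (relaxIdeal_comp t hS₀₁ hS₁ m).symm hid.symm

omit [IsNoetherianRing O] [IsAdicComplete (maximalIdeal O) O] in
/-- Equal ideals give the same localisation. -/
theorem exists_equiv_of_eq {S₀ : Set ℕ} {M : ℕ} (n n' : Ideal (AwayPoly O S₀)) [n.IsPrime]
    [n'.IsPrime] (h : n = n') (ρ : Representation O (ZMod M)ˣ O) :
    ∃ e : CohLoc (awayMonoid n) ρ ≃ₗ[O] CohLoc (awayMonoid n') ρ,
      ∀ (a : HeckePoly O) u, e (a • u) = a • e u := by
  subst h
  exact ⟨LinearEquiv.refl O _, fun _ _ => rfl⟩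

omit hq in
include hm in
/-- **All auxiliary primes.** Localising at `U_q ≡ α q` gives the base level back. -/
theorem exists_baseLevelEquiv (Qs : Finset ℕ) (α β : ℕ → O)
    (hQ : ∀ q ∈ Qs, q.Prime ∧ ¬ q ∣ N ∧ q ∈ S)
    (h1 : ∀ q ∈ Qs, α q * β q - q ∈ maximalIdeal O) (h2 : ∀ q ∈ Qs, IsUnit (α q - β q))
    (h3 : ∀ q ∈ Qs, IsUnit (α q * α q - 1))
    (h4 : ∀ q ∈ Qs, IsUnit (((q : O) + 1) * ((q : O) + 1) - (α q + β q) * (α q + β q)))
    (hnil : ∀ U, U ⊆ Qs → ∀ l : Nat.Primes, (l : ℕ) ∈ Qs → (l : ℕ) ∉ U →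
      ∀ (M' : ℕ) [NeZero M'], M' = (∏ x ∈ U, x) * N →
        MvPolynomial.X l - MvPolynomial.C (α l + β l) ∈
          nilModIdeal (CohLoc (awayMonoid m) (scalarRep (1 : (ZMod M')ˣ →* O) O)))
    (M : ℕ) [NeZero M] (hMeq : M = (∏ x ∈ Qs, x) * N) {S₀ : Set ℕ} (hS₀ : S₀ = S \ ↑Qs) :
    ∃ e : CohLoc (awayMonoid m) (scalarRep (1 : (ZMod N)ˣ →* O) O) ≃ₗ[O]
        CohLoc (awayMonoid (relaxIdeal m S₀ α)) (scalarRep (1 : (ZMod M)ˣ →* O) O),
      ∀ (X : AwayPoly O S) u, e (awayIncl O S X • u) = awayIncl O S X • e u := by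
  classical
  have hS : S₀ ⊆ S := hS₀ ▸ Set.sdiff_subset
  have := finite_cohLoc (scalarRep (1 : (ZMod N)ˣ →* O) O) m hm
  suffices h : ∀ U, U ⊆ Qs → ∀ t : ℕ → O, (∀ x ∈ Qs, t x = if x ∈ U then α x else α x + β x) →
      ∀ (M' : ℕ) [NeZero M'], M' = (∏ x ∈ U, x) * N →
      ∃ e : CohLoc (awayMonoid m) (scalarRep (1 : (ZMod N)ˣ →* O) O) ≃ₗ[O]
          CohLoc (awayMonoid (relaxIdeal m S₀ t)) (scalarRep (1 : (ZMod M')ˣ →* O) O),
        ∀ (X : AwayPoly O S) u, e (awayIncl O S X • u) = awayIncl O S X • e u from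
    h Qs subset_rfl α (fun x hx => (if_pos hx).symm) M hMeq
  intro U
  induction U using Finset.induction_on with
  | empty =>
    intro _ t ht M' _ hM'
    rw [Finset.prod_empty, one_mul] at hM'
    subst hM'
    refine ⟨LinearEquiv.ofBijective
      ((TwoAdic.locMono (ρ := scalarRep (1 : (ZMod M')ˣ →* O) O)
        (awayMonoid_le_relax hS t m)).restrictScalars O)
      (locMono_relax_bijective hS t m fun l hl hl' => ?_),
      fun X u => (TwoAdic.locMono (awayMonoid_le_relax hS t m)).map_smul _ u⟩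
    have hlQ : (l : ℕ) ∈ Qs := by
      by_contra h
      exact hl' (hS₀ ▸ ⟨hl, h⟩)
    rw [ht _ hlQ, if_neg (Finset.notMem_empty _)]
    exact hnil ∅ (Finset.empty_subset _) l hlQ (Finset.notMem_empty _) M' (by simp)
  | insert q U hqU ih =>
    intro hUQ t ht M' _ hM'
    obtain ⟨hqQ, hU⟩ := Finset.insert_subset_iff.mp hUQ
    obtain ⟨hqp, hqN, hqS⟩ := hQ q hqQ
    have : Fact q.Prime := ⟨hqp⟩
    rw [Finset.prod_insert hqU, mul_assoc] at hM'
    have : NeZero ((∏ x ∈ U, x) * N) :=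
      ⟨fun h => NeZero.ne M' (by rw [hM', h, mul_zero])⟩
    subst hM'
    set t' := Function.update t q (α q + β q) with ht'
    obtain ⟨e, he⟩ := ih hU t' (fun x hx => by
      by_cases hxq : x = q
      · rw [hxq, ht', Function.update_self, if_neg hqU]
      · rw [ht', Function.update_of_ne hxq, ht x hx]
        exact if_congr (by simp [hxq]) rfl rfl)
      ((∏ x ∈ U, x) * N) rfl
    have hqN' : ¬ q ∣ (∏ x ∈ U, x) * N := fun h => by
      rcases hqp.dvd_mul.mp h with h | h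
      · obtain ⟨x, hx, hd⟩ := (Prime.dvd_finsetProd_iff hqp.prime _).mp h
        exact hqU ((Nat.prime_dvd_prime_iff_eq hqp (hQ x (hU hx)).1).mp hd ▸ hx)
      · exact hqN h
    have hqS₀ : q ∉ S₀ := fun h => (hS₀ ▸ h : q ∈ S \ ↑Qs).2 hqQ
    obtain ⟨e₁, he₁⟩ := exists_auxStep m hm hqN' hqS (S₁ := insert q S₀) (S₀ := S₀)
      (Set.insert_subset hqS hS) (Set.mem_insert q S₀)
      (by rw [Set.insert_sdiff_self_of_notMem hqS₀]) t' (h1 q hqQ) (h2 q hqQ) (h3 q hqQ) (h4 q hqQ)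
      (by rw [ht', Function.update_self])
      (hnil U hU ⟨q, hqp⟩ hqQ hqU _ rfl)
    obtain ⟨e₂, he₂⟩ := exists_equiv_of_eq (relaxIdeal m S₀ (Function.update t' q (α q)))
      (relaxIdeal m S₀ t) (by
        congr 1
        rw [ht', Function.update_idem, Function.update_eq_self_iff, ht q hqQ,
          if_pos (Finset.mem_insert_self q U)])
      (scalarRep (1 : (ZMod (q * ((∏ x ∈ U, x) * N)))ˣ →* O) O)
    exact ⟨e.trans (e₁.trans e₂), fun X u => by
      rw [LinearEquiv.trans_apply, he, LinearEquiv.trans_apply, he₁, he₂]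
      rfl⟩

end Fermat.Agent.Engine.TRep
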