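import Fermat.Agent.Engine.TRep.RelaxLevel
import Fermat.Agent.Engine.TRep.TwistClassify

/-!
# Actions by matrices, determined by the Hecke matrices

`exists_matAction`: in a basis, the algebra of a family acts by matrices.  `eq_of_frobenius`: two
such actions of a level ring, after change of coefficients to a common ring, agree as soon as the
matrices of the Hecke operators agree and the traces of Frobenius have equal images.
-/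

set_option autoImplicit false
set_option linter.unusedSectionVars false

noncomputable section

namespace Fermat.Agent.Engine.TRep

open EigenRep HeckeModule IsLocalRing DefRing Deform TwoAdic

local notation "Qbar" => AlgebraicClosure ℚ

section Action

variable {O : Type} [CommRing O] [IsLocalRing O] {Λ : Type} [CommRing Λ] [IsLocalRing Λ]
  [IsNoetherianRing Λ] [IsAdicComplete (maximalIdeal Λ) Λ] [Algebra O Λ]
  [IsLocalHom (algebraMap O Λ)] (hsΛ : Function.Surjective (residue Λ ∘ algebraMap O Λ))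
  (S : Finset ℕ) (lam : ℕ → O) (ψ : ∀ q : ℕ, (ZMod q)ˣ →* Λ) (Q : Finset ℕ) {J : Type} [Fintype J]
  (M : J → ℕ) [∀ j, NeZero (M j)] {P : Submonoid (HeckePoly Λ)}
  (hP : awayMonoid (lamIdeal hsΛ S lam) ≤ P) (j : J)

include hP in
/-- In a basis, the algebra acts by matrices. -/
theorem exists_matAction {d : ℕ} (b : Module.Basis (Fin d) Λ (RelCoh ψ Q M P j)) :
    ∃ G : TwAlg hsΛ S lam ψ Q M →ₐ[Λ] Matrix (Fin d) (Fin d) Λ,
      ∀ X, G (twClass hsΛ S lam ψ Q M X) = LinearMap.toMatrix b b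
        (Algebra.lsmul Λ Λ (RelCoh ψ Q M P j) (A := HeckePoly Λ) (awayIncl Λ (↑S : Set ℕ) X)) := by
  obtain ⟨F, hF⟩ := exists_relHom hsΛ S lam ψ Q M hP j
  refine ⟨(algEquivMatrix b).toAlgHom.comp F, fun X => ?_⟩
  show algEquivMatrix b (F _) = _
  rw [show F (twClass hsΛ S lam ψ Q M X) =
    Algebra.lsmul Λ Λ (RelCoh ψ Q M P j) (A := HeckePoly Λ) (awayIncl Λ (↑S : Set ℕ) X) from
    LinearMap.ext fun u => hF X u]
  rfl

end Action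

/-- Homomorphisms of local algebras finite over the base are local. -/
theorem isLocalHom_of_finite {O : Type} [CommRing O] [IsLocalRing O] {C : Type} [CommRing C]
    [IsLocalRing C] [Algebra O C] [Module.Finite O C] {A : Type} [CommRing A] [IsLocalRing A]
    [Algebra O A] (hl : IsLocalHom (algebraMap O A)) (f : C →ₐ[O] A) :
    IsLocalHom (f : C →+* A) := by
  refine ⟨fun a ha => ?_⟩
  by_contra hna
  have : Algebra.IsIntegral O C := Algebra.IsIntegral.of_finite O C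
  set Q := (maximalIdeal A).comap (f : C →+* A)
  have hQp : Q.IsPrime := inferInstance
  have hQ : Q.comap (algebraMap O C) = maximalIdeal O := by
    refine Ideal.ext fun o => ?_
    show f (algebraMap O C o) ∈ maximalIdeal A ↔ _
    rw [f.commutes]
    exact ⟨fun h hu => h (hu.map _), fun h hu => h (hl.map_nonunit _ hu)⟩
  have hQm : Q.IsMaximal := Ideal.isMaximal_of_isIntegral_of_isMaximal_comap (R := O) Q
    (by rw [hQ]; infer_instance)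
  have haQ : a ∈ Q := by rw [IsLocalRing.eq_maximalIdeal hQm]; exact hna
  exact haQ ha

section Compare

variable {O : Type} [CommRing O] [IsLocalRing O]

/-- The residual system does not change with the coefficients. -/
theorem lamHom_map {Λ Λ' : Type} [CommRing Λ] [IsLocalRing Λ] [IsNoetherianRing Λ]
    [IsAdicComplete (maximalIdeal Λ) Λ] [Algebra O Λ]
    [IsLocalHom (algebraMap O Λ)] [CommRing Λ'] [IsLocalRing Λ'] [IsNoetherianRing Λ']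
    [IsAdicComplete (maximalIdeal Λ') Λ'] [Algebra O Λ']
    [IsLocalHom (algebraMap O Λ')] (hsΛ : Function.Surjective (residue Λ ∘ algebraMap O Λ))
    (hsΛ' : Function.Surjective (residue Λ' ∘ algebraMap O Λ')) (σ : Λ →ₐ[O] Λ')
    (hσ : IsLocalHom (σ : Λ →+* Λ')) (S : Finset ℕ) (lam : ℕ → O)
    (a : AwayPoly Λ (↑S : Set ℕ)) :
    lamHom O Λ' hsΛ' S lam (MvPolynomial.map (σ : Λ →+* Λ') a) = lamHom O Λ hsΛ S lam a := by
  induction a using MvPolynomial.induction_on with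
  | C x =>
    rw [MvPolynomial.map_C, lamHom_C, lamHom_C]
    exact DFunLike.congr_fun (toResidue_comp (inferInstance : IsLocalHom (algebraMap O Λ)) hsΛ
      (inferInstance : IsLocalHom (algebraMap O Λ')) hsΛ' σ hσ) x
  | add a b ha hb => rw [map_add, map_add, map_add, ha, hb]
  | mul_X a l ha =>
    rw [map_mul, MvPolynomial.map_X, map_mul, map_mul, ha, lamHom_X, lamHom_X]

/-- **Two maps of a level ring, with comparable images and equal traces of Frobenius, agree.** -/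
theorem eq_of_trace_eq [IsNoetherianRing O] [IsAdicComplete (maximalIdeal O) O] {C₁ C₂ : Type}
    [CommRing C₁] [IsLocalRing C₁] [Algebra O C₁] [Module.Finite O C₁] [CommRing C₂] [IsLocalRing C₂]
    [Algebra O C₂] [Module.Finite O C₂] (hlC : IsLocalHom (algebraMap O C₂))
    (hsC : Function.Surjective (residue C₂ ∘ algebraMap O C₂)) {B : Type} [Ring B] [Nontrivial B]
    [Algebra O B] (H₁ : C₁ →ₐ[O] B) (H₂ : C₂ →ₐ[O] B) (hrange : ∀ y, H₁ y ∈ H₂.range)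
    (L : LevelData O) (P : L.RepRing)
    (hspan : Submodule.span (ResidueField O) (Set.range L.D.rbar) = ⊤)
    (φ₁ : P.R →ₐ[O] C₁) (hφ₁ : IsLocalHom (φ₁ : P.R →+* C₁))
    (φ₂ : P.R →ₐ[O] C₂) (hφ₂ : IsLocalHom (φ₂ : P.R →+* C₂)) (S : Finset ℕ)
    (hfrob : ∀ ℓ : ℕ, ℓ.Prime → ℓ ∉ S → ∀ Pl : ValuationSubring Qbar, Pl.LiesOverPrime ℓ →
      ∀ τ : GQ, Pl.IsFrobeniusAt τ ℓ → H₁ (φ₁ (P.rep τ).trace) = H₂ (φ₂ (P.rep τ).trace))
    (x : P.R) : H₁ (φ₁ x) = H₂ (φ₂ x) := by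
  let I := RingHom.ker (H₂ : C₂ →+* B)
  have : I.IsTwoSided := inferInstance
  let π : C₂ →ₐ[O] C₂ ⧸ I := Ideal.Quotient.mkₐ O I
  have hπ : Function.Surjective π := Ideal.Quotient.mkₐ_surjective O I
  let ι : C₂ ⧸ I →ₐ[O] B := Ideal.Quotient.liftₐ I H₂ fun _ h => h
  have hι : Function.Injective ι := RingHom.lift_injective_of_ker_le_ideal I _ le_rfl
  have : Nontrivial (C₂ ⧸ I) := Ideal.Quotient.nontrivial_iff.mpr (RingHom.ker_ne_top _)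
  have : IsLocalRing (C₂ ⧸ I) := IsLocalRing.of_surjective' π.toRingHom hπ
  have : Module.Finite O (C₂ ⧸ I) := Module.Finite.of_surjective π.toLinearMap hπ
  have : IsNoetherianRing (C₂ ⧸ I) := isNoetherian_of_tower O inferInstance
  have := isAdicComplete_maximalIdeal_of_finite O (C₂ ⧸ I)
  have hπl : IsLocalHom (π : C₂ →+* C₂ ⧸ I) := isLocalHom_of_surjective' _ hπ
  have hl : IsLocalHom (algebraMap O (C₂ ⧸ I)) := by
    refine ⟨fun o ho => hlC.map_nonunit o (hπl.map_nonunit _ ?_)⟩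
    show IsUnit (π (algebraMap O C₂ o))
    rwa [π.commutes]
  have hsA : Function.Surjective (residue (C₂ ⧸ I) ∘ algebraMap O (C₂ ⧸ I)) := by
    intro y
    obtain ⟨u, rfl⟩ := Ideal.Quotient.mk_surjective y
    obtain ⟨u, rfl⟩ := hπ u
    obtain ⟨o, ho⟩ := hsC (residue C₂ u)
    refine ⟨o, (Ideal.Quotient.mk_eq_mk_iff_sub_mem _ _).mpr ?_⟩
    rw [← π.commutes, ← map_sub]
    exact fun hu => (Ideal.Quotient.mk_eq_mk_iff_sub_mem _ _).mp ho (hπl.map_nonunit _ hu)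
  have hmem : ∀ y, H₁ y ∈ ι.range := fun y => by
    obtain ⟨u, hu⟩ := hrange y
    exact ⟨π u, hu⟩
  let f₁ : C₁ →ₐ[O] C₂ ⧸ I :=
    (AlgEquiv.ofInjective ι hι).symm.toAlgHom.comp (H₁.codRestrict ι.range hmem)
  have hf₁ : IsLocalHom (f₁ : C₁ →+* C₂ ⧸ I) := isLocalHom_of_finite hl f₁
  have hf : ∀ y, ι (f₁ y) = H₁ y := fun y =>
    congrArg Subtype.val ((AlgEquiv.ofInjective ι hι).apply_symm_apply (H₁.codRestrict ι.range hmem y))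
  have key := LevelData.RepRing.algHom_ext_trace P hspan hl hsA
    (φ := f₁.comp φ₁) (φ' := π.comp φ₂)
    (@RingHom.isLocalHom_comp _ _ _ _ _ _ (f₁ : C₁ →+* C₂ ⧸ I) (φ₁ : P.R →+* C₁) hf₁ hφ₁)
    (@RingHom.isLocalHom_comp _ _ _ _ _ _ (π : C₂ →+* C₂ ⧸ I) (φ₂ : P.R →+* C₂) hπl hφ₂) S
    fun ℓ hℓ hℓS Pl hPl τ hτ => hι ((hf ..).trans (hfrob ℓ hℓ hℓS Pl hPl τ hτ))
  exact (hf _).symm.trans (congrArg ι (DFunLike.congr_fun key x))

variable {Λ₁ : Type} [CommRing Λ₁] [IsLocalRing Λ₁] [IsNoetherianRing Λ₁]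
  [IsAdicComplete (maximalIdeal Λ₁) Λ₁] [Algebra O Λ₁] [IsLocalHom (algebraMap O Λ₁)]
  [Module.Finite O Λ₁] (hs₁ : Function.Surjective (residue Λ₁ ∘ algebraMap O Λ₁))
  {Λ₂ : Type} [CommRing Λ₂] [IsLocalRing Λ₂] [IsNoetherianRing Λ₂]
  [IsAdicComplete (maximalIdeal Λ₂) Λ₂] [Algebra O Λ₂] [IsLocalHom (algebraMap O Λ₂)]
  [Module.Finite O Λ₂] (hs₂ : Function.Surjective (residue Λ₂ ∘ algebraMap O Λ₂))
  {Λ : Type} [CommRing Λ] [IsLocalRing Λ] [IsNoetherianRing Λ]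
  [IsAdicComplete (maximalIdeal Λ) Λ] [Algebra O Λ] [IsLocalHom (algebraMap O Λ)]
  (hs : Function.Surjective (residue Λ ∘ algebraMap O Λ))
  {S₁ S₂ : Finset ℕ} (lam : ℕ → O) {ψ₁ : ∀ q : ℕ, (ZMod q)ˣ →* Λ₁}
  {ψ₂ : ∀ q : ℕ, (ZMod q)ˣ →* Λ₂} {Q₁ Q₂ : Finset ℕ} {J₁ J₂ : Type} [Fintype J₁] [Fintype J₂]
  {M₁ : J₁ → ℕ} [∀ j, NeZero (M₁ j)] {M₂ : J₂ → ℕ} [∀ j, NeZero (M₂ j)]
  [Nontrivial (TwAlg hs₁ S₁ lam ψ₁ Q₁ M₁)] [Nontrivial (TwAlg hs₂ S₂ lam ψ₂ Q₂ M₂)]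

include hs in
/-- **Equal Hecke matrices and equal traces of Frobenius: equal actions.** -/
theorem eq_of_frobenius [IsNoetherianRing O] [IsAdicComplete (maximalIdeal O) O] {d : ℕ}
    (hd : d ≠ 0) (σ₁ : Λ₁ →ₐ[O] Λ)
    (σ₂ : Λ₂ →ₐ[O] Λ) (hσ₂ : Function.Surjective σ₂) (hS : (↑S₂ : Set ℕ) ⊆ ↑S₁)
    (G₁ : TwAlg hs₁ S₁ lam ψ₁ Q₁ M₁ →ₐ[Λ₁] Matrix (Fin d) (Fin d) Λ₁)
    (G₂ : TwAlg hs₂ S₂ lam ψ₂ Q₂ M₂ →ₐ[Λ₂] Matrix (Fin d) (Fin d) Λ₂)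
    (hX : ∀ (l : Nat.Primes) (h₁ : (l : ℕ) ∉ (↑S₁ : Set ℕ)),
      (G₁ (twClass hs₁ S₁ lam ψ₁ Q₁ M₁ (MvPolynomial.X ⟨l, h₁⟩))).map σ₁ =
        (G₂ (twClass hs₂ S₂ lam ψ₂ Q₂ M₂ (MvPolynomial.X ⟨l, fun h => h₁ (hS h)⟩))).map σ₂)
    (L : LevelData O) (P : L.RepRing)
    (hspan : Submodule.span (ResidueField O) (Set.range L.D.rbar) = ⊤)
    (φ₁ : P.R →ₐ[O] TwAlg hs₁ S₁ lam ψ₁ Q₁ M₁) (hφ₁ : IsLocalHom (φ₁ : P.R →+* TwAlg hs₁ S₁ lam ψ₁ Q₁ M₁))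
    (φ₂ : P.R →ₐ[O] TwAlg hs₂ S₂ lam ψ₂ Q₂ M₂) (hφ₂ : IsLocalHom (φ₂ : P.R →+* TwAlg hs₂ S₂ lam ψ₂ Q₂ M₂))
    (S : Finset ℕ)
    (hfrob : ∀ ℓ : ℕ, ℓ.Prime → ℓ ∉ S → ∀ Pl : ValuationSubring Qbar, Pl.LiesOverPrime ℓ →
      ∀ τ : GQ, Pl.IsFrobeniusAt τ ℓ →
        (G₁ (φ₁ (P.rep τ).trace)).map σ₁ = (G₂ (φ₂ (P.rep τ).trace)).map σ₂) (x : P.R) :
    (G₁ (φ₁ x)).map σ₁ = (G₂ (φ₂ x)).map σ₂ := by
  classical
  have : NeZero d := ⟨hd⟩
  have : Nonempty (Fin d) := ⟨0⟩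
  let H₁ : (TwAlg hs₁ S₁ lam ψ₁ Q₁ M₁) →ₐ[O] Matrix (Fin d) (Fin d) Λ := σ₁.mapMatrix.comp (G₁.restrictScalars O)
  let H₂ : (TwAlg hs₂ S₂ lam ψ₂ Q₂ M₂) →ₐ[O] Matrix (Fin d) (Fin d) Λ := σ₂.mapMatrix.comp (G₂.restrictScalars O)
  have : Module.Finite O (TwAlg hs₁ S₁ lam ψ₁ Q₁ M₁) := Module.Finite.trans Λ₁ (TwAlg hs₁ S₁ lam ψ₁ Q₁ M₁)
  have : Module.Finite O (TwAlg hs₂ S₂ lam ψ₂ Q₂ M₂) := Module.Finite.trans Λ₂ (TwAlg hs₂ S₂ lam ψ₂ Q₂ M₂)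
  have hl₁ : IsLocalHom (σ₁ : Λ₁ →+* Λ) := isLocalHom_of_finite inferInstance σ₁
  have hl₂ : IsLocalHom (σ₂ : Λ₂ →+* Λ) := isLocalHom_of_finite inferInstance σ₂
  -- the classes have the same images
  have hcls : ∀ (a : AwayPoly Λ₁ (↑S₁ : Set ℕ)) (a' : AwayPoly Λ₂ (↑S₁ : Set ℕ)),
      MvPolynomial.map (σ₁ : Λ₁ →+* Λ) a = MvPolynomial.map (σ₂ : Λ₂ →+* Λ) a' →
      H₁ (twClass hs₁ S₁ lam ψ₁ Q₁ M₁ a) =
        H₂ (twClass hs₂ S₂ lam ψ₂ Q₂ M₂ (awayMono Λ₂ hS a')) := by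
    intro a a' h
    let θ : AwayPoly Λ₁ (↑S₁ : Set ℕ) →+* Matrix (Fin d) (Fin d) Λ :=
      (H₁ : (TwAlg hs₁ S₁ lam ψ₁ Q₁ M₁) →+* _).comp (twClass hs₁ S₁ lam ψ₁ Q₁ M₁ : AwayPoly Λ₁ (↑S₁ : Set ℕ) →+* (TwAlg hs₁ S₁ lam ψ₁ Q₁ M₁))
    let θ' : AwayPoly Λ₂ (↑S₁ : Set ℕ) →+* Matrix (Fin d) (Fin d) Λ :=
      ((H₂ : (TwAlg hs₂ S₂ lam ψ₂ Q₂ M₂) →+* _).comp (twClass hs₂ S₂ lam ψ₂ Q₂ M₂ : AwayPoly Λ₂ (↑S₂ : Set ℕ) →+* (TwAlg hs₂ S₂ lam ψ₂ Q₂ M₂))).comp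
        (awayMono Λ₂ hS : AwayPoly Λ₂ (↑S₁ : Set ℕ) →+* AwayPoly Λ₂ (↑S₂ : Set ℕ))
    let μ : AwayIndex (↑S₁ : Set ℕ) → Matrix (Fin d) (Fin d) Λ := fun l => θ' (MvPolynomial.X l)
    let A : Subalgebra Λ (Matrix (Fin d) (Fin d) Λ) := Algebra.adjoin Λ (Set.range μ)
    have hA : IsMulCommutative A := Algebra.isMulCommutative_adjoin _ (by
      rintro _ ⟨l, rfl⟩ _ ⟨l', rfl⟩
      rw [← map_mul θ', mul_comm, map_mul])
    let : CommRing A := { (inferInstance : Ring A) with mul_comm := fun u v => hA.is_comm.comm u v }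
    let e : AwayPoly Λ (↑S₁ : Set ℕ) →+* Matrix (Fin d) (Fin d) Λ :=
      A.val.toRingHom.comp (MvPolynomial.eval₂Hom (algebraMap Λ A)
        fun l => (⟨μ l, Algebra.subset_adjoin ⟨l, rfl⟩⟩ : A))
    have h₁ : θ = e.comp (MvPolynomial.map (σ₁ : Λ₁ →+* Λ)) := by
      refine MvPolynomial.ringHom_ext (fun r => ?_) (fun l => ?_)
      · show _ = e (MvPolynomial.map (σ₁ : Λ₁ →+* Λ) (MvPolynomial.C r))
        rw [MvPolynomial.map_C]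
        show (G₁ (twClass hs₁ S₁ lam ψ₁ Q₁ M₁ (algebraMap Λ₁ _ r))).map σ₁ = e (MvPolynomial.C _)
        rw [AlgHom.commutes, AlgHom.commutes]
        show _ = ((MvPolynomial.eval₂Hom (algebraMap Λ A) _ (MvPolynomial.C (σ₁ r)) : A) :
          Matrix (Fin d) (Fin d) Λ)
        rw [MvPolynomial.eval₂Hom_C, Algebra.algebraMap_eq_smul_one (A := A)]
        ext i k
        by_cases hik : i = k <;> simp [Matrix.algebraMap_matrix_apply, hik]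
      · show _ = e (MvPolynomial.map (σ₁ : Λ₁ →+* Λ) (MvPolynomial.X l))
        rw [MvPolynomial.map_X]
        show _ = ((MvPolynomial.eval₂Hom (algebraMap Λ A) _ (MvPolynomial.X l) : A) :
          Matrix (Fin d) (Fin d) Λ)
        rw [MvPolynomial.eval₂Hom_X']
        show (G₁ (twClass hs₁ S₁ lam ψ₁ Q₁ M₁ (MvPolynomial.X l))).map σ₁ =
          (G₂ (twClass hs₂ S₂ lam ψ₂ Q₂ M₂ (awayMono Λ₂ hS (MvPolynomial.X l)))).map σ₂
        rw [awayMono, MvPolynomial.rename_X]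
        exact hX l.1 l.2
    have h₂ : θ' = e.comp (MvPolynomial.map (σ₂ : Λ₂ →+* Λ)) := by
      refine MvPolynomial.ringHom_ext (fun r => ?_) (fun l => ?_)
      · show _ = e (MvPolynomial.map (σ₂ : Λ₂ →+* Λ) (MvPolynomial.C r))
        rw [MvPolynomial.map_C]
        show (G₂ (twClass hs₂ S₂ lam ψ₂ Q₂ M₂
          (awayMono Λ₂ hS (algebraMap Λ₂ _ r)))).map σ₂ = e (MvPolynomial.C _)
        rw [AlgHom.commutes, AlgHom.commutes, AlgHom.commutes]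
        show _ = ((MvPolynomial.eval₂Hom (algebraMap Λ A) _ (MvPolynomial.C (σ₂ r)) : A) :
          Matrix (Fin d) (Fin d) Λ)
        rw [MvPolynomial.eval₂Hom_C, Algebra.algebraMap_eq_smul_one (A := A)]
        ext i k
        by_cases hik : i = k <;> simp [Matrix.algebraMap_matrix_apply, hik]
      · show _ = e (MvPolynomial.map (σ₂ : Λ₂ →+* Λ) (MvPolynomial.X l))
        rw [MvPolynomial.map_X]
        show _ = ((MvPolynomial.eval₂Hom (algebraMap Λ A) _ (MvPolynomial.X l) : A) :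
          Matrix (Fin d) (Fin d) Λ)
        rw [MvPolynomial.eval₂Hom_X']
    show θ a = θ' a'
    rw [h₁, h₂]
    exact congrArg e h
  -- the images of the first algebra lie among those of the second
  have hrange : ∀ y, H₁ y ∈ H₂.range := by
    intro y
    obtain ⟨z, rfl⟩ := actRange_surjective hs₁ S₁ lam ψ₁ Q₁ M₁ y
    obtain ⟨⟨a, s⟩, rfl⟩ := IsLocalization.mk'_surjective (lamIdeal hs₁ S₁ lam).primeCompl z
    have hσ₂' : Function.Surjective (σ₂ : Λ₂ →+* Λ) := hσ₂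
    obtain ⟨a', ha'⟩ :=
      MvPolynomial.map_surjective _ hσ₂' (MvPolynomial.map (σ₁ : Λ₁ →+* Λ) a)
    obtain ⟨s', hs'⟩ := MvPolynomial.map_surjective _ hσ₂'
      (MvPolynomial.map (σ₁ : Λ₁ →+* Λ) (s : AwayPoly Λ₁ (↑S₁ : Set ℕ)))
    have hsu : awayMono Λ₂ hS s' ∉ lamIdeal hs₂ S₂ lam := fun h => s.2 (by
      show lamHom O Λ₁ hs₁ S₁ lam _ = 0
      rw [← lamHom_map hs₁ hs σ₁ hl₁, ← hs', lamHom_map hs₂ hs σ₂ hl₂]
      refine Eq.trans ?_ (h : lamHom O Λ₂ hs₂ S₂ lam _ = 0)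
      have hren : (lamHom O Λ₂ hs₂ S₂ lam).comp
          (awayMono Λ₂ hS : AwayPoly Λ₂ (↑S₁ : Set ℕ) →+* AwayPoly Λ₂ (↑S₂ : Set ℕ)) =
          lamHom O Λ₂ hs₂ S₁ lam :=
        MvPolynomial.ringHom_ext (fun r => by simp [awayMono]) (fun l => by simp [awayMono])
      exact (DFunLike.congr_fun hren s').symm)
    obtain ⟨w, hw⟩ := isUnit_twClass hs₂ S₂ lam ψ₂ Q₂ M₂ hsu
    refine ⟨twClass hs₂ S₂ lam ψ₂ Q₂ M₂ (awayMono Λ₂ hS a') * ↑w⁻¹, ?_⟩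
    have hu : IsUnit (H₁ (twClass hs₁ S₁ lam ψ₁ Q₁ M₁ s)) :=
      (isUnit_twClass hs₁ S₁ lam ψ₁ Q₁ M₁ s.2).map H₁
    refine hu.mul_right_cancel ?_
    show H₂ _ * H₁ _ = H₁ _ * H₁ _
    rw [← map_mul H₁, show twClass hs₁ S₁ lam ψ₁ Q₁ M₁ (s : AwayPoly Λ₁ (↑S₁ : Set ℕ)) =
      actRange hs₁ S₁ lam ψ₁ Q₁ M₁ (algebraMap _ (Localization.AtPrime (lamIdeal hs₁ S₁ lam))
        (s : AwayPoly Λ₁ (↑S₁ : Set ℕ))) from rfl, ← map_mul (actRange hs₁ S₁ lam ψ₁ Q₁ M₁),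
      IsLocalization.mk'_spec]
    show H₂ _ * H₁ (twClass hs₁ S₁ lam ψ₁ Q₁ M₁ s) = H₁ (twClass hs₁ S₁ lam ψ₁ Q₁ M₁ a)
    rw [hcls _ _ hs'.symm, hcls _ _ ha'.symm, ← hw, ← map_mul, mul_assoc, Units.inv_mul, mul_one]
  exact eq_of_trace_eq (isLocalHom_algebraMap_twAlg hs₂ S₂ lam ψ₂ Q₂ M₂)
    (surjective_residue_twAlg hs₂ S₂ lam ψ₂ Q₂ M₂) H₁ H₂ hrange L P hspan φ₁ hφ₁ φ₂ hφ₂ S hfrob x

end Compare

end Fermat.Agent.Engine.TRep
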