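import Fermat.Agent.Engine.TRep.Algebra
import Fermat.Agent.BigImage.Frey
import Fermat.Prelude.Def_GaloisRep_ComplexConjugation

/-!
# Congruences in the localised Hecke algebra, residual traces, complex conjugation
-/

set_option autoImplicit false

noncomputable section

namespace Fermat.Agent.Engine.TRep

open EigenRep HeckeModule

local notation "GQ" => AlgebraicClosure ℚ ≃ₐ[ℚ] AlgebraicClosure ℚ

/-- Artin–Rees: on a finite faithful module, elements acting into a high power of an ideal lie in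
a given power. -/
theorem exists_pow_mem {T : Type*} [CommRing T] [IsNoetherianRing T] {U : Type*} [AddCommGroup U]
    [Module T U] [Module.Finite T U] (hfaith : ∀ x : T, (∀ u : U, x • u = 0) → x = 0)
    (J : Ideal T) (n : ℕ) :
    ∃ M : ℕ, ∀ x : T, (∀ u : U, x • u ∈ J ^ M • (⊤ : Submodule T U)) → x ∈ J ^ n := by
  classical
  obtain ⟨k, e, he⟩ := Module.Finite.exists_fin (R := T) (M := U)
  let ev : T →ₗ[T] (Fin k → U) := LinearMap.pi fun i => LinearMap.toSpanSingleton T U (e i)
  have hev : Function.Injective ev := by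
    refine (injective_iff_map_eq_zero ev).2 fun x hx => hfaith x fun u => ?_
    have hu : u ∈ Submodule.span T (Set.range e) := he ▸ Submodule.mem_top
    induction hu using Submodule.span_induction with
    | mem u hu =>
        obtain ⟨i, rfl⟩ := hu
        simpa [ev] using congrFun hx i
    | zero => rw [smul_zero]
    | add u v _ _ h₁ h₂ => rw [smul_add, h₁, h₂, add_zero]
    | smul r u _ h => rw [smul_comm, h, smul_zero]
  obtain ⟨c, hc⟩ := Ideal.exists_pow_inf_eq_pow_smul J (LinearMap.range ev)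
  refine ⟨n + c, fun x hx => ?_⟩
  have hmem : ev x ∈ J ^ (n + c) • (⊤ : Submodule T (Fin k → U)) ⊓ LinearMap.range ev := by
    refine ⟨?_, x, rfl⟩
    rw [← Finset.univ_sum_single (ev x)]
    refine Submodule.sum_mem _ fun i _ => ?_
    have h := Submodule.mem_map_of_mem (f := LinearMap.single T (fun _ : Fin k => U) i) (hx (e i))
    rw [Submodule.map_smul''] at h
    rw [map_smul, LinearMap.single_apply] at h
    show (Pi.single i (x • e i) : Fin k → U) ∈ _
    rw [Pi.single_smul]
    exact Submodule.smul_mono le_rfl le_top h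
  rw [hc _ (Nat.le_add_left c n), Nat.add_sub_cancel] at hmem
  have h2 : ev x ∈ J ^ n • LinearMap.range ev :=
    Submodule.smul_mono le_rfl inf_le_right hmem
  rw [LinearMap.range_eq_map, ← Submodule.map_smul'', smul_eq_mul, Ideal.mul_top] at h2
  obtain ⟨y, hy, hyx⟩ := h2
  rwa [← hev hyx]

variable {N p : ℕ} [NeZero N] [Fact p.Prime]

/-- The cyclotomic value of complex conjugation. -/
theorem epsilon_complexConjugation :
    (epsilonPadic p complexConjugation : ℤ_[p]) = -1 := by
  refine PadicInt.ext_of_toZModPow.mp fun n => ?_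
  have : NeZero (p ^ n) := ⟨pow_ne_zero n (Fact.out : p.Prime).ne_zero⟩
  obtain ⟨ζ, hζ⟩ := exists_primitiveRoot (p := p) n
  have h := BigImage.involution_root_of_unity complexConjugation_mul_self
    BigImage.complexConjugation_ne_one (NeZero.ne (p ^ n)) hζ.pow_eq_one
  have hinv : ζ⁻¹ = ζ ^ (p ^ n - 1) := by
    refine inv_eq_of_mul_eq_one_left ?_
    rw [← pow_succ, Nat.sub_add_cancel (Nat.one_le_iff_ne_zero.mpr (NeZero.ne _)), hζ.pow_eq_one]
  rw [toZModPow_epsilon_eq hζ (h.trans hinv), map_neg, map_one,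
    Nat.cast_sub (Nat.one_le_iff_ne_zero.mpr (NeZero.ne _)), ZMod.natCast_self, Nat.cast_one,
    zero_sub]

variable (I : RepInputs N p) {O : Type} [CommRing O] (ι : ℤ_[p] →+* O) (S : Finset ℕ)
  (m : Ideal (AwayPoly O (↑S : Set ℕ))) [m.IsPrime]

/-- The image of `p` in the localised algebra. -/
abbrev pIdeal : Ideal (TLoc I ι S m) := Ideal.span {(p : TLoc I ι S m)}

theorem algebraMap_iota_pow (M : ℕ) :
    algebraMap O (TLoc I ι S m) (ι ((p : ℤ_[p]) ^ M)) = (p : TLoc I ι S m) ^ M := by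
  rw [map_pow, map_pow, map_natCast, map_natCast]

/-- A matrix divisible by `p ^ M` acts into `p ^ M`. -/
theorem mk_matEnd_mem {M : ℕ} {X : Matrix (Fin I.model.d) (Fin I.model.d) ℤ_[p]}
    (hX : matMod p I.model.d M X = 0) (v : Lat I O) (s : latMonoid I ι S m) :
    LocalizedModule.mk (matEnd I ι X v) s ∈
      pIdeal I ι S m ^ M • (⊤ : Submodule (TLoc I ι S m) (VLoc I ι S m)) := by
  have hdvd : ∀ i j, ∃ c, X i j = (p : ℤ_[p]) ^ M * c := fun i j => by
    have h' := congr($hX i j)
    rw [matMod_apply, Matrix.zero_apply, ← RingHom.mem_ker, PadicInt.ker_toZModPow,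
      Ideal.mem_span_singleton] at h'
    exact h'
  choose c hc using hdvd
  have e : X = (p : ℤ_[p]) ^ M • Matrix.of c := by
    ext i j
    simp [← hc]
  rw [e, matEnd_smul, LinearMap.smul_apply, ← scalar_smul_mk I ι S m, algebraMap_iota_pow]
  exact Submodule.smul_mem_smul (Ideal.pow_mem_pow (Ideal.mem_span_singleton_self _) _)
    Submodule.mem_top

theorem tTrace_smul_mk (g : GQ) (v : Lat I O) (s : latMonoid I ι S m) :
    tTrace I ι S m g • LocalizedModule.mk v s =
      LocalizedModule.mk (matEnd I ι (tMat I g) v) s := by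
  rw [tTrace, algebraMap_smul, LocalizedModule.smul'_mk]
  rfl

/-- Traces are congruent when the Galois matrices are. -/
theorem exists_tTrace_congr [IsNoetherianRing O] (n : ℕ) :
    ∃ M : ℕ, ∀ g σ : GQ,
      matMod p I.model.d M (galMat I.model g) = matMod p I.model.d M (galMat I.model σ) →
      PadicInt.toZModPow M (epsilonPadic p g : ℤ_[p]) =
        PadicInt.toZModPow M (epsilonPadic p σ : ℤ_[p]) →
      tTrace I ι S m g - tTrace I ι S m σ ∈ pIdeal I ι S m ^ n := by
  obtain ⟨M, hM⟩ := exists_pow_mem (U := VLoc I ι S m) (tLoc_faithful I ι S m) (pIdeal I ι S m) n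
  refine ⟨M, fun g σ h₁ h₂ => hM _ fun v => ?_⟩
  induction v using LocalizedModule.induction_on with
  | _ v s =>
    have e : LocalizedModule.mk (matEnd I ι (tMat I g) v) s -
        LocalizedModule.mk (matEnd I ι (tMat I σ) v) s =
        LocalizedModule.mk (matEnd I ι (tMat I g - tMat I σ) v) s := by
      rw [sub_eq_iff_eq_add, LocalizedModule.mk_add_mk, map_sub, LinearMap.sub_apply,
        ← smul_add, sub_add_cancel, LocalizedModule.mk_cancel_common_left]
    rw [sub_smul, tTrace_smul_mk, tTrace_smul_mk, e]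
    exact mk_matEnd_mem I ι S m (by rw [map_sub, matMod_tMat_eq I h₁ h₂, sub_self]) v s

theorem tTrace_frobenius {ℓ : ℕ} (hℓ : ℓ.Prime) (hS : ℓ ∉ S) (hd : ¬ ℓ ∣ N * p)
    {A : ValuationSubring (AlgebraicClosure ℚ)} (hA : A.LiesOverPrime ℓ) {σ : GQ}
    (hσ : A.IsFrobeniusAt σ ℓ) :
    tTrace I ι S m σ = tHom I ι S m (MvPolynomial.X ⟨⟨ℓ, hℓ⟩, hS⟩) := by
  rw [tTrace, latTrace_frobenius I ι S hℓ hS hd hA hσ]
  rfl

theorem tTrace_complexConjugation : tTrace I ι S m complexConjugation = 0 := by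
  have h : latTrace I ι S complexConjugation = 0 := by
    apply Subtype.ext
    show matEnd I ι (tMat I complexConjugation) = 0
    rw [tMat_of_involution I complexConjugation_mul_self epsilon_complexConjugation, map_zero]
  rw [tTrace, h, map_zero]

variable {k : Type} [Field k] (lam : AwayPoly O (↑S : Set ℕ) →+* k)

/-- The residual map of the localised algebra. -/
theorem exists_residual (hker : RingHom.ker (latHom I ι S) ≤ m) (hlam : RingHom.ker lam = m) :
    ∃ res : TLoc I ι S m →+* k, ∀ P, res (tHom I ι S m P) = lam P := by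
  let f : LatAlg I ι S →+* k :=
    RingHom.liftOfSurjective (latHom I ι S).toRingHom (latHom_surjective I ι S)
      ⟨lam, by rw [hlam]; exact hker⟩
  have hf : ∀ P, f (latHom I ι S P) = lam P := fun P =>
    RingHom.liftOfRightInverse_comp_apply _ _ _ _ P
  have hu : ∀ s : latMonoid I ι S m, IsUnit (f (s : LatAlg I ι S)) := by
    rintro ⟨s, a, ha, rfl⟩
    show IsUnit (f (latHom I ι S a))
    rw [hf]
    exact isUnit_iff_ne_zero.mpr fun h => ha (hlam ▸ RingHom.mem_ker.mpr h)
  refine ⟨IsLocalization.lift hu, fun P => ?_⟩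
  show IsLocalization.lift hu (algebraMap _ _ (latHom I ι S P)) = _
  rw [IsLocalization.lift_eq, hf]

/-- Residual traces, by Chebotarev. -/
theorem residual_trace [IsNoetherianRing O] (hNS : ∀ q : ℕ, q.Prime → q ∣ N * p → q ∈ S)
    (res : TLoc I ι S m →+* k) (hres : ∀ P, res (tHom I ι S m P) = lam P) (hpk : (p : k) = 0)
    (ρbar : GQ →* Matrix (Fin 2) (Fin 2) k)
    (hfin : ∃ L : IntermediateField ℚ (AlgebraicClosure ℚ), FiniteDimensional ℚ L ∧
      ∀ σ : GQ, (∀ a ∈ L, σ a = a) → ρbar σ = 1)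
    (htr : ∀ (ℓ : ℕ) (hℓ : ℓ.Prime) (hS : ℓ ∉ S), ∀ A : ValuationSubring (AlgebraicClosure ℚ),
      A.LiesOverPrime ℓ → ∀ σ : GQ, A.IsFrobeniusAt σ ℓ →
        (ρbar σ).trace = lam (MvPolynomial.X ⟨⟨ℓ, hℓ⟩, hS⟩)) (g : GQ) :
    res (tTrace I ι S m g) = (ρbar g).trace := by
  obtain ⟨M, hM⟩ := exists_tTrace_congr I ι S m 1
  obtain ⟨L₁, h₁, H₁⟩ := exists_level I M
  obtain ⟨L₂, h₂, H₂⟩ := hfin
  obtain ⟨ℓ, hℓ, hℓS, A, hA, σ, hσ, hg⟩ :=
    I.dense (L₁ ⊔ L₂) (IntermediateField.finiteDimensional_sup L₁ L₂) g S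
  have hd : ¬ ℓ ∣ N * p := fun h => hℓS (hNS ℓ hℓ h)
  have hfix := inv_mul_fixes hg
  obtain ⟨e₁, e₂⟩ := H₁ _ fun a ha => hfix a (le_sup_left (a := L₁) (b := L₂) ha)
  have e₃ := H₂ _ fun a ha => hfix a (le_sup_right (a := L₁) (b := L₂) ha)
  have hgσ : g = σ * (σ⁻¹ * g) := (mul_inv_cancel_left σ g).symm
  have hmem := hM g σ (by rw [hgσ, map_mul, map_mul, e₁, mul_one])
    (by rw [hgσ, map_mul, Units.val_mul, map_mul, e₂, mul_one])
  rw [Submodule.pow_one, Ideal.mem_span_singleton] at hmem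
  obtain ⟨x, hx⟩ := hmem
  rw [show ρbar g = ρbar σ by rw [hgσ, map_mul, e₃, mul_one], htr ℓ hℓ hℓS A hA σ hσ,
    sub_eq_iff_eq_add.mp hx, map_add, map_mul, map_natCast, hpk, zero_mul, zero_add,
    tTrace_frobenius I ι S m hℓ hℓS hd hA hσ, hres]

end Fermat.Agent.Engine.TRep
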