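import Fermat.Agent.Engine.TRep.TraceMat
import Fermat.Agent.HeckeModule.Away
import Mathlib.RingTheory.Finiteness.Basic

/-!
# The Hecke algebra of the lattice with coefficients, away from a finite set, and its localisation

`W = O^d`, `latHom : AwayPoly O S → LatAlg ⊆ End W`, `TLoc` its localisation at the image of the
complement of an ideal `m`, and `VLoc` the localised lattice.
-/

set_option autoImplicit false

noncomputable section

namespace Fermat.Agent.Engine.TRep

open EigenRep HeckeModule

local notation "GQ" => AlgebraicClosure ℚ ≃ₐ[ℚ] AlgebraicClosure ℚ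

variable {N p : ℕ} [NeZero N] [Fact p.Prime] (I : RepInputs N p)
  {O : Type} [CommRing O] (ι : ℤ_[p] →+* O) (S : Finset ℕ)

/-- The lattice with coefficients in `O`. -/
abbrev Lat (O : Type) : Type := Fin I.model.d → O

/-- Matrices over `ℤ_p` as endomorphisms of `O^d`. -/
def matEnd : Matrix (Fin I.model.d) (Fin I.model.d) ℤ_[p] →+* Module.End O (Lat I O) :=
  (Matrix.toLinAlgEquiv' : Matrix (Fin I.model.d) (Fin I.model.d) O ≃ₐ[O] _).toAlgHom.toRingHom.comp
    ι.mapMatrix

theorem matEnd_apply (A : Matrix (Fin I.model.d) (Fin I.model.d) ℤ_[p]) (v : Lat I O) :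
    matEnd I ι A v = Matrix.mulVec (A.map ι) v :=
  rfl

theorem matEnd_smul (c : ℤ_[p]) (A : Matrix (Fin I.model.d) (Fin I.model.d) ℤ_[p]) :
    matEnd I ι (c • A) = ι c • matEnd I ι A := by
  refine LinearMap.ext fun v => ?_
  rw [LinearMap.smul_apply, matEnd_apply, matEnd_apply, ← Matrix.smul_mulVec]
  congr 1
  ext i j
  simp [Matrix.map_apply]

/-- The Hecke operators outside `S` on `O^d`. -/
def latOp (l : AwayIndex (↑S : Set ℕ)) : Module.End O (Lat I O) :=
  matEnd I ι (heckeMat I.model (l : Nat.Primes))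

/-- The Hecke algebra outside `S` of the lattice with coefficients. -/
def LatAlg : Subalgebra O (Module.End O (Lat I O)) :=
  Algebra.adjoin O (Set.range (latOp I ι S))

theorem latOp_commute (l l' : AwayIndex (↑S : Set ℕ)) :
    Commute (latOp I ι S l) (latOp I ι S l') := by
  show matEnd I ι _ * matEnd I ι _ = matEnd I ι _ * matEnd I ι _
  rw [← map_mul, ← map_mul]
  congr 1
  ext i j
  have := congr($(I.model.comm (l : Nat.Primes) (l' : Nat.Primes)) i j)
  simp only [Matrix.mul_apply] at this
  simp only [heckeMat, Matrix.mul_apply, Matrix.map_apply, ← Int.cast_mul, ← Int.cast_sum, this]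

instance : IsMulCommutative (LatAlg I ι S) :=
  Algebra.isMulCommutative_adjoin O fun _ hx _ hy => by
    obtain ⟨l, rfl⟩ := hx
    obtain ⟨l', rfl⟩ := hy
    exact latOp_commute I ι S l l'

instance : CommRing (LatAlg I ι S) :=
  { (inferInstance : Ring (LatAlg I ι S)) with mul_comm := fun a b => IsMulCommutative.is_comm.comm a b }

instance [IsNoetherianRing O] : Module.Finite O (LatAlg I ι S) :=
  Module.Finite.of_injective (LatAlg I ι S).val.toLinearMap Subtype.val_injective

instance [IsNoetherianRing O] : IsNoetherianRing (LatAlg I ι S) :=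
  isNoetherian_of_tower O (isNoetherian_of_isNoetherianRing_of_finite O (LatAlg I ι S))

instance latAlgCommSemiring : CommSemiring (LatAlg I ι S) :=
  (inferInstance : CommRing (LatAlg I ι S)).toCommSemiring

/-- Found first, so that searches do not descend into `Pi.module`. -/
instance latModule : Module (LatAlg I ι S) (Lat I O) := inferInstance

instance latSMulSelfTower : IsScalarTower (LatAlg I ι S) (LatAlg I ι S) (Lat I O) :=
  ⟨fun a b v => mul_smul a b v⟩

instance latSubmonoidAction (M : Submonoid (LatAlg I ι S)) : DistribMulAction M (Lat I O) :=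
  inferInstance

instance latSubmonoidDistribSMul (M : Submonoid (LatAlg I ι S)) : DistribSMul M (Lat I O) :=
  inferInstance

instance latSubmonoidSMulZero (M : Submonoid (LatAlg I ι S)) : SMulZeroClass M (Lat I O) :=
  inferInstance

instance latScalarTower : IsScalarTower O (LatAlg I ι S) (Lat I O) :=
  ⟨fun r a v => LinearMap.smul_apply r (a : Module.End O (Lat I O)) v⟩

/-- The map from the Hecke polynomials. -/
def latHom : AwayPoly O (↑S : Set ℕ) →ₐ[O] LatAlg I ι S :=
  MvPolynomial.aeval fun l => ⟨latOp I ι S l, Algebra.subset_adjoin ⟨l, rfl⟩⟩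

@[simp] theorem latHom_X (l : AwayIndex (↑S : Set ℕ)) :
    (latHom I ι S (MvPolynomial.X l) : Module.End O (Lat I O)) = latOp I ι S l := by
  simp [latHom]

theorem latHom_surjective : Function.Surjective (latHom I ι S) := by
  rintro ⟨x, hx⟩
  have h : x ∈ (latHom I ι S).range.map (LatAlg I ι S).val := by
    refine Algebra.adjoin_le ?_ hx
    rintro _ ⟨l, rfl⟩
    exact ⟨latHom I ι S (MvPolynomial.X l), ⟨_, rfl⟩, latHom_X I ι S l⟩
  obtain ⟨y, ⟨P, rfl⟩, hy⟩ := h
  exact ⟨P, Subtype.ext hy⟩

theorem matEnd_mem {A : Matrix (Fin I.model.d) (Fin I.model.d) ℤ_[p]} (hA : A ∈ matAway I S) :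
    matEnd I ι A ∈ LatAlg I ι S := by
  induction hA using Algebra.adjoin_induction with
  | mem x hx =>
      obtain ⟨l, hl, rfl⟩ := hx
      exact Algebra.subset_adjoin ⟨⟨l, hl⟩, rfl⟩
  | algebraMap r =>
      rw [Algebra.algebraMap_eq_smul_one, matEnd_smul, map_one]
      exact (LatAlg I ι S).smul_mem (one_mem _) _
  | add x y _ _ h₁ h₂ => rw [map_add]; exact add_mem h₁ h₂
  | mul x y _ _ h₁ h₂ => rw [map_mul]; exact mul_mem h₁ h₂

/-- The trace of `g` in the Hecke algebra. -/
def latTrace (g : GQ) : LatAlg I ι S :=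
  ⟨matEnd I ι (tMat I g), matEnd_mem I ι S (tMat_mem I S g)⟩

theorem latTrace_frobenius {ℓ : ℕ} (hℓ : ℓ.Prime) (hS : ℓ ∉ S) (hd : ¬ ℓ ∣ N * p)
    {A : ValuationSubring (AlgebraicClosure ℚ)} (hA : A.LiesOverPrime ℓ) {σ : GQ}
    (hσ : A.IsFrobeniusAt σ ℓ) :
    latTrace I ι S σ = latHom I ι S (MvPolynomial.X ⟨⟨ℓ, hℓ⟩, hS⟩) := by
  apply Subtype.ext
  rw [latHom_X]
  show matEnd I ι (tMat I σ) = _
  rw [tMat_frobenius I hℓ hd hA hσ]
  rfl

/-- Galois commutes with the Hecke algebra. -/
theorem galois_commute (g : GQ) (a : LatAlg I ι S) :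
    Commute (matEnd I ι (galMat I.model g)) (a : Module.End O (Lat I O)) := by
  obtain ⟨x, hx⟩ := a
  induction hx using Algebra.adjoin_induction with
  | mem x hx =>
      obtain ⟨l, rfl⟩ := hx
      exact (galMat_commute_mem I S g (heckeMat_mem I S l l.2)).map (matEnd I ι)
  | algebraMap r => exact Algebra.commute_algebraMap_right r _
  | add x y _ _ h₁ h₂ => exact h₁.add_right h₂
  | mul x y _ _ h₁ h₂ => exact h₁.mul_right h₂

/-- A matrix over `ℤ_p` commuting with the Hecke matrices, as a Hecke linear endomorphism. -/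
def linOf (A : Matrix (Fin I.model.d) (Fin I.model.d) ℤ_[p])
    (hA : ∀ a : LatAlg I ι S, Commute (matEnd I ι A) (a : Module.End O (Lat I O))) :
    Module.End (LatAlg I ι S) (Lat I O) where
  toFun := matEnd I ι A
  map_add' := map_add _
  map_smul' a v := LinearMap.congr_fun (hA a).eq v

/-- The action of Galois, linear over the Hecke algebra. -/
def latGal : GQ →* Module.End (LatAlg I ι S) (Lat I O) where
  toFun g := linOf I ι S (galMat I.model g) (galois_commute I ι S g)
  map_one' := LinearMap.ext fun v => by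
    show matEnd I ι (galMat I.model 1) v = v
    rw [map_one, map_one]; rfl
  map_mul' g h := LinearMap.ext fun v => by
    show matEnd I ι (galMat I.model (g * h)) v = _
    rw [map_mul, map_mul]; rfl

variable (m : Ideal (AwayPoly O (↑S : Set ℕ))) [m.IsPrime]

/-- The multiplicative set at `m`. -/
def latMonoid : Submonoid (LatAlg I ι S) :=
  m.primeCompl.map (latHom I ι S : AwayPoly O (↑S : Set ℕ) →+* LatAlg I ι S)

/-- The localised Hecke algebra. -/
abbrev TLoc : Type := Localization (latMonoid I ι S m)

/-- The localised lattice. -/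
abbrev VLoc : Type := LocalizedModule (latMonoid I ι S m) (Lat I O)

instance tLocCommRing : CommRing (TLoc I ι S m) := inferInstance

instance vLocAddCommGroup : AddCommGroup (VLoc I ι S m) := inferInstance

instance vLocTModule : Module (TLoc I ι S m) (VLoc I ι S m) := inferInstance

instance tLocAlgebra : Algebra (LatAlg I ι S) (TLoc I ι S m) := inferInstance

instance vLocModule : Module (LatAlg I ι S) (VLoc I ι S m) := inferInstance

instance vLocTower : IsScalarTower (LatAlg I ι S) (TLoc I ι S m) (VLoc I ι S m) := inferInstance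

/-- The map from the Hecke polynomials to the localisation. -/
def tHom : AwayPoly O (↑S : Set ℕ) →ₐ[O] TLoc I ι S m :=
  (IsScalarTower.toAlgHom O (LatAlg I ι S) (TLoc I ι S m)).comp (latHom I ι S)

/-- The trace of `g` in the localisation. -/
def tTrace (g : GQ) : TLoc I ι S m :=
  algebraMap (LatAlg I ι S) (TLoc I ι S m) (latTrace I ι S g)

theorem isUnit_tHom {a : AwayPoly O (↑S : Set ℕ)} (ha : a ∉ m) : IsUnit (tHom I ι S m a) :=
  IsLocalization.map_units (TLoc I ι S m) (⟨_, a, ha, rfl⟩ : latMonoid I ι S m)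

/-- The localisation is a local ring as soon as the system occurs in the lattice. -/
theorem latMonoid_eq_primeCompl (hker : RingHom.ker (latHom I ι S) ≤ m) :
    ∃ (P : Ideal (LatAlg I ι S)) (hP : P.IsPrime),
      P.comap (latHom I ι S) = m ∧ latMonoid I ι S m = @Ideal.primeCompl _ _ P hP := by
  have hs := latHom_surjective I ι S
  have hP : (m.map (latHom I ι S)).IsPrime := Ideal.map_isPrime_of_surjective hs hker
  have hcomap : (m.map (latHom I ι S)).comap (latHom I ι S) = m := by
    rw [Ideal.comap_map_of_surjective _ hs]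
    exact sup_eq_left.mpr hker
  refine ⟨_, hP, hcomap, ?_⟩
  ext x
  obtain ⟨a, rfl⟩ := hs x
  show _ ↔ latHom I ι S a ∉ m.map (latHom I ι S)
  rw [← Ideal.mem_comap, hcomap]
  constructor
  · rintro ⟨b, hb, hba⟩ ha
    refine hb ?_
    show b ∈ (m : Set _)
    rw [← sub_add_cancel b a]
    exact add_mem (hker (by rw [RingHom.mem_ker, map_sub]; exact sub_eq_zero.mpr hba)) ha
  · exact fun ha => ⟨a, ha, rfl⟩

theorem isLocalRing_tLoc (hker : RingHom.ker (latHom I ι S) ≤ m) : IsLocalRing (TLoc I ι S m) := by
  obtain ⟨P, hP, -, he⟩ := latMonoid_eq_primeCompl I ι S m hker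
  have : IsLocalization (Ideal.primeCompl P) (TLoc I ι S m) := he ▸ inferInstance
  exact IsLocalization.AtPrime.isLocalRing (TLoc I ι S m) P

instance [IsNoetherianRing O] : IsNoetherianRing (TLoc I ι S m) :=
  IsLocalization.isNoetherianRing (latMonoid I ι S m) (TLoc I ι S m) inferInstance

instance : Module.Finite O (Lat I O) := inferInstance

instance : Module.Finite (LatAlg I ι S) (Lat I O) := Module.Finite.of_restrictScalars_finite O _ _

instance : Module.Finite (TLoc I ι S m) (VLoc I ι S m) :=
  Module.Finite.of_isLocalizedModule (latMonoid I ι S m)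
    (LocalizedModule.mkLinearMap (latMonoid I ι S m) (Lat I O))

/-- The localised lattice is faithful. -/
theorem tLoc_faithful (x : TLoc I ι S m) (hx : ∀ v : VLoc I ι S m, x • v = 0) : x = 0 := by
  classical
  obtain ⟨⟨a, s⟩, rfl⟩ := IsLocalization.mk'_surjective (latMonoid I ι S m) x
  have hu : ∀ i, ∃ u : latMonoid I ι S m, ((u : LatAlg I ι S) * a) • (Pi.single i (1 : O) : Lat I O) = 0 := by
    intro i
    have h := hx (LocalizedModule.mk (Pi.single i (1 : O) : Lat I O) 1)
    dsimp only at h
    rw [← Localization.mk_eq_mk', LocalizedModule.mk_smul_mk, ← LocalizedModule.zero_mk (1 : latMonoid I ι S m),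
      LocalizedModule.mk_eq] at h
    obtain ⟨u, hu⟩ := h
    refine ⟨u, ?_⟩
    rw [one_smul, smul_zero, smul_zero] at hu
    rw [mul_smul]
    exact hu
  choose u hu using hu
  have hz : ((∏ i, (u i : LatAlg I ι S)) * a : LatAlg I ι S) = 0 := by
    apply Subtype.ext
    refine (Pi.basisFun O (Fin I.model.d)).ext fun i => ?_
    rw [Pi.basisFun_apply]
    show (((∏ j, (u j : LatAlg I ι S)) * a : LatAlg I ι S)) • (Pi.single i (1 : O) : Lat I O) = 0
    rw [← Finset.prod_erase_mul _ _ (Finset.mem_univ i), mul_assoc, mul_smul, hu, smul_zero]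
  rw [IsLocalization.mk'_eq_zero_iff]
  exact ⟨⟨∏ i, (u i : LatAlg I ι S), prod_mem fun i _ => (u i).2⟩, hz⟩

/-- Galois on the localised lattice. -/
def tGal : GQ →* Module.End (TLoc I ι S m) (VLoc I ι S m) where
  toFun g := (LocalizedModule.map (latMonoid I ι S m) (latGal I ι S g))
  map_one' := LinearMap.ext fun v => by
    induction v using LocalizedModule.induction_on with
    | _ v s => rw [LocalizedModule.map_mk, map_one]; rfl
  map_mul' g h := LinearMap.ext fun v => by
    induction v using LocalizedModule.induction_on with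
    | _ v s => rw [LocalizedModule.map_mk, map_mul, Module.End.mul_apply, Module.End.mul_apply,
        LocalizedModule.map_mk, LocalizedModule.map_mk]

theorem tGal_mk (g : GQ) (v : Lat I O) (s : latMonoid I ι S m) :
    tGal I ι S m g (LocalizedModule.mk v s) =
      LocalizedModule.mk (matEnd I ι (galMat I.model g) v) s := by
  show LocalizedModule.map (latMonoid I ι S m) (latGal I ι S g) _ = _
  rw [LocalizedModule.map_mk]
  rfl

theorem scalar_smul_mk (c : O) (v : Lat I O) (s : latMonoid I ι S m) :
    (algebraMap O (TLoc I ι S m) c) • LocalizedModule.mk v s = LocalizedModule.mk (c • v) s := by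
  rw [IsScalarTower.algebraMap_apply O (LatAlg I ι S) (TLoc I ι S m), algebraMap_smul,
    LocalizedModule.smul'_mk, algebraMap_smul]

end Fermat.Agent.Engine.TRep
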