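import Fermat.Agent.Engine.TRep.Lift
import Fermat.Agent.Engine.Evaluation
import Fermat.Agent.Deform.Traces
import Mathlib.LinearAlgebra.GeneralLinearGroup.AlgEquiv
import Mathlib.RingTheory.Henselian

/-!
# The deformation ring maps to the localised Hecke algebra

`exists_conj_of_trace_eq`: a representation with the traces of a spanning one is conjugate to it.
`exists_classifying`: a lift of a level in any basis is classified by the universal ring.
-/

set_option autoImplicit false
set_option linter.unusedSectionVars false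

noncomputable section

namespace Fermat.Agent.Engine

open IsLocalRing DefRing Deform Matrix

/-- Over a field, a representation with the traces of a spanning one is conjugate to it. -/
theorem exists_conj_of_trace_eq {k : Type*} [Field k] {G : Type*} [Monoid G]
    (ρ ρ' : G →* Matrix (Fin 2) (Fin 2) k) (hspan : Submodule.span k (Set.range ρ) = ⊤)
    (htr : ∀ σ, (ρ σ).trace = (ρ' σ).trace) :
    ∃ g : (Matrix (Fin 2) (Fin 2) k)ˣ, ∀ σ, (g : Matrix (Fin 2) (Fin 2) k) * ρ' σ = ρ σ * g := by
  let L := MonoidAlgebra.lift k (Matrix (Fin 2) (Fin 2) k) G ρ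
  let L' := MonoidAlgebra.lift k (Matrix (Fin 2) (Fin 2) k) G ρ'
  have hL : Function.Surjective L := fun M => by
    have hle : Submodule.span k (Set.range ρ) ≤ L.range.toSubmodule := Submodule.span_le.mpr (by
      rintro _ ⟨σ, rfl⟩; exact ⟨MonoidAlgebra.of k G σ, MonoidAlgebra.lift_of ρ σ⟩)
    exact (hspan ▸ hle) Submodule.mem_top
  have htr' : ∀ x, (L x).trace = (L' x).trace := by
    intro x
    induction x using MonoidAlgebra.induction_linear with
    | zero => simp
    | add x y hx hy => simp [hx, hy]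
    | single σ a => simp [L, L', htr σ]
  have hker : ∀ x, L' x = 0 → L x = 0 := fun x hx => by
    ext i j
    obtain ⟨y, hy⟩ := hL (Matrix.single j i 1)
    have h := htr' (x * y)
    rw [map_mul, map_mul, hx, zero_mul, Matrix.trace_zero, hy, Matrix.trace_mul_single] at h
    simpa using h
  let f : LinearMap.range L'.toLinearMap →ₗ[k] Matrix (Fin 2) (Fin 2) k :=
    ((LinearMap.ker L'.toLinearMap).liftQ L.toLinearMap fun x hx => hker x hx).comp
      (L'.toLinearMap.quotKerEquivRange).symm.toLinearMap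
  have hfs : Function.Surjective f := fun M => by
    obtain ⟨x, rfl⟩ := hL M
    refine ⟨L'.toLinearMap.quotKerEquivRange (Submodule.Quotient.mk x), ?_⟩
    simp only [f, LinearMap.comp_apply, LinearEquiv.coe_coe, LinearEquiv.symm_apply_apply]
    rfl
  have hL' : Function.Surjective L' := LinearMap.range_eq_top.mp
    (Submodule.eq_top_of_finrank_eq (le_antisymm (Submodule.finrank_le _)
      (LinearMap.finrank_le_finrank_of_surjective hfs)))
  have hdef : ∀ x, L (Function.surjInv hL' (L' x)) = L x := fun x => sub_eq_zero.mp (by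
    rw [← map_sub]
    exact hker _ (by rw [map_sub, Function.surjInv_eq hL', sub_self]))
  let F : Matrix (Fin 2) (Fin 2) k →ₐ[k] Matrix (Fin 2) (Fin 2) k :=
    { toFun := fun M => L (Function.surjInv hL' M)
      map_one' := by
        have h1 := hdef 1
        rwa [map_one, map_one] at h1
      map_mul' := fun M M' => by
        obtain ⟨x, rfl⟩ := hL' M
        obtain ⟨y, rfl⟩ := hL' M'
        rw [← map_mul, hdef, hdef, hdef, map_mul]
      map_zero' := by
        have h1 := hdef 0
        rwa [map_zero, map_zero] at h1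
      map_add' := fun M M' => by
        obtain ⟨x, rfl⟩ := hL' M
        obtain ⟨y, rfl⟩ := hL' M'
        rw [← map_add, hdef, hdef, hdef, map_add]
      commutes' := fun c => by
        have h1 := hdef (algebraMap k _ c)
        rwa [AlgHom.commutes, AlgHom.commutes] at h1 }
  have hF : ∀ x, F (L' x) = L x := hdef
  have hFs : Function.Surjective F := fun M => by
    obtain ⟨x, rfl⟩ := hL M
    exact ⟨_, hF x⟩
  have hFi : Function.Injective F :=
    (LinearMap.injective_iff_surjective (f := F.toLinearMap)).mpr hFs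
  let e : Module.End k (Fin 2 → k) ≃ₐ[k] Module.End k (Fin 2 → k) :=
    (LinearMap.toMatrixAlgEquiv'.trans (AlgEquiv.ofBijective F ⟨hFi, hFs⟩)).trans
      LinearMap.toMatrixAlgEquiv'.symm
  obtain ⟨T, hT⟩ := e.eq_linearEquivConjAlgEquiv
  let g : (Matrix (Fin 2) (Fin 2) k) := LinearMap.toMatrix' T.toLinearMap
  have hg : IsUnit g := by
    refine IsUnit.of_mul_eq_one (LinearMap.toMatrix' T.symm.toLinearMap) ?_
    rw [← LinearMap.toMatrix'_comp]
    simp
  refine ⟨hg.unit, fun σ => ?_⟩
  have h1 : F (ρ' σ) = ρ σ := by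
    have := hF (MonoidAlgebra.of k G σ)
    rwa [MonoidAlgebra.lift_of, MonoidAlgebra.lift_of] at this
  have h2 := AlgEquiv.congr_fun hT (LinearMap.toMatrixAlgEquiv'.symm (ρ' σ))
  simp only [e, AlgEquiv.trans_apply, AlgEquiv.apply_symm_apply, LinearEquiv.conjAlgEquiv_apply]
    at h2
  rw [show (AlgEquiv.ofBijective F ⟨hFi, hFs⟩) (ρ' σ) = ρ σ from h1] at h2
  have h3 := congrArg (fun u => LinearMap.toMatrix' (u ∘ₗ T.toLinearMap)) h2
  simp only [LinearMap.comp_assoc, LinearEquiv.symm_comp, LinearMap.comp_id,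
    LinearMap.toMatrix'_comp] at h3
  rw [IsUnit.unit_spec]
  refine (Eq.trans ?_ h3.symm).trans ?_
  · congr 1
    exact (LinearMap.toMatrixAlgEquiv'.apply_symm_apply (ρ' σ)).symm
  · congr 1
    exact LinearMap.toMatrixAlgEquiv'.apply_symm_apply (ρ σ)

variable {O : Type} [CommRing O] [IsLocalRing O] {L : LevelData O}

/-- A lift of a level in any basis, with the residual traces, is classified by the universal
ring. -/
theorem LevelData.RepRing.exists_classifying (P : L.RepRing) {A : Type} [CommRing A] [IsLocalRing A]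
    [IsNoetherianRing A] [Algebra O A] [IsAdicComplete (maximalIdeal A) A]
    (hl : IsLocalHom (algebraMap O A)) (hs : Function.Surjective (residue A ∘ algebraMap O A))
    (M : MRep A) (hspan : Submodule.span (ResidueField O) (Set.range L.D.rbar) = ⊤)
    (htr : ∀ σ, toResidue hl hs (M σ).trace = (L.D.rbar σ).trace)
    (hcont : IsCont M) (heq : L.Equations M)
    (hconj : ∀ g : (Matrix (Fin 2) (Fin 2) A)ˣ,
      L.atPlace.Mem' (coordsOf fun σ : L.place.decompositionSubgroup ℚ => g.1 * M σ * g⁻¹.1)) :
    ∃ φ : P.R →ₐ[O] A, IsLocalHom (φ : P.R →+* A) ∧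
      ∃ g : (Matrix (Fin 2) (Fin 2) A)ˣ, ∀ σ, (g : Matrix (Fin 2) (Fin 2) A) * M σ =
        (P.rep σ).map φ * g := by
  have : HenselianRing A (maximalIdeal A) := inferInstance
  have hres : ∃ g : (Matrix (Fin 2) (Fin 2) (ResidueField O))ˣ, ∀ σ,
      (g : Matrix (Fin 2) (Fin 2) (ResidueField O)) * (M σ).map (toResidue hl hs) =
        L.D.rbar σ * g := by
    refine exists_conj_of_trace_eq L.D.rbar
      ((toResidue hl hs).toRingHom.mapMatrix.toMonoidHom.comp M) hspan fun σ => ?_
    rw [← htr σ]
    exact AddMonoidHom.map_trace (toResidue hl hs).toRingHom.toAddMonoidHom (M σ)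
  obtain ⟨N, ⟨hN, g, hg⟩, -⟩ := L.existsUnique_normalised hl hs M hres hcont heq hconj
  obtain ⟨φ, ⟨hφ, hφN⟩, -⟩ := P.universal A hl hs N hN
  refine ⟨φ, hφ, g, fun σ => ?_⟩
  rw [hg σ, ← hφN]
  rfl

/-- The classifying map sends traces to traces. -/
theorem trace_classifying {A : Type*} [CommRing A] {B : Type*} [CommRing B] (φ : B →+* A)
    {X : Matrix (Fin 2) (Fin 2) A} {Y : Matrix (Fin 2) (Fin 2) B}
    {g : (Matrix (Fin 2) (Fin 2) A)ˣ} (h : (g : Matrix (Fin 2) (Fin 2) A) * X = Y.map φ * g) :
    φ Y.trace = X.trace := by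
  rw [show φ Y.trace = (Y.map φ).trace from AddMonoidHom.map_trace φ.toAddMonoidHom Y]
  have : Y.map φ = (g : Matrix (Fin 2) (Fin 2) A) * X * ((g⁻¹ : (Matrix (Fin 2) (Fin 2) A)ˣ) : Matrix (Fin 2) (Fin 2) A) := by
    rw [h, mul_assoc, Units.mul_inv, mul_one]
  rw [this, Matrix.trace_mul_cycle, Units.inv_mul, one_mul]

end Fermat.Agent.Engine
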