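import Fermat.Agent.Engine.TRep.Rep
import Fermat.Agent.Engine.FlatDiv
import Fermat.Agent.Engine.Galois
import Fermat.Agent.FlatJ0.FlatCond

/-!
# The flat condition on the Hecke side

Inertia elements fixing `J₀(N)[p]` and `μ_p` change the traces in the lattice algebra by elements
acting into `p` on the lattice; hence, after any map to an algebra finite over the base, by elements
of `divIdeal`.  These inertia elements, inside a kernel with Fontaine's bound, form a kernel with
Fontaine's bound.
-/

set_option autoImplicit false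
set_option linter.unusedSectionVars false

noncomputable section

namespace Fermat.Agent.Engine.TRep

open EigenRep HeckeModule FlatJ0 ModularCurve AlgebraicCurve

local notation "GQ" => AlgebraicClosure ℚ ≃ₐ[ℚ] AlgebraicClosure ℚ

variable {N p : ℕ} [NeZero N] [Fact p.Prime] (I : RepInputs N p)

/-- Fixing the points killed by `p` is being `1` modulo `p` on the lattice. -/
theorem matMod_galMat_eq_one_iff (σ : GQ) :
    matMod p I.model.d 1 (galMat I.model σ) = 1 ↔ ∀ z : JZero N, p • z = 0 → σ • z = z := by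
  rw [matMod_galMat]
  constructor
  · intro h z hz
    have hz' : z ∈ Pic0.torsion (AlgebraicClosure ℚ) (modularFunctionFieldBar N) (p ^ 1) := by
      rw [Pic0.mem_torsion, pow_one, natCast_zsmul]
      exact hz
    have h1 := levelMat_mulVec I.model 1 σ ⟨z, hz'⟩
    rw [h, Matrix.one_mulVec] at h1
    have h2 := congrArg Subtype.val ((I.model.e 1).injective h1)
    rwa [JZero.coe_torsionGaloisRep_apply, eq_comm] at h2
  · intro h
    refine mat_ext I.model fun x => ?_
    rw [levelMat_mulVec, Matrix.one_mulVec]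
    refine congrArg _ (Subtype.ext ?_)
    rw [JZero.coe_torsionGaloisRep_apply]
    refine h _ ?_
    have hx := Pic0.mem_torsion.mp x.2
    simpa [pow_one, natCast_zsmul] using hx

include I in
/-- The kernel on `J₀(N)[p]` inside a kernel with the bound. -/
theorem isBoundKernel_torsionKer_inf {k : Type} [Field k]
    {A : ValuationSubring (AlgebraicClosure ℚ)} (hA : A.LiesOverPrime p)
    {ρ : GQ →* Matrix (Fin 2) (Fin 2) k} (hJ : JZeroBound N p) {N₀ : Subgroup GQ}
    (hN₀ : IsBoundKernel A p N₀ ρ) :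
    IsBoundKernel A p (torsionKer A p (JZero N) ⊓ N₀) ρ where
  le := inf_le_left.trans fun _ h => h.1
  normal g hg n hn := ⟨⟨mul_mem (mul_mem hg hn.1.1) (inv_mem hg), fun z hz => by
    rw [mul_smul, mul_smul, hn.1.2 (g⁻¹ • z) (by rw [smul_comm, hz]; exact smul_zero (A := JZero N) g⁻¹),
      smul_inv_smul]⟩, hN₀.normal g hg n hn.2⟩
  isOpen := by
    obtain ⟨F, hF, h1⟩ := exists_level_galMat I.model I.smooth 1
    obtain ⟨F', hF', h2⟩ := hN₀.isOpen
    have := hF
    have := hF'
    refine ⟨F ⊔ F', IntermediateField.finiteDimensional_sup F F', fun σ hσ hσF => ?_⟩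
    exact ⟨⟨hσ, (matMod_galMat_eq_one_iff I σ).1 (h1 σ fun a ha =>
        (IntermediateField.mem_fixingSubgroup_iff F σ).1
          (IntermediateField.fixingSubgroup_antitone le_sup_left hσF) a ha)⟩,
      h2 σ hσ (IntermediateField.fixingSubgroup_antitone le_sup_right hσF)⟩
  bound γ hγ := (hJ A hA γ hγ).inf (hN₀.bound γ hγ)
  trivial n hn := hN₀.trivial n hn.2
  continuous := hN₀.continuous

/-- Where a representation with cyclotomic determinant is trivial, so is the cyclotomic character
modulo `p`. -/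
theorem toZModPow_epsilon_eq_one {k : Type} [Field k] [CharP k p]
    {ρ : GQ →* Matrix (Fin 2) (Fin 2) k} {χ : GQ → k} (hχ : IsCyclotomicModP p χ)
    (hdet : ∀ σ, (ρ σ).det = χ σ) {σ : GQ} (hσ : ρ σ = 1) :
    PadicInt.toZModPow 1 (epsilonPadic p σ : ℤ_[p]) = 1 := by
  have h := hdet σ
  rw [hσ, Matrix.det_one, hχ σ (epsilonNat p 1 σ)
    (fun μ hμ => epsilon_spec σ (n := 1) (by rwa [pow_one])), ← Nat.cast_one,
    CharP.natCast_eq_natCast k p] at h
  have : NeZero (p ^ 1) := ⟨pow_ne_zero _ (Fact.out : p.Prime).ne_zero⟩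
  rw [← ZMod.natCast_zmod_val (PadicInt.toZModPow 1 (epsilonPadic p σ : ℤ_[p]))]
  show (epsilonNat p 1 σ : ZMod (p ^ 1)) = 1
  refine Eq.trans ((ZMod.natCast_eq_natCast_iff _ 1 _).2 ?_) Nat.cast_one
  rw [pow_one]
  exact h.symm

variable {Λ : Type} [CommRing Λ] (ι : ℤ_[p] →+* Λ) (S : Finset ℕ)

/-- The change of trace acts into `p` on the lattice. -/
theorem latTrace_sub_smul_mem {σ : GQ} (h₁ : matMod p I.model.d 1 (galMat I.model σ) = 1)
    (h₂ : PadicInt.toZModPow 1 (epsilonPadic p σ : ℤ_[p]) = 1) (g : GQ) (v : Lat I Λ) :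
    (latTrace I ι S (σ * g) - latTrace I ι S g) • v ∈
      Ideal.span {(p : Λ)} • (⊤ : Submodule Λ (Lat I Λ)) := by
  have h := matMod_tMat_eq I (n := 1) (g := σ * g) (σ := g)
    (by rw [map_mul, map_mul, h₁, one_mul])
    (by rw [map_mul, Units.val_mul, map_mul, h₂, one_mul])
  have hdvd : ∀ i j, ∃ c, (tMat I (σ * g) - tMat I g) i j = (p : ℤ_[p]) * c := fun i j => by
    have h' := congr($h i j)
    rw [matMod_apply, matMod_apply, ← sub_eq_zero, ← map_sub, ← RingHom.mem_ker,
      PadicInt.ker_toZModPow, Ideal.mem_span_singleton, pow_one] at h'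
    exact h'
  choose c hc using hdvd
  have e : tMat I (σ * g) - tMat I g = (p : ℤ_[p]) • Matrix.of c := by
    ext i j
    simp [hc]
  show matEnd I ι (tMat I (σ * g)) v - matEnd I ι (tMat I g) v ∈ _
  rw [← LinearMap.sub_apply, ← map_sub, e, matEnd_smul, LinearMap.smul_apply, map_natCast]
  exact Submodule.smul_mem_smul (Ideal.mem_span_singleton_self _) Submodule.mem_top

variable (m : Ideal (AwayPoly Λ (↑S : Set ℕ))) [m.IsPrime]

/-- **The change of trace is divisible at every point of any algebra finite over the base.** -/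
theorem tTrace_sub_mem_divIdeal {O : Type} [CommRing O] [IsDomain O] [CharZero O] {C : Type}
    [CommRing C] [Algebra O C] [Algebra.IsIntegral O C] (F : TLoc I ι S m →+* C) {σ : GQ}
    (h₁ : matMod p I.model.d 1 (galMat I.model σ) = 1)
    (h₂ : PadicInt.toZModPow 1 (epsilonPadic p σ : ℤ_[p]) = 1) (g : GQ) :
    F (tTrace I ι S m (σ * g)) - F (tTrace I ι S m g) ∈ divIdeal O p C := by
  have h := mem_divIdeal_of_smul_mem (O := O) (C := C) (Fact.out : p.Prime).ne_zero
    (T := LatAlg I ι S) (V := Lat I Λ) (Λ := Λ)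
    (fun x hx => Subtype.ext (LinearMap.ext hx))
    (F.comp (algebraMap (LatAlg I ι S) (TLoc I ι S m)))
    (t := latTrace I ι S (σ * g) - latTrace I ι S g)
    (latTrace_sub_smul_mem I ι S h₁ h₂ g)
  rwa [map_sub] at h

end Fermat.Agent.Engine.TRep
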