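import Fermat.Agent.Engine.TRep.Local
import Fermat.Agent.Engine.LevelRing
import Fermat.Agent.SemistableRed.GaloisCompat
import Fermat.Agent.Reduction.Igusa

/-!
# Inertia at primes exactly dividing the level is unipotent in the representation
-/

set_option autoImplicit false
set_option linter.unusedSectionVars false

noncomputable section

namespace Fermat.Agent.Engine.TRep

open EigenRep HeckeModule DefRing Matrix ModularCurve IsLocalRing

local notation "GQ" => AlgebraicClosure ℚ ≃ₐ[ℚ] AlgebraicClosure ℚ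

variable {N p : ℕ} [NeZero N] [Fact p.Prime] (I : RepInputs N p)
  {O : Type} [CommRing O] [IsLocalRing O] (ι : ℤ_[p] →+* O) (S : Finset ℕ)
  (m : Ideal (AwayPoly O (↑S : Set ℕ))) [m.IsPrime]
  {R : MRep (TLoc I ι S m)} (hR : IsTorsionRep I ι S m R)

include hR

/-- Inertia is unipotent at a prime, different from `p`, exactly dividing the level. -/
theorem IsTorsionRep.unipotent' {q : ℕ} (hq : q.Prime) (hqp : q ≠ p) (hqN : q ∣ N)
    (hq2 : ¬ q * q ∣ N) {A : ValuationSubring (AlgebraicClosure ℚ)} (hA : A.LiesOverPrime q)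
    {σ : GQ} (hσ : σ ∈ A.inertiaSubgroupIn ℚ) : (R σ - 1) * (R σ - 1) = 0 := by
  obtain ⟨M, hM⟩ := hqN
  rw [mul_comm] at hM
  have hqM : ¬ q ∣ M := fun ⟨c, hc⟩ => hq2 ⟨c, by rw [hM, hc]; ring⟩
  have : NeZero M := ⟨fun h => NeZero.ne N (by rw [hM, h, zero_mul])⟩
  have : Fact q.Prime := ⟨hq⟩
  exact hR.unipotent I ι S m hM.symm
    (SemistableRed.inertiaUnipotent_of_facts hqM fun A hA => ⟨_, Reduction.reductionFacts hqM hA⟩)
    ((Nat.coprime_primes Fact.out hq).mpr hqp.symm) hA hσ

end Fermat.Agent.Engine.TRep
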