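import Fermat.Agent.Engine.TRep.Rep
import Fermat.Agent.SemistableRed.Interface

/-!
# Local equations of the representation over the localised Hecke algebra

Identities between Galois elements on the torsion become identities between matrices.
-/

set_option autoImplicit false
set_option linter.unusedSectionVars false

noncomputable section

namespace Fermat.Agent.Engine.TRep

open EigenRep HeckeModule DefRing Matrix ModularCurve

local notation "GQ" => AlgebraicClosure ℚ ≃ₐ[ℚ] AlgebraicClosure ℚ

variable {N p : ℕ} [NeZero N] [Fact p.Prime] (I : RepInputs N p)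

/-- A vanishing integral combination transported to matrices along an additive map. -/
theorem sum_zsmul_mulVec {B G : Type*} [CommRing B] [AddCommGroup G] {d r : ℕ}
    (e : G →+ (Fin d → B)) (c : Fin r → ℤ) (L : Fin r → Matrix (Fin d) (Fin d) B) (x : G)
    (y : Fin r → G) (hy : ∀ i, L i *ᵥ e x = e (y i)) (h : ∑ i, c i • y i = 0) :
    (∑ i, c i • L i) *ᵥ e x = 0 := by
  rw [Matrix.sum_mulVec]
  have : ∀ i, (c i • L i) *ᵥ e x = e (c i • y i) := fun i => by
    rw [Matrix.smul_mulVec, hy i, map_zsmul]
  rw [Finset.sum_congr rfl fun i _ => this i, ← map_sum, h, map_zero]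

/-- An integral combination pushed through an additive map. -/
theorem map_sum_intSmul {A B : Type*} [AddCommGroup A] [AddCommGroup B] [Module ℤ_[p] A]
    (f : A →+ B) {r : ℕ} (c : Fin r → ℤ) (X : Fin r → A) (Y : Fin r → B)
    (hXY : ∀ i, f (X i) = Y i) : f (∑ i, (c i : ℤ_[p]) • X i) = ∑ i, c i • Y i := by
  rw [map_sum]
  exact Finset.sum_congr rfl fun i _ => by rw [Int.cast_smul_eq_zsmul, map_zsmul, hXY]

/-- A relation on the `p`-power torsion is a relation between the Galois matrices. -/
theorem galMat_relation {r : ℕ} (c : Fin r → ℤ) (g : Fin r → GQ)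
    (h : ∀ x : JZero N, (∃ n : ℕ, p ^ n • x = 0) → ∑ i, c i • g i • x = 0) :
    ∑ i, (c i : ℤ_[p]) • galMat I.model (g i) = 0 := by
  refine matMod_ext fun n => mat_ext I.model fun x => ?_
  have h1 := map_sum_intSmul (p := p) (matMod p I.model.d n).toAddMonoidHom c
    (fun i => galMat I.model (g i)) (fun i => levelMat I.model n (g i))
    (fun i => matMod_galMat I.model n (g i))
  have h2 := sum_zsmul_mulVec (I.model.e n).toAddMonoidHom c
    (fun i => levelMat I.model n (g i)) x (fun i => JZero.torsionGaloisRep N (p ^ n) (g i) x)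
    (fun i => levelMat_mulVec I.model n (g i) x) (by
      refine Subtype.ext ?_
      rw [AddSubgroup.val_finsetSum, ZeroMemClass.coe_zero, ← h x (exists_pow_nsmul_eq_zero x)]
      exact Finset.sum_congr rfl fun i _ => by
        rw [AddSubgroup.coe_zsmul, JZero.coe_torsionGaloisRep_apply])
  rw [map_zero (matMod p I.model.d n), Matrix.zero_mulVec]
  exact (congrArg (· *ᵥ I.model.e n x) h1).trans h2

variable {O : Type} [CommRing O] (ι : ℤ_[p] →+* O) (S : Finset ℕ)
  (m : Ideal (AwayPoly O (↑S : Set ℕ))) [m.IsPrime]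
  {R : MRep (TLoc I ι S m)} (hR : IsTorsionRep I ι S m R)

include hR

/-- A relation on the torsion is a relation in the representation. -/
theorem IsTorsionRep.of_torsion {r : ℕ} (c : Fin r → ℤ) (g : Fin r → GQ)
    (h : ∀ x : JZero N, (∃ n : ℕ, p ^ n • x = 0) → ∑ i, c i • g i • x = 0) :
    ∑ i, c i • R (g i) = 0 := by
  have h0 := galMat_relation I c g h
  have := hR.transfer (fun i => (c i : ℤ_[p])) g fun n => ⟨1, one_mem _, by
    have h1 : (⟨matEnd I ι 1, matEnd_mem I ι S (one_mem (matAway I S))⟩ : LatAlg I ι S) = 1 :=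
      Subtype.ext (map_one (matEnd I ι))
    rw [h1]
    exact one_mem _, by rw [h0, mul_zero, map_zero]⟩
  simp only [map_intCast] at this
  refine Eq.trans (Finset.sum_congr rfl fun i _ => ?_) this
  exact (Int.cast_smul_eq_zsmul (TLoc I ι S m) (c i) (R (g i))).symm

/-- Unramified outside the level and `p`. -/
theorem IsTorsionRep.unramified {ℓ : ℕ} (hℓ : ℓ.Prime) (hd : ¬ ℓ ∣ N * p)
    {A : ValuationSubring (AlgebraicClosure ℚ)} (hA : A.LiesOverPrime ℓ) {σ : GQ}
    (hσ : σ ∈ A.inertiaSubgroupIn ℚ) : R σ = 1 := by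
  have h := hR.of_torsion I ι S m ![1, -1] ![σ, 1] fun x hx => by
    simp [Fin.sum_univ_two, I.es.inertia ℓ hℓ hd A hA σ hσ x hx]
  simpa [Fin.sum_univ_two, add_neg_eq_zero] using h

/-- Unipotent inertia at a prime exactly dividing the level. -/
theorem IsTorsionRep.unipotent {M q : ℕ} (hN : M * q = N)
    (hI : SemistableRed.InertiaUnipotent M q) (hqp : p.Coprime q)
    {A : ValuationSubring (AlgebraicClosure ℚ)} (hA : A.LiesOverPrime q) {σ : GQ}
    (hσ : σ ∈ A.inertiaSubgroupIn ℚ) : (R σ - 1) * (R σ - 1) = 0 := by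
  subst hN
  have h := hR.of_torsion I ι S m ![1, -2, 1] ![σ * σ, σ, 1] fun x ⟨n, hn⟩ => by
    have h0 := hI A hA σ hσ (p ^ n) (Nat.Coprime.pow_left n hqp) x hn
    simp only [Fin.sum_univ_three, Matrix.cons_val_zero, Matrix.cons_val_one, Matrix.cons_val_two,
      Matrix.tail_cons, Matrix.head_cons, neg_zsmul, mul_smul, one_smul]
    rw [← h0]
    simp only [sub_eq_add_neg, two_zsmul, two_nsmul]
  simp only [Fin.sum_univ_three, Matrix.cons_val_zero, Matrix.cons_val_one, Matrix.cons_val_two,
    Matrix.tail_cons, Matrix.head_cons, one_zsmul, neg_zsmul, two_zsmul, map_one, map_mul] at h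
  rw [← h, sub_mul, mul_sub, mul_one, one_mul]
  abel

omit hR in
/-- A unipotent matrix with determinant one has trace two. -/
theorem trace_eq_two_of_unipotent {B : Type*} [CommRing B] (X : Matrix (Fin 2) (Fin 2) B)
    (hdet : X.det = 1) (h : (X - 1) * (X - 1) = 0) : X.trace = 2 := by
  have h00 := congrFun (congrFun h 0) 0
  have h01 := congrFun (congrFun h 0) 1
  have h10 := congrFun (congrFun h 1) 0
  have h11 := congrFun (congrFun h 1) 1
  simp [Matrix.mul_apply, Fin.sum_univ_two, Matrix.sub_apply] at h00 h01 h10 h11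
  rw [Matrix.det_fin_two] at hdet
  rw [Matrix.trace_fin_two]
  -- `(tr X - 2) • X = 0` and `X` is invertible
  linear_combination (X 1 1) * h00 - (X 1 0) * h01 + (X 1 1 - (X 0 0 + X 1 1 - 2)) * hdet

end Fermat.Agent.Engine.TRep
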