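import Fermat.Agent.Engine.TRep.TwistAlgebra
import Fermat.Agent.TwoAdic.Modules.LocCompare
import Fermat.Agent.TwoAdic.Modules.SemiCoh

/-!
# The family at a finer localisation; change of coefficients

`relHom`: the algebra of a family acts on the classes localised at any larger monoid (at `U_q ≡ α_q`
for auxiliary primes).  `charChange`: change of coefficients along a surjection `σ` is onto, with
kernel `ker σ`; bases go to bases.
-/

set_option autoImplicit false
set_option linter.unusedSectionVars false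

noncomputable section

namespace Fermat.Agent.Engine.TRep

open EigenRep HeckeModule EigenSystems IsLocalRing TwoAdic

section Rel

variable {O : Type} [CommRing O] [IsLocalRing O] {Λ : Type} [CommRing Λ] [IsLocalRing Λ]
  [IsNoetherianRing Λ] [IsAdicComplete (maximalIdeal Λ) Λ] [Algebra O Λ]
  [IsLocalHom (algebraMap O Λ)] (hsΛ : Function.Surjective (residue Λ ∘ algebraMap O Λ))
  (S : Finset ℕ) (lam : ℕ → O) (ψ : ∀ q : ℕ, (ZMod q)ˣ →* Λ) (Q : Finset ℕ) {J : Type} [Fintype J]
  (M : J → ℕ) [∀ j, NeZero (M j)] {P : Submonoid (HeckePoly Λ)}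
  (hP : awayMonoid (lamIdeal hsΛ S lam) ≤ P)

/-- The classes at the finer localisation. -/
abbrev RelCoh (P : Submonoid (HeckePoly Λ)) (j : J) : Type :=
  CohLoc P (scalarRep (charSq ψ Q (M j)) Λ)

include hP in
/-- The away localisation acts on the finer localisation. -/
theorem exists_relHom (j : J) :
    ∃ F : TwAlg hsΛ S lam ψ Q M →ₐ[Λ] Module.End Λ (RelCoh ψ Q M P j),
      ∀ (X : AwayPoly Λ (↑S : Set ℕ)) (u : RelCoh ψ Q M P j),
        F (twClass hsΛ S lam ψ Q M X) u = awayIncl Λ (↑S : Set ℕ) X • u := by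
  set W := RelCoh ψ Q M P j
  set act : AwayPoly Λ (↑S : Set ℕ) →ₐ[Λ] Module.End Λ W :=
    (Algebra.lsmul Λ Λ W (A := HeckePoly Λ)).comp (awayIncl Λ (↑S : Set ℕ))
  have hu : ∀ y : (lamIdeal hsΛ S lam).primeCompl, IsUnit (act y) := fun y =>
    (Module.End.isUnit_iff _).mpr (bijective_smul_of_mem (hP (mem_awayMonoid y.2)))
  have hker : ∀ z : Localization.AtPrime (lamIdeal hsΛ S lam),
      actRange hsΛ S lam ψ Q M z = 0 → ∀ (a : AwayPoly Λ (↑S : Set ℕ))
        (s : (lamIdeal hsΛ S lam).primeCompl), z = IsLocalization.mk' _ a s → act a = 0 := by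
    intro z hz a s hzs
    have h0 : twClass hsΛ S lam ψ Q M a = 0 := by
      rw [show twClass hsΛ S lam ψ Q M a = actRange hsΛ S lam ψ Q M
        (algebraMap _ (Localization.AtPrime (lamIdeal hsΛ S lam)) a) from rfl,
        ← IsLocalization.mk'_spec (Localization.AtPrime (lamIdeal hsΛ S lam)) a s, ← hzs, map_mul,
        hz, zero_mul]
    refine LinearMap.ext fun w => ?_
    show awayIncl Λ (↑S : Set ℕ) a • w = 0
    induction w using LocalizedModule.induction_on with
    | _ u t =>
      have h1 : awayIncl Λ (↑S : Set ℕ) a •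
          toLoc (awayMonoid (lamIdeal hsΛ S lam)) (scalarRep (charSq ψ Q (M j)) Λ) u = 0 := by
        rw [← twClass_apply, h0]
        rfl
      have h2 : awayIncl Λ (↑S : Set ℕ) a • LocalizedModule.mk u (1 : P) = (0 : W) := by
        have h3 := congrArg (TwoAdic.locMono (ρ := scalarRep (charSq ψ Q (M j)) Λ) hP) h1
        rw [map_smul, map_zero, toLoc, LocalizedModule.mkLinearMap_apply, TwoAdic.locMono_mk] at h3
        exact h3
      refine (bijective_smul_of_mem t.2).1 ?_
      show (t : HeckePoly Λ) • awayIncl Λ (↑S : Set ℕ) a • LocalizedModule.mk u t =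
        (t : HeckePoly Λ) • (0 : W)
      rw [smul_comm, smul_zero, LocalizedModule.smul'_mk (t : HeckePoly Λ),
        ← Submonoid.smul_def, show LocalizedModule.mk (t • u) t = LocalizedModule.mk u 1 by
          rw [LocalizedModule.mk_cancel], h2]
  -- lift through the localisation
  let g : Localization.AtPrime (lamIdeal hsΛ S lam) →ₐ[Λ] Module.End Λ W :=
    (Algebra.lsmul Λ Λ W (A := Localization P)).comp
      (IsLocalization.liftAlgHom (M := (lamIdeal hsΛ S lam).primeCompl)
        (f := (IsScalarTower.toAlgHom Λ (HeckePoly Λ) (Localization P)).comp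
          (awayIncl Λ (↑S : Set ℕ)))
        fun y => IsLocalization.map_units (Localization P)
          (⟨_, hP (mem_awayMonoid y.2)⟩ : P))
  have hg : ∀ a, g (algebraMap _ _ a) = act a := fun a => LinearMap.ext fun w => by
    show (IsLocalization.liftAlgHom (M := (lamIdeal hsΛ S lam).primeCompl) _
      (algebraMap (AwayPoly Λ (↑S : Set ℕ)) (Localization.AtPrime (lamIdeal hsΛ S lam)) a) :
        Localization P) • w = _
    refine (congrArg (· • w) (IsLocalization.lift_eq _ a)).trans ?_
    exact algebraMap_smul (R := HeckePoly Λ) (Localization P) (awayIncl Λ (↑S : Set ℕ) a) w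
  have hker' : RingHom.ker (actRange hsΛ S lam ψ Q M).toRingHom ≤ RingHom.ker g.toRingHom := by
    intro z hz
    obtain ⟨⟨a, s⟩, rfl⟩ := IsLocalization.mk'_surjective (lamIdeal hsΛ S lam).primeCompl z
    have h0 := hker _ (RingHom.mem_ker.mp hz) a s rfl
    rw [RingHom.mem_ker]
    refine ((hu s).mul_left_eq_zero).mp ?_
    show g (IsLocalization.mk' _ a s) * act s = 0
    rw [← hg, ← map_mul, IsLocalization.mk'_spec, hg, h0]
  let e := Ideal.quotientKerAlgEquivOfSurjective (actRange_surjective hsΛ S lam ψ Q M)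
  let G := Ideal.Quotient.liftₐ (RingHom.ker (actRange hsΛ S lam ψ Q M).toRingHom) g
    fun z hz => hker' hz
  refine ⟨G.comp e.symm.toAlgHom, fun X u => ?_⟩
  have he : e.symm (twClass hsΛ S lam ψ Q M X) =
      Ideal.Quotient.mk _ (algebraMap _ (Localization.AtPrime (lamIdeal hsΛ S lam)) X) :=
    Ideal.quotientKerAlgEquivOfSurjective_symm_apply (actRange_surjective hsΛ S lam ψ Q M) _
  show G (e.symm (twClass hsΛ S lam ψ Q M X)) u = _
  rw [he]
  show g _ u = _
  rw [hg]
  rfl

end Rel

section Change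

variable {R O : Type} [CommRing R] [CommRing O] [IsNoetherianRing R] {σ : R →+* O}
  {N : ℕ} {χ : (ZMod N)ˣ →* R} {χ' : (ZMod N)ˣ →* O} {P : Submonoid (HeckePoly R)}
  {P' : Submonoid (HeckePoly O)}

/-- Change of coefficients on localised classes. -/
def charChange (hχ : ∀ u, σ (χ u) = χ' u) (hP : ∀ s ∈ P, MvPolynomial.map σ s ∈ P') :
    CohChar P χ R →ₛₗ[σ] CohChar P' χ' O :=
  semiLoc σ.toSemilinearMap (fun u a => by
    show σ (χ u * a) = χ' u * σ a
    rw [map_mul, hχ]) hP

theorem charChange_smul (hχ : ∀ u, σ (χ u) = χ' u) (hP : ∀ s ∈ P, MvPolynomial.map σ s ∈ P')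
    (a : HeckePoly R) (x : CohChar P χ R) :
    charChange hχ hP (a • x) = MvPolynomial.map σ a • charChange hχ hP x :=
  semiLoc_smul _ _ hP a x

variable (hσ : Function.Surjective σ) (hχ : ∀ u, σ (χ u) = χ' u)
  (hP : ∀ s ∈ P, MvPolynomial.map σ s ∈ P') (hP' : ∀ t ∈ P', ∃ s ∈ P, MvPolynomial.map σ s = t)
  (h : ExactHyp P χ)

include hσ hP' h in
/-- Onto, with kernel `ker σ`. -/
theorem charChange_props :
    Function.Surjective (charChange hχ hP) ∧
      ∀ x, charChange hχ hP x = 0 ↔ x ∈ RingHom.ker σ • (⊤ : Submodule R (CohChar P χ R)) := by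
  let f : (R ⧸ RingHom.ker σ) →ₛₗ[σ] O :=
    Submodule.liftQ (RingHom.ker σ) σ.toSemilinearMap fun _ hr =>
      LinearMap.mem_ker.mpr ((RingHom.mem_ker (f := σ)).mp hr)
  have hfi : Function.Injective f := (injective_iff_map_eq_zero _).mpr fun u hu => by
    obtain ⟨r, rfl⟩ := Submodule.mkQ_surjective _ u
    exact (Submodule.Quotient.mk_eq_zero _).mpr (RingHom.mem_ker.mpr hu)
  have hfs : Function.Surjective f := fun v => by
    obtain ⟨r, rfl⟩ := hσ v
    exact ⟨Submodule.Quotient.mk r, rfl⟩
  have hf : ∀ u (a : R ⧸ RingHom.ker σ),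
      f (scalarRep χ (R ⧸ RingHom.ker σ) u a) = scalarRep χ' O u (f a) := fun u a => by
    rw [scalarRep_apply, LinearMap.map_smulₛₗ, hχ]
    rfl
  have hcomp : ∀ x, charChange hχ hP x =
      semiLoc f hf hP (charMap P χ (RingHom.ker σ).mkQ x) := fun x => by
    induction x using LocalizedModule.induction_on with
    | _ u s =>
      obtain ⟨c, rfl⟩ := toCoh_surjective (scalarRep χ R) u
      rw [charMap, locMap_mk, cohMap_toCoh, charChange, semiLoc_mk, semiLoc_mk]
      rfl
  refine ⟨fun y => ?_, fun x => ?_⟩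
  · obtain ⟨z, rfl⟩ := semiLoc_surjective f hf hP hP' hfi hfs y
    obtain ⟨x, rfl⟩ := charMap_surjective h _ (RingHom.ker σ).mkQ_surjective z
    exact ⟨x, hcomp x⟩
  · rw [hcomp, ← ker_charMap_mkQ h (RingHom.ker σ) x]
    exact map_eq_zero_iff _ (semiLoc_injective f hf hP hP' hfi hfs)

include hσ hP' h in
/-- A basis goes to a basis. -/
theorem exists_basis_charChange {ι : Type} [Fintype ι] (b : Module.Basis ι R (CohChar P χ R)) :
    ∃ b' : Module.Basis ι O (CohChar P' χ' O), ∀ i, b' i = charChange hχ hP (b i) := by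
  obtain ⟨hs, hk⟩ := charChange_props hσ hχ hP hP' h
  have hspan : ⊤ ≤ Submodule.span O (Set.range fun i => charChange hχ hP (b i)) := fun y _ => by
    obtain ⟨x, rfl⟩ := hs y
    rw [← b.sum_repr x, map_sum]
    refine sum_mem fun i _ => ?_
    rw [LinearMap.map_smulₛₗ]
    exact Submodule.smul_mem _ _ (Submodule.subset_span ⟨i, rfl⟩)
  have hli : LinearIndependent O fun i => charChange hχ hP (b i) := by
    refine Fintype.linearIndependent_iff.mpr fun c hc i => ?_
    choose r hr using fun i => hσ (c i)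
    have h0 : charChange hχ hP (∑ i, r i • b i) = 0 := by
      rw [map_sum, ← hc]
      exact Finset.sum_congr rfl fun i _ => by rw [LinearMap.map_smulₛₗ, hr]
    have h1 := map_mem_smul_top ((Finsupp.lapply i).comp b.repr.toLinearMap) _ ((hk _).mp h0)
    rw [smul_eq_mul, Ideal.mul_top, LinearMap.comp_apply, LinearEquiv.coe_toLinearMap,
      Finsupp.lapply_apply, b.repr_sum_self, RingHom.mem_ker, hr] at h1
    exact h1
  exact ⟨Module.Basis.mk hli hspan, fun i => Module.Basis.mk_apply hli hspan i⟩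

include hσ hP' h in
/-- Prescribed images of a basis can be lifted to a basis, if the kernel lies in the radical. -/
theorem exists_basis_lift [IsLocalRing R] [Module.Finite R (CohChar P χ R)]
    (hne : RingHom.ker σ ≠ ⊤) {ι : Type} [Fintype ι] (c : Module.Basis ι O (CohChar P' χ' O)) :
    ∃ b : Module.Basis ι R (CohChar P χ R), ∀ i, charChange hχ hP (b i) = c i := by
  classical
  have := free_cohChar h
  obtain ⟨hs, hk⟩ := charChange_props hσ hχ hP hP' h
  choose v hv using fun i => hs (c i)
  let b₀ := Module.Free.chooseBasis R (CohChar P χ R)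
  obtain ⟨b₀', hb₀'⟩ := exists_basis_charChange hσ hχ hP hP' h b₀
  have : Nontrivial O := by
    by_contra hO
    rw [not_nontrivial_iff_subsingleton] at hO
    exact hne (eq_top_iff.mpr fun x _ => RingHom.mem_ker.mpr (Subsingleton.elim _ _))
  have hcard : Fintype.card ι = Fintype.card (Module.Free.ChooseBasisIndex R (CohChar P χ R)) :=
    Fintype.card_congr (c.indexEquiv b₀')
  have hspan : ⊤ ≤ Submodule.span R (Set.range v) := by
    refine Submodule.le_of_le_smul_of_le_jacobson_bot (I := RingHom.ker σ) Module.Finite.fg_top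
      ((IsLocalRing.le_maximalIdeal hne).trans (IsLocalRing.maximalIdeal_le_jacobson _))
      fun x _ => ?_
    choose r hr using fun i => hσ (c.repr (charChange hχ hP x) i)
    refine Submodule.mem_sup.mpr ⟨∑ i, r i • v i,
      sum_mem fun i _ => Submodule.smul_mem _ _ (Submodule.subset_span ⟨i, rfl⟩),
      x - ∑ i, r i • v i, (hk _).mp ?_, add_sub_cancel _ _⟩
    rw [map_sub, map_sum, sub_eq_zero]
    refine (c.sum_repr _).symm.trans (Finset.sum_congr rfl fun i _ => ?_)
    rw [LinearMap.map_smulₛₗ, hr, hv]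
  refine ⟨basisOfTopLeSpanOfCardEqFinrank v hspan (by
    rw [hcard, Module.finrank_eq_card_chooseBasisIndex]), fun i => ?_⟩
  rw [coe_basisOfTopLeSpanOfCardEqFinrank, hv]

end Change

end Fermat.Agent.Engine.TRep
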