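import Fermat.Agent.Engine.TRep.Twist
import Fermat.Agent.Engine.TRep.Lift
import Fermat.Agent.Engine.TRep.Classify
import Fermat.Agent.Engine.TRep.Ext
import Fermat.Agent.HeckeModule.Finite

/-!
# The Hecke algebra of a family of levels with auxiliary characters

`TwAlg` is the image of the localised away algebra in the endomorphisms of the localised
`H¹(Γ₀(M j), Λ(∏ ψ²))`, `j : J`: a commutative local finite `Λ`-algebra.  The localised lattice
algebra of a level divisible by every `M j ∏ q` maps to it by `X_ℓ ↦ ψ(ℓ)⁻¹ T_ℓ`, and so does the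
deformation ring.
-/

set_option autoImplicit false
set_option linter.unusedSectionVars false

noncomputable section

namespace Fermat.Agent.Engine.TRep

open EigenRep HeckeModule EigenSystems IsLocalRing DefRing Deform

local notation "Qbar" => AlgebraicClosure ℚ

/-- Finite local algebras over complete noetherian local rings are complete. -/
theorem isAdicComplete_maximalIdeal_of_finite (A C : Type) [CommRing A] [IsLocalRing A]
    [IsNoetherianRing A] [IsAdicComplete (maximalIdeal A) A] [CommRing C] [Algebra A C]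
    [Module.Finite A C] [IsLocalRing C] : IsAdicComplete (maximalIdeal C) C := by
  have : IsNoetherianRing C := isNoetherian_of_tower A inferInstance
  have := isAdicComplete_of_finite (C := C) A
  have : Algebra.IsIntegral A C := Algebra.IsIntegral.of_finite A C
  set J := (maximalIdeal A).map (algebraMap A C) with hJ
  have hJm : J ≤ maximalIdeal C := by
    refine IsLocalRing.le_maximalIdeal fun h => ?_
    have := IsHausdorff.haus (inferInstance : IsHausdorff J C) 1 fun n => by
      rw [SModEq.zero, h, Ideal.top_pow, Submodule.top_smul]; trivial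
    exact one_ne_zero this
  have hrad : maximalIdeal C ≤ J.radical := by
    rw [Ideal.radical_eq_sInf]
    refine le_sInf fun P ⟨hP, hPp⟩ => ?_
    have := hPp
    have hmax : (P.comap (algebraMap A C)).IsMaximal := by
      have h := (maximalIdeal.isMaximal A).eq_of_le (Ideal.comap_ne_top _ hPp.ne_top)
        (Ideal.map_le_iff_le_comap.mp hP)
      rw [← h]
      infer_instance
    rw [IsLocalRing.eq_maximalIdeal (Ideal.isMaximal_of_isIntegral_of_isMaximal_comap P hmax)]
  obtain ⟨e, he⟩ := Ideal.exists_pow_le_of_le_radical_of_fg hrad (IsNoetherian.noetherian _)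
  refine { toIsHausdorff := IsHausdorff.of_isLocalRing (maximalIdeal C) C (maximalIdeal.isMaximal C).ne_top,
           toIsPrecomplete := ⟨fun f hf => ?_⟩ }
  have hpow : ∀ k, maximalIdeal C ^ ((e + 1) * k) ≤ J ^ k := fun k => by
    rw [pow_mul]
    exact Ideal.pow_right_mono ((Ideal.pow_le_pow_right (Nat.le_succ e)).trans he) k
  obtain ⟨x, hx⟩ := IsPrecomplete.prec (inferInstance : IsPrecomplete J C)
    (f := fun k => f ((e + 1) * k)) fun {a b} hab => by
    have h := hf (Nat.mul_le_mul_left (e + 1) hab)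
    rw [SModEq.sub_mem, smul_eq_mul, Ideal.mul_top] at h ⊢
    exact hpow a h
  refine ⟨x, fun k => ?_⟩
  have h1 := hx k
  have h2 := hf (show k ≤ (e + 1) * k by rw [add_mul, one_mul]; exact Nat.le_add_left k _)
  rw [SModEq.sub_mem, smul_eq_mul, Ideal.mul_top] at h1 h2 ⊢
  rw [show f k - x = (f k - f ((e + 1) * k)) + (f ((e + 1) * k) - x) by ring]
  exact add_mem h2 (Ideal.pow_right_mono hJm k h1)

variable (O : Type) [CommRing O] [IsLocalRing O] (Λ : Type) [CommRing Λ] [IsLocalRing Λ]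
  [IsNoetherianRing Λ] [IsAdicComplete (maximalIdeal Λ) Λ] [Algebra O Λ]
  [IsLocalHom (algebraMap O Λ)] (hsΛ : Function.Surjective (residue Λ ∘ algebraMap O Λ))
  (S : Finset ℕ) (lam : ℕ → O)

/-- The residual system on the Hecke polynomials over `Λ`. -/
def lamHom : AwayPoly Λ (↑S : Set ℕ) →+* ResidueField O :=
  MvPolynomial.eval₂Hom (toResidue (inferInstance : IsLocalHom (algebraMap O Λ)) hsΛ : Λ →+* _)
    fun l => residue O (lam ((l : Nat.Primes) : ℕ))

variable {O Λ}

@[simp] theorem lamHom_X (l : AwayIndex (↑S : Set ℕ)) :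
    lamHom O Λ hsΛ S lam (MvPolynomial.X l) = residue O (lam ((l : Nat.Primes) : ℕ)) :=
  MvPolynomial.eval₂Hom_X' _ _ _

@[simp] theorem lamHom_C (x : Λ) :
    lamHom O Λ hsΛ S lam (MvPolynomial.C x) =
      toResidue (inferInstance : IsLocalHom (algebraMap O Λ)) hsΛ x :=
  MvPolynomial.eval₂Hom_C _ _ _

theorem lamHom_algebraMap (o : O) :
    lamHom O Λ hsΛ S lam (algebraMap Λ _ (algebraMap O Λ o)) = residue O o := by
  rw [MvPolynomial.algebraMap_eq, lamHom_C, AlgHom.commutes]
  rfl

/-- The maximal ideal of the residual system. -/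
def lamIdeal : Ideal (AwayPoly Λ (↑S : Set ℕ)) := RingHom.ker (lamHom O Λ hsΛ S lam)

instance : (lamIdeal hsΛ S lam).IsPrime := RingHom.ker_isPrime _

theorem maximalIdeal_le_lamIdeal :
    (maximalIdeal Λ).map (algebraMap Λ (AwayPoly Λ (↑S : Set ℕ))) ≤ lamIdeal hsΛ S lam :=
  Ideal.map_le_iff_le_comap.mpr fun x hx => by
    rw [Ideal.mem_comap, lamIdeal, RingHom.mem_ker, MvPolynomial.algebraMap_eq, lamHom_C]
    exact (toResidue_eq_zero_iff _ hsΛ).mpr hx

variable (ψ : ∀ q : ℕ, (ZMod q)ˣ →* Λ) (Q : Finset ℕ) {J : Type} [Fintype J] (M : J → ℕ)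
  [∀ j, NeZero (M j)]

/-- The localised classes at the `j`th level. -/
abbrev LevelCoh (j : J) : Type :=
  CohLoc (awayMonoid (lamIdeal hsΛ S lam)) (scalarRep (charSq ψ Q (M j)) Λ)

/-- The endomorphisms of the family. -/
abbrev TwEnd : Type := ∀ j, Module.End Λ (LevelCoh hsΛ S lam ψ Q M j)

/-- The localised away algebra acts on the family. -/
def actLoc : Localization.AtPrime (lamIdeal hsΛ S lam) →ₐ[Λ] TwEnd hsΛ S lam ψ Q M :=
  AlgHom.pi fun j => (Algebra.lsmul Λ Λ (LevelCoh hsΛ S lam ψ Q M j)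
    (A := Localization (awayMonoid (lamIdeal hsΛ S lam)))).comp
      (IsLocalization.liftAlgHom (M := (lamIdeal hsΛ S lam).primeCompl)
        (f := (IsScalarTower.toAlgHom Λ (HeckePoly Λ)
          (Localization (awayMonoid (lamIdeal hsΛ S lam)))).comp (awayIncl Λ (↑S : Set ℕ)))
        fun y => IsLocalization.map_units (Localization (awayMonoid (lamIdeal hsΛ S lam)))
          (⟨_, mem_awayMonoid y.2⟩ : awayMonoid (lamIdeal hsΛ S lam)))

/-- The Hecke algebra of the family. -/
def TwAlg : Subalgebra Λ (TwEnd hsΛ S lam ψ Q M) := (actLoc hsΛ S lam ψ Q M).range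

instance : IsMulCommutative (TwAlg hsΛ S lam ψ Q M) := ⟨⟨fun a b => by
  obtain ⟨_, x, rfl⟩ := a
  obtain ⟨_, y, rfl⟩ := b
  exact Subtype.ext ((map_mul _ x y).symm.trans ((congrArg _ (mul_comm x y)).trans (map_mul _ y x)))⟩⟩

instance : CommRing (TwAlg hsΛ S lam ψ Q M) :=
  { (inferInstance : Ring (TwAlg hsΛ S lam ψ Q M)) with
    mul_comm := fun a b => IsMulCommutative.is_comm.comm a b }

instance twAlgCommSemiring : CommSemiring (TwAlg hsΛ S lam ψ Q M) :=
  (inferInstance : CommRing (TwAlg hsΛ S lam ψ Q M)).toCommSemiring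

instance twAlgAlgebra : Algebra Λ (TwAlg hsΛ S lam ψ Q M) := inferInstance

instance : Module.Finite Λ (TwAlg hsΛ S lam ψ Q M) := by
  have : ∀ j, Module.Finite Λ (LevelCoh hsΛ S lam ψ Q M j) := fun j =>
    finite_cohLoc _ _ (maximalIdeal_le_lamIdeal hsΛ S lam)
  exact Module.Finite.of_injective (TwAlg hsΛ S lam ψ Q M).val.toLinearMap Subtype.val_injective

instance : IsNoetherianRing (TwAlg hsΛ S lam ψ Q M) := isNoetherian_of_tower Λ inferInstance

instance algebraO : Algebra O (TwAlg hsΛ S lam ψ Q M) :=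
  ((algebraMap Λ (TwAlg hsΛ S lam ψ Q M)).comp (algebraMap O Λ)).toAlgebra

instance : IsScalarTower O Λ (TwAlg hsΛ S lam ψ Q M) :=
  IsScalarTower.of_algebraMap_eq fun _ => rfl

/-- The localised away algebra onto the algebra of the family. -/
def actRange : Localization.AtPrime (lamIdeal hsΛ S lam) →ₐ[Λ] TwAlg hsΛ S lam ψ Q M :=
  (actLoc hsΛ S lam ψ Q M).rangeRestrict

theorem actRange_surjective : Function.Surjective (actRange hsΛ S lam ψ Q M) :=
  (actLoc hsΛ S lam ψ Q M).rangeRestrict_surjective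

/-- The class of a Hecke polynomial in the algebra of the family. -/
def twClass : AwayPoly Λ (↑S : Set ℕ) →ₐ[Λ] TwAlg hsΛ S lam ψ Q M :=
  (actRange hsΛ S lam ψ Q M).comp (IsScalarTower.toAlgHom Λ _ _)

/-- `twClass` acts through the Hecke polynomial. -/
theorem twClass_apply (P : AwayPoly Λ (↑S : Set ℕ)) (j : J) (u : LevelCoh hsΛ S lam ψ Q M j) :
    (twClass hsΛ S lam ψ Q M P : TwEnd hsΛ S lam ψ Q M) j u =
      awayIncl Λ (↑S : Set ℕ) P • u := by
  show (IsLocalization.liftAlgHom (M := (lamIdeal hsΛ S lam).primeCompl) _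
    (algebraMap (AwayPoly Λ (↑S : Set ℕ)) (Localization.AtPrime (lamIdeal hsΛ S lam)) P) :
      Localization (awayMonoid (lamIdeal hsΛ S lam))) • u = _
  refine (congrArg (· • u) (IsLocalization.lift_eq _ P)).trans ?_
  exact algebraMap_smul (R := HeckePoly Λ) (Localization (awayMonoid (lamIdeal hsΛ S lam)))
    (awayIncl Λ (↑S : Set ℕ) P) u

theorem isUnit_twClass {P : AwayPoly Λ (↑S : Set ℕ)} (hP : P ∉ lamIdeal hsΛ S lam) :
    IsUnit (twClass hsΛ S lam ψ Q M P) :=
  (IsLocalization.map_units (Localization.AtPrime (lamIdeal hsΛ S lam))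
    (⟨P, hP⟩ : (lamIdeal hsΛ S lam).primeCompl)).map (actRange hsΛ S lam ψ Q M)

section Nontrivial

variable [Nontrivial (TwAlg hsΛ S lam ψ Q M)]

instance isLocalRing_twAlg : IsLocalRing (TwAlg hsΛ S lam ψ Q M) :=
  IsLocalRing.of_surjective' (actRange hsΛ S lam ψ Q M).toRingHom
    (actRange_surjective hsΛ S lam ψ Q M)

instance : IsAdicComplete (maximalIdeal (TwAlg hsΛ S lam ψ Q M)) (TwAlg hsΛ S lam ψ Q M) :=
  isAdicComplete_maximalIdeal_of_finite Λ _

/-- Elements of the ideal of the system are non-units. -/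
theorem twClass_mem_maximalIdeal {P : AwayPoly Λ (↑S : Set ℕ)} (hP : P ∈ lamIdeal hsΛ S lam) :
    twClass hsΛ S lam ψ Q M P ∈ maximalIdeal (TwAlg hsΛ S lam ψ Q M) := by
  have : IsLocalHom (actRange hsΛ S lam ψ Q M).toRingHom :=
    isLocalHom_of_surjective' (actRange hsΛ S lam ψ Q M).toRingHom
      (actRange_surjective hsΛ S lam ψ Q M)
  refine fun h => ?_
  have h1 := IsLocalHom.map_nonunit (f := (actRange hsΛ S lam ψ Q M).toRingHom)
    (algebraMap _ (Localization.AtPrime (lamIdeal hsΛ S lam)) P) h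
  exact (IsLocalization.AtPrime.isUnit_to_map_iff _ (lamIdeal hsΛ S lam) P).mp h1 hP

theorem isLocalHom_algebraMap_twAlg :
    IsLocalHom (algebraMap O (TwAlg hsΛ S lam ψ Q M)) := by
  refine ⟨fun o ho => ?_⟩
  by_contra hu
  refine twClass_mem_maximalIdeal hsΛ S lam ψ Q M
    (P := algebraMap Λ _ (algebraMap O Λ o)) ?_ ?_
  · show lamHom O Λ hsΛ S lam _ = 0
    rw [lamHom_algebraMap]
    exact (residue_eq_zero_iff o).mpr hu
  · rw [AlgHom.commutes]
    exact ho

theorem surjective_residue_twAlg :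
    Function.Surjective (residue (TwAlg hsΛ S lam ψ Q M) ∘
      algebraMap O (TwAlg hsΛ S lam ψ Q M)) := by
  intro y
  obtain ⟨x, rfl⟩ := Ideal.Quotient.mk_surjective y
  obtain ⟨z, rfl⟩ := (actRange_surjective hsΛ S lam ψ Q M) x
  obtain ⟨⟨a, s⟩, rfl⟩ := IsLocalization.mk'_surjective (lamIdeal hsΛ S lam).primeCompl z
  have hs0 : lamHom O Λ hsΛ S lam (s : AwayPoly Λ (↑S : Set ℕ)) ≠ 0 := s.2
  obtain ⟨o, ho⟩ := Ideal.Quotient.mk_surjective
    (lamHom O Λ hsΛ S lam a / lamHom O Λ hsΛ S lam (s : AwayPoly Λ (↑S : Set ℕ)))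
  refine ⟨o, ((Ideal.Quotient.mk_eq_mk_iff_sub_mem _ _).mpr ?_).symm⟩
  have hmem := twClass_mem_maximalIdeal hsΛ S lam ψ Q M
    (P := a - algebraMap Λ _ (algebraMap O Λ o) * s) (by
      show lamHom O Λ hsΛ S lam _ = 0
      rw [map_sub, map_mul, lamHom_algebraMap, sub_eq_zero]
      exact ((eq_div_iff hs0).mp ho).symm)
  set q : Localization.AtPrime (lamIdeal hsΛ S lam) := IsLocalization.mk' _ a s with hq
  have e : twClass hsΛ S lam ψ Q M (a - algebraMap Λ _ (algebraMap O Λ o) * s) =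
      twClass hsΛ S lam ψ Q M s * ((actRange hsΛ S lam ψ Q M) q -
        algebraMap O (TwAlg hsΛ S lam ψ Q M) o) := by
    rw [map_sub, map_mul, AlgHom.commutes, mul_sub, mul_comm (algebraMap Λ _ _)]
    congr 1
    exact (congrArg (actRange hsΛ S lam ψ Q M) (IsLocalization.mk'_spec' _ a s).symm).trans
      (map_mul (actRange hsΛ S lam ψ Q M) _ q)
  rw [e] at hmem
  exact ((Ideal.IsPrime.mem_or_mem inferInstance hmem).resolve_left fun h =>
    h (isUnit_twClass hsΛ S lam ψ Q M s.2))

/-- The residue of a class is the residual system. -/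
theorem toResidue_twClass (P : AwayPoly Λ (↑S : Set ℕ)) :
    toResidue (isLocalHom_algebraMap_twAlg hsΛ S lam ψ Q M)
      (surjective_residue_twAlg hsΛ S lam ψ Q M) (twClass hsΛ S lam ψ Q M P) =
        lamHom O Λ hsΛ S lam P := by
  obtain ⟨o, ho⟩ := Ideal.Quotient.mk_surjective (lamHom O Λ hsΛ S lam P)
  have h := (toResidue_eq_zero_iff (isLocalHom_algebraMap_twAlg hsΛ S lam ψ Q M)
    (surjective_residue_twAlg hsΛ S lam ψ Q M)).mpr
    (twClass_mem_maximalIdeal hsΛ S lam ψ Q M (P := P - algebraMap Λ _ (algebraMap O Λ o)) (by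
      show lamHom O Λ hsΛ S lam _ = 0
      rw [map_sub, lamHom_algebraMap, sub_eq_zero]
      exact ho.symm))
  rw [map_sub, map_sub, AlgHom.commutes, sub_eq_zero] at h
  rw [h, show algebraMap Λ (TwAlg hsΛ S lam ψ Q M) (algebraMap O Λ o) =
    algebraMap O (TwAlg hsΛ S lam ψ Q M) o from rfl, AlgHom.commutes]
  exact ho

end Nontrivial

end Fermat.Agent.Engine.TRep
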